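import Mathlib

/-!
# Two dimensional representations from quadratic relations

A representation of dimension at most two in which every element satisfies `g + χ(g) g⁻¹ = c(g)`
gives a two dimensional representation with trace `c` and determinant `χ`.
-/

namespace Fermat.Agent.Attach

variable {G : Type*} [Group G] {R : Type*} [CommRing R]

/-- `σ g + χ g • σ g⁻¹` is the scalar `c g`. -/
def IsGoodMat {ι : Type*} [Fintype ι] [DecidableEq ι] (σ : G →* Matrix ι ι R) (χ : G →* R)
    (c : G → R) : Prop :=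
  ∀ g, σ g + χ g • σ g⁻¹ = c g • (1 : Matrix ι ι R)

/-- All entries of `M - 1` lie in `I`. -/
def NearOne {ι : Type*} [DecidableEq ι] (I : Ideal R) (M : Matrix ι ι R) : Prop :=
  ∀ i j, M i j - (1 : Matrix ι ι R) i j ∈ I

theorem isUnit_char (χ : G →* R) (g : G) : IsUnit (χ g) := (Group.isUnit g).map χ

/-- The diagonal representation `λ ⊕ χ/λ`. -/
theorem exists_diag (lam χ : G →* R) :
    ∃ τ : G →* Matrix (Fin 2) (Fin 2) R,
      (∀ g, (τ g).det = χ g) ∧ (∀ g, (τ g).trace = lam g + χ g * lam g⁻¹) ∧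
      ∀ (I : Ideal R) (g : G), lam g - 1 ∈ I → χ g - 1 ∈ I → NearOne I (τ g) := by
  have hinv : ∀ g, lam g * lam g⁻¹ = 1 := fun g => by rw [← map_mul, mul_inv_cancel, map_one]
  refine ⟨{ toFun := fun g => Matrix.diagonal ![lam g, χ g * lam g⁻¹]
            map_one' := ?_
            map_mul' := ?_ }, ?_, ?_, ?_⟩
  · ext i j
    fin_cases i <;> fin_cases j <;> simp
  · intro g h
    rw [Matrix.diagonal_mul_diagonal]
    congr 1
    ext i
    fin_cases i
    · simp
    · simp [mul_inv_rev]; ring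
  · intro g
    simp [Matrix.det_diagonal]
    linear_combination χ g * hinv g
  · intro g
    simp
  · intro I g h1 h2 i j
    fin_cases i <;> fin_cases j <;> simp
    · exact h1
    · have e : χ g * lam g⁻¹ - 1 = (χ g - 1) * lam g⁻¹ - (lam g - 1) * lam g⁻¹ := by
        linear_combination hinv g
      rw [e]
      exact I.sub_mem (I.mul_mem_right _ h2) (I.mul_mem_right _ h1)

/-- Case where everything is scalar. -/
theorem exists_twoDim_of_scalar {ι : Type*} [Fintype ι] [DecidableEq ι] [Nonempty ι]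
    (σ : G →* Matrix ι ι R) (χ : G →* R) (c : G → R) (hgood : IsGoodMat σ χ c)
    (hsc : ∀ g, ∃ a : R, σ g = a • (1 : Matrix ι ι R)) :
    ∃ τ : G →* Matrix (Fin 2) (Fin 2) R,
      (∀ g, (τ g).det = χ g) ∧ (∀ g, (τ g).trace = c g) ∧
      ∀ (I : Ideal R) (g : G), NearOne I (σ g) → χ g - 1 ∈ I → NearOne I (τ g) := by
  choose a ha using hsc
  obtain ⟨i⟩ := ‹Nonempty ι›
  have hai : ∀ g, σ g i i = a g := fun g => by rw [ha]; simp
  let lam : G →* R :=
    { toFun := a
      map_one' := by rw [← hai]; simp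
      map_mul' := fun g h => by rw [← hai, map_mul, ha g, ha h]; simp [mul_comm] }
  obtain ⟨τ, h1, h2, h3⟩ := exists_diag lam χ
  refine ⟨τ, h1, fun g => ?_, fun I g hg hχ => h3 I g ?_ hχ⟩
  · rw [h2]
    have h := congrFun (congrFun (hgood g) i) i
    simp [hai] at h
    exact h
  · have h := hg i i
    rw [hai, Matrix.one_apply_eq] at h
    exact h

/-- For a 2×2 matrix `A` with inverse `B`, `A + det A • B` is the scalar `trace A`. -/
theorem add_det_smul_inv (A B : Matrix (Fin 2) (Fin 2) R) (h : A * B = 1) :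
    A + A.det • B = A.trace • (1 : Matrix (Fin 2) (Fin 2) R) := by
  have h1 : A.det • B = A.adjugate := by
    have := congrArg (A.adjugate * ·) h
    simp only [← mul_assoc, Matrix.adjugate_mul, mul_one] at this
    rwa [Matrix.smul_mul, one_mul] at this
  rw [h1]
  ext i j
  fin_cases i <;> fin_cases j <;> simp [Matrix.adjugate_fin_two, Matrix.trace_fin_two]
  all_goals ring

variable [IsDomain R]

/-- For a good non-scalar matrix map in dimension two the quadratic relation is Cayley–Hamilton: it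
gives determinant and trace. -/
theorem det_and_trace_of_good (σ : G →* Matrix (Fin 2) (Fin 2) R) (χ : G →* R) (c : G → R)
    (hgood : IsGoodMat σ χ c) (hns : ∃ h, ∀ a : R, σ h ≠ a • (1 : Matrix (Fin 2) (Fin 2) R))
    (g : G) : (σ g).det = χ g ∧ (σ g).trace = c g := by
  have hinv : ∀ g, σ g * σ g⁻¹ = 1 := fun g => by rw [← map_mul, mul_inv_cancel, map_one]
  have key : ∀ g, ((σ g).det - χ g) • σ g⁻¹ =
      ((σ g).trace - c g) • (1 : Matrix (Fin 2) (Fin 2) R) := fun g => by
    rw [sub_smul, sub_smul, ← add_det_smul_inv (σ g) _ (hinv g), ← hgood g]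
    abel
  have nsc : ∀ g, (∀ a : R, σ g ≠ a • (1 : Matrix (Fin 2) (Fin 2) R)) → (σ g).det = χ g := by
    intro g hg
    by_contra hne
    have hd : (σ g).det - χ g ≠ 0 := sub_ne_zero.mpr hne
    have h := key g
    have h01 := congrFun (congrFun h 0) 1
    have h10 := congrFun (congrFun h 1) 0
    have h00 := congrFun (congrFun h 0) 0
    have h11 := congrFun (congrFun h 1) 1
    simp [hd] at h01 h10 h00 h11
    have h0011 : σ g⁻¹ 0 0 = σ g⁻¹ 1 1 := mul_left_cancel₀ hd (h00.trans h11.symm)
    have hinvsc : σ g⁻¹ = (σ g⁻¹ 0 0) • (1 : Matrix (Fin 2) (Fin 2) R) := by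
      ext i j
      fin_cases i <;> fin_cases j <;> simp [h01, h10, h0011]
    have hu : IsUnit (σ g⁻¹ 0 0) := by
      have hd' := Matrix.isUnit_iff_isUnit_det _ |>.mp ((Group.isUnit g⁻¹).map σ)
      rw [hinvsc, Matrix.det_smul, Matrix.det_one, mul_one] at hd'
      exact (isUnit_pow_iff (by simp)).mp hd'
    refine hg (hu.unit⁻¹ : Rˣ) ?_
    have h2 := hinv g
    rw [hinvsc, Matrix.mul_smul, mul_one] at h2
    have h3 := congrArg ((hu.unit⁻¹ : Rˣ) • ·) h2
    simp only [Units.smul_def, smul_smul, IsUnit.val_inv_mul, one_smul] at h3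
    exact h3
  obtain ⟨h, hh⟩ := hns
  have hdet : (σ g).det = χ g := by
    by_cases hg : ∀ a : R, σ g ≠ a • (1 : Matrix (Fin 2) (Fin 2) R)
    · exact nsc g hg
    push Not at hg
    obtain ⟨a, ha⟩ := hg
    have hgh : ∀ b : R, σ (g * h) ≠ b • (1 : Matrix (Fin 2) (Fin 2) R) := by
      intro b hb
      rw [map_mul, ha, Matrix.smul_mul, one_mul] at hb
      have hu : IsUnit a := by
        have hd' := Matrix.isUnit_iff_isUnit_det _ |>.mp ((Group.isUnit g).map σ)
        rw [ha, Matrix.det_smul, Matrix.det_one, mul_one] at hd'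
        exact (isUnit_pow_iff (by simp)).mp hd'
      refine hh ((hu.unit⁻¹ : Rˣ) * b) ?_
      have h3 := congrArg ((hu.unit⁻¹ : Rˣ) • ·) hb
      simp only [Units.smul_def, smul_smul, IsUnit.val_inv_mul, one_smul] at h3
      exact h3
    have e := nsc _ hgh
    rw [map_mul, map_mul, Matrix.det_mul, nsc h hh] at e
    exact (isUnit_char χ h).mul_right_cancel e
  refine ⟨hdet, ?_⟩
  have h2 := key g
  rw [hdet, sub_self, zero_smul] at h2
  have h00 := congrFun (congrFun h2 0) 0
  simp at h00
  linear_combination -h00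

/-- The classification in dimension at most two. -/
theorem exists_twoDim_of_good {d : ℕ} (hd : d = 1 ∨ d = 2)
    (σ : G →* Matrix (Fin d) (Fin d) R) (χ : G →* R) (c : G → R) (hgood : IsGoodMat σ χ c) :
    ∃ τ : G →* Matrix (Fin 2) (Fin 2) R,
      (∀ g, (τ g).det = χ g) ∧ (∀ g, (τ g).trace = c g) ∧
      ∀ (I : Ideal R) (g : G), NearOne I (σ g) → χ g - 1 ∈ I → NearOne I (τ g) := by
  have : Nonempty (Fin d) := by rcases hd with rfl | rfl <;> exact ⟨0⟩
  by_cases hsc : ∀ g, ∃ a : R, σ g = a • (1 : Matrix (Fin d) (Fin d) R)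
  · exact exists_twoDim_of_scalar σ χ c hgood hsc
  rcases hd with rfl | rfl
  · refine absurd (fun g => ⟨σ g 0 0, ?_⟩) hsc
    ext i j
    fin_cases i; fin_cases j
    simp
  push Not at hsc
  exact ⟨σ, fun g => (det_and_trace_of_good σ χ c hgood hsc g).1,
    fun g => (det_and_trace_of_good σ χ c hgood hsc g).2, fun I g hg _ => hg⟩

omit [IsDomain R] in
/-- The characteristic polynomial of a `2 × 2` matrix from trace and determinant. -/
theorem charpoly_of_det_trace [Nontrivial R] (A : Matrix (Fin 2) (Fin 2) R) {t d : R}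
    (ht : A.trace = t) (hd : A.det = d) :
    A.charpoly = Polynomial.X ^ 2 - Polynomial.C t * Polynomial.X + Polynomial.C d := by
  rw [Matrix.charpoly_fin_two, ht, hd]

end Fermat.Agent.Attach
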