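import Mathlib.LinearAlgebra.FreeModule.PID
import Mathlib.RingTheory.Filtration
import Mathlib.RingTheory.Localization.FractionRing
import Fermat.Agent.Attach.TwoDim

/-!
# From a small invariant subspace to a lattice

A stable lattice in an invariant subspace of dimension at most two, spanned by integral vectors,
gives a two dimensional representation over the ring of integers with prescribed trace and
determinant. This is the integrality step in attaching `λ`-adic representations.
-/

noncomputable section

namespace Fermat.Agent.Attach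

/-- Over a Noetherian local ring, membership in a submodule can be tested modulo powers of `I`. -/
theorem mem_of_forall_mem_sup {O M : Type*} [CommRing O] [IsNoetherianRing O] [IsLocalRing O]
    [AddCommGroup M] [Module O M] [Module.Finite O M] (P : Submodule O M) (I : Ideal O)
    (hI : I ≠ ⊤) (x : M) (h : ∀ n : ℕ, x ∈ P ⊔ I ^ n • ⊤) : x ∈ P := by
  rw [← Submodule.Quotient.mk_eq_zero, ← Submodule.mem_bot O,
    ← Ideal.iInf_pow_smul_eq_bot_of_isLocalRing (M := M ⧸ P) I hI, Submodule.mem_iInf]
  intro n
  obtain ⟨a, ha, b, hb, rfl⟩ := Submodule.mem_sup.mp (h n)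
  rw [Submodule.Quotient.mk_add, (Submodule.Quotient.mk_eq_zero P).mpr ha, zero_add]
  have : P.mkQ b ∈ Submodule.map P.mkQ (I ^ n • ⊤) := Submodule.mem_map_of_mem hb
  rw [Submodule.map_smul''] at this
  exact Submodule.smul_mono le_rfl le_top this

/-- A matrix with all entries in `I` lies in `I • ⊤`. -/
theorem matrix_mem_smul_top {O : Type*} [CommRing O] {ι : Type*} [Fintype ι] [DecidableEq ι]
    (I : Ideal O) (X : Matrix ι ι O) (h : ∀ i j, X i j ∈ I) :
    X ∈ I • (⊤ : Submodule O (Matrix ι ι O)) := by
  rw [Matrix.matrix_eq_sum_single X]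
  refine Submodule.sum_mem _ fun i _ => Submodule.sum_mem _ fun j _ => ?_
  have e : Matrix.single i j (X i j) = X i j • Matrix.single i j (1 : O) := by
    rw [Matrix.smul_single, smul_eq_mul, mul_one]
  rw [e]
  exact Submodule.smul_mem_smul (h i j) Submodule.mem_top

/-- Vectors over a subfield that are independent stay independent. -/
theorem linearIndependent_map_field {E L : Type*} [Field E] [Field L] (j : E →+* L) {r : ℕ}
    {ι : Type*} [Fintype ι] (v : ι → Fin r → E) (hv : LinearIndependent E v) :
    LinearIndependent L (fun i => j ∘ v i) := by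
  classical
  obtain ⟨g, hg⟩ := (Fintype.linearCombination E v).exists_leftInverse_of_injective
    (LinearMap.ker_eq_bot.mpr (linearIndependent_iff_injective_fintypeLinearCombination.mp hv))
  let A : Matrix ι (Fin r) E := LinearMap.toMatrix' g
  have hA : ∀ i, A.mulVec (v i) = Pi.single i 1 := fun i => by
    rw [LinearMap.toMatrix'_mulVec]
    have := LinearMap.congr_fun hg (Pi.single i 1)
    simpa [Fintype.linearCombination_apply, Pi.single_apply] using this
  refine Fintype.linearIndependent_iff.mpr fun a ha i => ?_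
  have h2 := congrFun (congrArg ((A.map j).mulVec ·) ha) i
  simp only [Matrix.mulVec_sum, Matrix.mulVec_smul, Matrix.mulVec_zero, Finset.sum_apply,
    Pi.smul_apply, Pi.zero_apply] at h2
  have e : ∀ x, (A.map j).mulVec (j ∘ v x) i = if i = x then 1 else 0 := fun x => by
    rw [← RingHom.map_mulVec, hA, Pi.single_apply]
    split <;> simp
  simpa [e] using h2

/-- An injective integral matrix stays injective over a field of characteristic zero. -/
theorem mulVec_map_injective {K : Type} [Field K] [CharZero K] {r : ℕ} {ι : Type} [Fintype ι]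
    (C : Matrix (Fin r) ι ℤ)
    (hC : Function.Injective C.mulVec) :
    Function.Injective (C.map (Int.castRingHom K)).mulVec := by
  have h1 : LinearIndependent ℤ C.col := Matrix.mulVec_injective_iff.mp hC
  have h2 : LinearIndependent ℚ (fun i => (Int.cast : ℤ → ℚ) ∘ C.col i) := by
    rw [← LinearIndependent.iff_fractionRing ℤ ℚ]
    exact h1.map' ((Algebra.linearMap ℤ ℚ).compLeft (Fin r)) (LinearMap.ker_eq_bot.mpr
      fun x y h => funext fun i => Int.cast_injective
        (congrFun h i : ((x i : ℤ) : ℚ) = (y i : ℚ)))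
  have h3 := linearIndependent_map_field (algebraMap ℚ K) _ h2
  have e : (C.map (Int.castRingHom K)).col = fun i =>
      (algebraMap ℚ K) ∘ ((Int.cast : ℤ → ℚ) ∘ C.col i) :=
    funext fun i => funext fun x => (map_intCast (algebraMap ℚ K) _).symm
  refine Matrix.mulVec_injective_iff.mpr ?_
  rw [e]
  exact h3

/-- A subspace with a basis whose coordinates lie in the fraction field of `R` is spanned by its
`R`-integral points. -/
theorem le_span_integral_points {R E L : Type} [CommRing R] [IsDomain R] [Field E] [Algebra R E]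
    [IsFractionRing R E] [Field L] (i : E →+* L) {r : ℕ} (W : Submodule L (Fin r → L))
    {ι : Type*} [Fintype ι] (b : Module.Basis ι L W)
    (hb : ∀ k a, ∃ e : E, i e = (b k : Fin r → L) a) :
    W ≤ Submodule.span L {u | u ∈ W ∧ ∃ x : Fin r → R, i.comp (algebraMap R E) ∘ x = u} := by
  intro w hw
  rw [show w = ((⟨w, hw⟩ : W) : Fin r → L) from rfl, ← b.sum_repr ⟨w, hw⟩]
  simp only [AddSubmonoidClass.coe_finsetSum, Submodule.coe_smul]
  refine Submodule.sum_mem _ fun k _ => Submodule.smul_mem _ _ ?_
  choose e he using hb k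
  obtain ⟨s, hs⟩ := IsLocalization.exist_integer_multiples_of_finite (nonZeroDivisors R) e
  choose y hy using hs
  set jR := i.comp (algebraMap R E)
  have hy' : jR ∘ y = jR s • (b k : Fin r → L) := funext fun a => by
    show i (algebraMap R E (y a)) = _
    rw [hy a, Algebra.smul_def, map_mul, he]
    rfl
  have hs0 : jR s ≠ 0 := fun h =>
    nonZeroDivisors.coe_ne_zero s ((i.injective.comp (IsFractionRing.injective R E))
      (h.trans (map_zero jR).symm))
  have hin : jR s • (b k : Fin r → L) ∈
      Submodule.span L {u | u ∈ W ∧ ∃ x : Fin r → R, jR ∘ x = u} :=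
    Submodule.subset_span ⟨W.smul_mem _ (b k).2, y, hy'⟩
  have h3 := Submodule.smul_mem _ (jR s)⁻¹ hin
  rwa [smul_smul, inv_mul_cancel₀ hs0, one_smul] at h3

/-- A stable lattice in a small invariant subspace spanned by integral vectors gives a
two-dimensional representation, congruent to `1` wherever the big one is. -/
theorem exists_lattice_rep {G : Type*} [Group G] {R L : Type} [CommRing R] [IsDomain R]
    [IsPrincipalIdealRing R] [Field L] (j : R →+* L) (hj : Function.Injective j) {r : ℕ}
    (ρ : G →* Matrix (Fin r) (Fin r) R) (χ : G →* R) (c : G → R)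
    (W : Submodule L (Fin r → L))
    (hd : Module.finrank L W = 1 ∨ Module.finrank L W = 2)
    (hstab : ∀ g, ∀ w ∈ W, ((ρ g).map j).mulVec w ∈ W)
    (hgood : ∀ g, ∀ w ∈ W, ((ρ g + χ g • ρ g⁻¹).map j).mulVec w = j (c g) • w)
    (hgen : W ≤ Submodule.span L {u | u ∈ W ∧ ∃ x : Fin r → R, j ∘ x = u}) :
    ∃ τ : G →* Matrix (Fin 2) (Fin 2) R,
      (∀ g, (τ g).det = χ g) ∧ (∀ g, (τ g).trace = c g) ∧
      ∀ (a : R) (g : G), a ≠ 0 → NearOne (Ideal.span {a}) (ρ g) →
        χ g - 1 ∈ Ideal.span {a} → NearOne (Ideal.span {a}) (τ g) := by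
  classical
  let Λ : Submodule R (Fin r → R) :=
    { carrier := {x | j ∘ x ∈ W}
      add_mem' := fun {a b} ha hb => by
        have e : j ∘ (a + b) = j ∘ a + j ∘ b := funext fun i => map_add j _ _
        show j ∘ (a + b) ∈ W
        rw [e]; exact W.add_mem ha hb
      zero_mem' := by
        have e : j ∘ (0 : Fin r → R) = 0 := funext fun i => map_zero j
        show j ∘ (0 : Fin r → R) ∈ W
        rw [e]; exact W.zero_mem
      smul_mem' := fun a {x} hx => by
        have e : j ∘ (a • x) = j a • (j ∘ x) := funext fun i => map_mul j _ _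
        show j ∘ (a • x) ∈ W
        rw [e]; exact W.smul_mem _ hx }
  have : Module.Finite R Λ := Module.Finite.of_fg (IsNoetherian.noetherian Λ)
  have : Module.Free R Λ := Module.free_of_finite_type_torsion_free'
  let e := Module.finBasis R Λ
  let u : Fin (Module.finrank R Λ) → Fin r → L := fun i => j ∘ (e i : Fin r → R)
  have hu_mem : ∀ i, u i ∈ W := fun i => (e i).2
  have hu_li : LinearIndependent L u := by
    have h1 : LinearIndependent R
        (fun i => algebraMap R (FractionRing R) ∘ (e i : Fin r → R)) := by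
      let f : Λ →ₗ[R] (Fin r → FractionRing R) :=
        ((Algebra.linearMap R (FractionRing R)).compLeft (Fin r)).comp Λ.subtype
      refine e.linearIndependent.map' f (LinearMap.ker_eq_bot.mpr fun a b h => ?_)
      exact Subtype.ext (funext fun i => IsFractionRing.injective R (FractionRing R) (congrFun h i))
    have h2 := linearIndependent_map_field (IsFractionRing.lift (K := FractionRing R) hj) _
      ((LinearIndependent.iff_fractionRing R (FractionRing R)).mp h1)
    convert h2 using 1
    funext i z
    exact (IsFractionRing.lift_algebraMap hj _).symm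
  have hspan : W = Submodule.span L (Set.range u) := by
    refine le_antisymm (hgen.trans (Submodule.span_le.mpr ?_))
      (Submodule.span_le.mpr (by rintro _ ⟨i, rfl⟩; exact hu_mem i))
    rintro _ ⟨hw, x, rfl⟩
    have hrepr := congrArg Subtype.val (e.sum_repr ⟨x, hw⟩)
    simp only [AddSubmonoidClass.coe_finsetSum, Submodule.coe_smul] at hrepr
    have e2 : j ∘ x = ∑ a, j (e.repr ⟨x, hw⟩ a) • u a := funext fun z => by
      conv_lhs => rw [← hrepr]
      simp only [Function.comp_apply, Finset.sum_apply, Pi.smul_apply, smul_eq_mul, map_sum,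
        map_mul, u]
    rw [e2]
    exact Submodule.sum_mem _ fun a _ =>
      Submodule.smul_mem _ _ (Submodule.subset_span ⟨a, rfl⟩)
  have hrank : Module.finrank R Λ = 1 ∨ Module.finrank R Λ = 2 := by
    have h2 : Module.finrank L W = Module.finrank R Λ := by
      rw [hspan, finrank_span_eq_card hu_li, Fintype.card_fin]
    omega
  have hmap : ∀ (A : Matrix (Fin r) (Fin r) R) (x : Fin r → R),
      j ∘ A.mulVec x = (A.map j).mulVec (j ∘ x) := fun A x =>
    funext fun i => RingHom.map_mulVec j A x i
  have hΛstab : ∀ g, ∀ x ∈ Λ, (ρ g).mulVec x ∈ Λ := by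
    intro g x hx
    show j ∘ (ρ g).mulVec x ∈ W
    rw [hmap]
    exact hstab g _ hx
  let σ : G →* Matrix (Fin (Module.finrank R Λ)) (Fin (Module.finrank R Λ)) R :=
    { toFun := fun g => LinearMap.toMatrixAlgEquiv e
        ((Matrix.toLinAlgEquiv' (ρ g)).restrict (hΛstab g))
      map_one' := by
        rw [← map_one (LinearMap.toMatrixAlgEquiv e)]
        exact congrArg _ (LinearMap.ext fun w => Subtype.ext (by simp))
      map_mul' := fun g h => by
        rw [← map_mul (LinearMap.toMatrixAlgEquiv e)]
        exact congrArg _ (LinearMap.ext fun w => Subtype.ext (by simp)) }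
  have hσgood : IsGoodMat σ χ c := fun g => by
    show LinearMap.toMatrixAlgEquiv e _ + χ g • LinearMap.toMatrixAlgEquiv e _ = _
    rw [← map_smul, ← map_add, ← map_one (LinearMap.toMatrixAlgEquiv e), ← map_smul]
    refine congrArg _ (LinearMap.ext fun x => Subtype.ext ?_)
    show (ρ g).mulVec (x : Fin r → R) + χ g • (ρ g⁻¹).mulVec (x : Fin r → R) =
      c g • (x : Fin r → R)
    rw [← Matrix.smul_mulVec, ← Matrix.add_mulVec]
    refine funext fun i => hj ?_
    have h1 := congrFun ((hmap _ (x : Fin r → R)).trans (hgood g _ x.2)) i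
    rw [Pi.smul_apply, smul_eq_mul, map_mul]
    exact h1
  obtain ⟨τ, hdet, htr, hnear⟩ := exists_twoDim_of_good hrank σ χ c hσgood
  refine ⟨τ, hdet, htr, fun a g ha hR hχ => hnear _ g (fun i k => ?_) hχ⟩
  set x : Fin r → R := (e k : Fin r → R) with hx
  have hdiv : ∀ z, (ρ g).mulVec x z - x z ∈ Ideal.span {a} := by
    intro z
    have e1 : (ρ g).mulVec x z - x z =
        ∑ b, (ρ g z b - (1 : Matrix (Fin r) (Fin r) R) z b) * x b := by
      conv_lhs => arg 2; rw [← congrFun (Matrix.one_mulVec x) z]
      simp only [Matrix.mulVec, dotProduct, sub_mul, Finset.sum_sub_distrib]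
    rw [e1]
    exact Ideal.sum_mem _ fun b _ => Ideal.mul_mem_right _ _ (hR z b)
  choose y hy using fun z => Ideal.mem_span_singleton'.mp (hdiv z)
  have hyΛ : y ∈ Λ := by
    show j ∘ y ∈ W
    have hdm : (ρ g).mulVec x - x ∈ Λ := Λ.sub_mem (hΛstab g x (e k).2) (e k).2
    have hd' : j ∘ ((ρ g).mulVec x - x) = j a • (j ∘ y) := funext fun z => by
      show j ((ρ g).mulVec x z - x z) = j a * j (y z)
      rw [← hy z, map_mul, mul_comm]
    have ha' : j a ≠ 0 := fun h => ha (hj (h.trans (map_zero j).symm))
    have hd2 : j a • (j ∘ y) ∈ W := hd' ▸ (hdm : j ∘ ((ρ g).mulVec x - x) ∈ W)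
    have h3 := W.smul_mem (j a)⁻¹ hd2
    rwa [smul_smul, inv_mul_cancel₀ ha', one_smul] at h3
  have heq : (Matrix.toLinAlgEquiv' (ρ g)).restrict (hΛstab g) (e k) - e k =
      a • (⟨y, hyΛ⟩ : Λ) := Subtype.ext (funext fun z => by
    show (ρ g).mulVec x z - x z = a * y z
    rw [← hy z, mul_comm])
  have h2 := congrArg (fun q => e.repr q i) heq
  simp only [map_sub, Finsupp.sub_apply, map_smul, Finsupp.smul_apply, smul_eq_mul,
    e.repr_self, Finsupp.single_apply] at h2
  show LinearMap.toMatrixAlgEquiv e _ i k - _ ∈ _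
  rw [LinearMap.toMatrixAlgEquiv_apply, Matrix.one_apply]
  refine Ideal.mem_span_singleton.mpr ⟨e.repr ⟨y, hyΛ⟩ i, ?_⟩
  rw [← h2]
  congr 1
  simp only [eq_comm]

end Fermat.Agent.Attach
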