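import Fermat.Agent.Attach.Interface

/-!
# Matrix representations mod `p^n` of a torsion model

A torsion model turns the Galois action on `J₀(N)[p^n]` into matrix representations `rep` over
`ZMod (p^n)` of finite level, commuting with the Hecke matrices, unramified away from `N p`, and
satisfying the Eichler–Shimura relation at Frobenius.
-/

noncomputable section

namespace Fermat.Agent.Attach

open ModularCurve

local notation "Qbar" => AlgebraicClosure ℚ
local notation "GQ" => (AlgebraicClosure ℚ ≃ₐ[ℚ] AlgebraicClosure ℚ)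

/-- The anemic Hecke algebra. -/
abbrev AnemicAlg (N : ℕ) [NeZero N] := CuspForm.heckeAlgebra N 2 {q : ℕ | q ∣ N}

/-- A ring hom out of `T_S` lands in a subring as soon as the images of its generators do. -/
theorem forall_mem_of_T_mem {N : ℕ} [NeZero N] {S : Set ℕ} (hS : ∀ q, q ∣ N → q.Prime → q ∈ S)
    {R : Type*} [Ring R] (f : CuspForm.heckeAlgebra N 2 S →+* R) (C : Subring R)
    (h : ∀ (ℓ : ℕ) (hℓ : ℓ.Prime) (hℓN : ¬ ℓ ∣ N) (hℓS : ℓ ∉ S),
      f (CuspForm.heckeAlgebra.T hℓ hℓN hℓS) ∈ C)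
    (t : CuspForm.heckeAlgebra N 2 S) : f t ∈ C := by
  let W : Subalgebra ℤ (CuspForm.heckeAlgebra N 2 S) :=
    { Subring.comap f C with
      algebraMap_mem' := fun r => by
        show f (algebraMap ℤ _ r) ∈ C
        rw [eq_intCast, map_intCast]
        exact intCast_mem _ r }
  obtain ⟨x, hx⟩ := t
  refine Algebra.adjoin_induction (p := fun y hy => (⟨y, hy⟩ : CuspForm.heckeAlgebra N 2 S) ∈ W)
    ?_ (fun r => W.algebraMap_mem r) (fun x y _ _ a b => W.add_mem a b)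
    (fun x y _ _ a b => W.mul_mem a b) hx
  rintro y (⟨ℓ, hℓ, hℓN, hℓS, rfl⟩ | ⟨q, hqN, hq, hqS, rfl⟩)
  · exact h ℓ hℓ hℓN hℓS
  · exact absurd (hS q hqN hq) hqS

namespace TorsionModel

variable {N : ℕ} [NeZero N] {p : ℕ} (M : TorsionModel N p)

/-- The rank of the lattice `H`. -/
def rk : ℕ := Module.finrank ℤ M.H

/-- A basis of the lattice `H`. -/
def bas : Module.Basis (Fin M.rk) ℤ M.H := Module.finBasis ℤ M.H

/-- The Hecke action on `H` as integer matrices in the basis `bas`. -/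
def mat : AnemicAlg N →+* Matrix (Fin M.rk) (Fin M.rk) ℤ :=
  (LinearMap.toMatrixAlgEquiv M.bas).toRingEquiv.toRingHom.comp M.hecke

theorem mat_injective : Function.Injective M.mat :=
  (LinearMap.toMatrixAlgEquiv M.bas).injective.comp M.hecke_injective

/-- The projection `H → J₀(N)[p^n]` in coordinates. -/
def pt (n : ℕ) : (Fin M.rk → ℤ) →+ JZero N :=
  (M.proj n).comp M.bas.equivFun.symm.toLinearMap.toAddMonoidHom

/-- Reduction of coordinates mod `pⁿ`. -/
def redVec (n : ℕ) (v : Fin M.rk → ℤ) : Fin M.rk → ZMod (p ^ n) := fun i => (v i : ZMod (p ^ n))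

theorem pt_eq_zero_iff (n : ℕ) (v : Fin M.rk → ℤ) :
    M.pt n v = 0 ↔ ∀ i, ((p ^ n : ℕ) : ℤ) ∣ v i := by
  show M.proj n (M.bas.equivFun.symm v) = 0 ↔ _
  rw [M.proj_eq_zero]
  constructor
  · rintro ⟨w, hw⟩ i
    refine ⟨M.bas.equivFun w i, ?_⟩
    have h : v = M.bas.equivFun (p ^ n • w) := by rw [← hw, LinearEquiv.apply_symm_apply]
    rw [h, map_nsmul, Pi.smul_apply, nsmul_eq_mul]
  · intro h
    choose w hw using h
    refine ⟨M.bas.equivFun.symm w, ?_⟩
    apply M.bas.equivFun.injective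
    rw [LinearEquiv.apply_symm_apply, map_nsmul, LinearEquiv.apply_symm_apply]
    funext i
    rw [Pi.smul_apply, nsmul_eq_mul, hw]

theorem pt_eq_iff (n : ℕ) (v w : Fin M.rk → ℤ) :
    M.pt n v = M.pt n w ↔ M.redVec n v = M.redVec n w := by
  rw [← sub_eq_zero, ← map_sub, pt_eq_zero_iff, funext_iff]
  refine forall_congr' fun i => ?_
  rw [Pi.sub_apply]
  show _ ↔ (v i : ZMod (p ^ n)) = (w i : ZMod (p ^ n))
  rw [← sub_eq_zero (a := (v i : ZMod (p ^ n))), ← Int.cast_sub,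
    ← ZMod.intCast_zmod_eq_zero_iff_dvd]

theorem pt_torsion (n : ℕ) (v : Fin M.rk → ℤ) : p ^ n • M.pt n v = 0 :=
  (M.proj_range n _).mpr ⟨_, rfl⟩

theorem exists_pt_eq (n : ℕ) (x : JZero N) (hx : p ^ n • x = 0) : ∃ v, M.pt n v = x := by
  obtain ⟨w, hw⟩ := (M.proj_range n x).mp hx
  refine ⟨M.bas.equivFun w, ?_⟩
  show M.proj n (M.bas.equivFun.symm (M.bas.equivFun w)) = x
  rw [LinearEquiv.symm_apply_apply, hw]

theorem pt_succ (n : ℕ) (v : Fin M.rk → ℤ) : p • M.pt (n + 1) v = M.pt n v := M.proj_succ n _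

theorem pt_hecke (ℓ : Nat.Primes) (hℓN : ¬ (ℓ : ℕ) ∣ N) (n : ℕ) (v : Fin M.rk → ℤ) :
    heckeOperatorBar N ℓ (M.pt n v) =
      M.pt n ((M.mat (CuspForm.heckeAlgebra.T ℓ.2 hℓN hℓN)).mulVec v) := by
  show heckeOperatorBar N ℓ (M.proj n _) = M.proj n _
  rw [M.proj_hecke ℓ hℓN]
  congr 1
  apply M.bas.equivFun.injective
  show _ = M.bas.equivFun (M.bas.equivFun.symm _)
  rw [LinearEquiv.apply_symm_apply]
  funext i
  conv_rhs => rw [show v = M.bas.equivFun (M.bas.equivFun.symm v) from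
    (LinearEquiv.apply_symm_apply _ v).symm]
  exact (congrFun (LinearMap.toMatrix_mulVec_repr M.bas M.bas
    (M.hecke (CuspForm.heckeAlgebra.T ℓ.2 hℓN hℓN)) (M.bas.equivFun.symm v)) i).symm

theorem exists_galMat (n : ℕ) (σ : GQ) :
    ∃ A : Matrix (Fin M.rk) (Fin M.rk) ℤ, ∀ v, σ • M.pt n v = M.pt n (A.mulVec v) := by
  have h : ∀ j, ∃ c, M.pt n c = σ • M.pt n (Pi.single j 1) := fun j =>
    M.exists_pt_eq n _ (by
      show p ^ n • DistribSMul.toAddMonoidHom (JZero N) σ _ = 0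
      rw [← map_nsmul, M.pt_torsion, map_zero])
  choose c hc using h
  refine ⟨Matrix.of fun i j => c j i, ?_⟩
  let f : (Fin M.rk → ℤ) →+ JZero N := (DistribSMul.toAddMonoidHom (JZero N) σ).comp (M.pt n)
  let g : (Fin M.rk → ℤ) →+ JZero N :=
    (M.pt n).comp (Matrix.mulVecLin (Matrix.of fun i j => c j i)).toAddMonoidHom
  have hfg : f.toIntLinearMap = g.toIntLinearMap := by
    refine (Pi.basisFun ℤ (Fin M.rk)).ext fun j => ?_
    rw [Pi.basisFun_apply]
    show σ • M.pt n (Pi.single j 1) = M.pt n (Matrix.mulVec _ (Pi.single j 1))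
    rw [Matrix.mulVec_single_one, ← hc]
    rfl
  exact fun v => LinearMap.congr_fun hfg v

/-- A matrix through which `σ` acts on `J[pⁿ]`. -/
def galMat (n : ℕ) (σ : GQ) : Matrix (Fin M.rk) (Fin M.rk) ℤ := (M.exists_galMat n σ).choose

theorem galMat_spec (n : ℕ) (σ : GQ) (v : Fin M.rk → ℤ) :
    σ • M.pt n v = M.pt n ((M.galMat n σ).mulVec v) := (M.exists_galMat n σ).choose_spec v

/-- Reduction of integer matrices mod `pⁿ`. -/
def redMat (n : ℕ) :
    Matrix (Fin M.rk) (Fin M.rk) ℤ →+* Matrix (Fin M.rk) (Fin M.rk) (ZMod (p ^ n)) :=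
  (Int.castRingHom (ZMod (p ^ n))).mapMatrix

theorem redVec_mulVec (n : ℕ) (A : Matrix (Fin M.rk) (Fin M.rk) ℤ) (v : Fin M.rk → ℤ) :
    M.redVec n (A.mulVec v) = (M.redMat n A).mulVec (M.redVec n v) :=
  funext fun i => RingHom.map_mulVec (Int.castRingHom (ZMod (p ^ n))) A v i

theorem redMat_eq_of_forall_pt (n : ℕ) (A B : Matrix (Fin M.rk) (Fin M.rk) ℤ)
    (h : ∀ v, M.pt n (A.mulVec v) = M.pt n (B.mulVec v)) : M.redMat n A = M.redMat n B := by
  ext i j
  have h' := congrFun ((M.pt_eq_iff n _ _).mp (h (Pi.single j 1))) i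
  simp only [Matrix.mulVec_single_one] at h'
  exact h'

/-- The representation on `J[pⁿ]` in matrices. -/
def rep (n : ℕ) : GQ →* Matrix (Fin M.rk) (Fin M.rk) (ZMod (p ^ n)) where
  toFun σ := M.redMat n (M.galMat n σ)
  map_one' := by
    rw [← (M.redMat n).map_one]
    refine M.redMat_eq_of_forall_pt n _ _ fun v => ?_
    rw [← galMat_spec, one_smul, Matrix.one_mulVec]
  map_mul' σ τ := by
    rw [← (M.redMat n).map_mul]
    refine M.redMat_eq_of_forall_pt n _ _ fun v => ?_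
    rw [← galMat_spec, mul_smul, galMat_spec M n τ, galMat_spec M n σ, Matrix.mulVec_mulVec]

theorem rep_unique (n : ℕ) (σ : GQ) (A : Matrix (Fin M.rk) (Fin M.rk) ℤ)
    (h : ∀ v, σ • M.pt n v = M.pt n (A.mulVec v)) : M.rep n σ = M.redMat n A :=
  M.redMat_eq_of_forall_pt n _ _ fun v => by rw [← galMat_spec, h]

/-- The Hecke action mod `pⁿ`. -/
def matMod (n : ℕ) : AnemicAlg N →+* Matrix (Fin M.rk) (Fin M.rk) (ZMod (p ^ n)) :=
  (M.redMat n).comp M.mat

/-- The representations mod `pⁿ` are compatible. -/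
theorem rep_cast (n : ℕ) (σ : GQ) :
    (M.rep (n + 1) σ).map (ZMod.castHom (pow_dvd_pow p n.le_succ) (ZMod (p ^ n))) = M.rep n σ := by
  rw [M.rep_unique n σ (M.galMat (n + 1) σ) fun v => by
    rw [← M.pt_succ n v, ← M.pt_succ n]
    show DistribSMul.toAddMonoidHom (JZero N) σ _ = _
    rw [map_nsmul]
    exact congrArg (p • ·) (M.galMat_spec (n + 1) σ v)]
  ext i j
  exact map_intCast (ZMod.castHom (pow_dvd_pow p n.le_succ) (ZMod (p ^ n))) (M.galMat (n + 1) σ i j)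

variable (hG : TorsionGalois N p)
include hG

/-- The representation mod `p^n` has finite level. -/
theorem rep_eq_one_of_finite_level (n : ℕ) :
    ∃ L : IntermediateField ℚ Qbar, FiniteDimensional ℚ L ∧
      ∀ σ : GQ, (∀ a ∈ L, σ a = a) → M.rep n σ = 1 := by
  choose L hL hfix using fun j : Fin M.rk =>
    hG.finite_level n (M.pt n (Pi.single j 1)) (M.pt_torsion n _)
  refine ⟨⨆ j, L j, IntermediateField.finiteDimensional_iSup_of_finite, fun σ hσ => ?_⟩
  rw [← (M.redMat n).map_one]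
  ext i j
  have h : M.pt n ((M.galMat n σ).mulVec (Pi.single j 1)) = M.pt n (Pi.single j 1) := by
    rw [← galMat_spec]
    exact hfix j σ fun a ha => hσ a (le_iSup L j ha)
  have h' := congrFun ((M.pt_eq_iff n _ _).mp h) i
  simp only [Matrix.mulVec_single_one] at h'
  refine h'.trans ?_
  simp [redVec, redMat, Matrix.one_apply, Pi.single_apply]

/-- The representation mod `pⁿ` is unramified away from `N p`. -/
theorem rep_inertia (n : ℕ) {q : ℕ} (hq : q.Prime) (hqN : ¬ q ∣ N * p)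
    (A : ValuationSubring Qbar) (hA : A.LiesOverPrime q) (σ : GQ)
    (hσ : σ ∈ A.inertiaSubgroupIn ℚ) : M.rep n σ = 1 := by
  rw [← (M.redMat n).map_one]
  refine M.rep_unique n σ 1 fun v => ?_
  rw [hG.unramified q hq hqN A hA σ hσ _ ⟨n, M.pt_torsion n v⟩, Matrix.one_mulVec]

/-- The representation mod `p^n` commutes with the Hecke action. -/
theorem rep_commute (n : ℕ) (σ : GQ) (t : AnemicAlg N) :
    Commute (M.rep n σ) (M.matMod n t) := by
  have h := forall_mem_of_T_mem (fun q hq _ => hq) (M.matMod n)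
    (Subring.centralizer {M.rep n σ}) (fun ℓ hℓ hℓN hℓS => ?_) t
  · exact Subring.mem_centralizer_iff.mp h _ rfl
  refine Subring.mem_centralizer_iff.mpr fun g hg => ?_
  rw [Set.mem_singleton_iff] at hg
  subst hg
  show M.redMat n (M.galMat n σ) *
      M.redMat n (M.mat (CuspForm.heckeAlgebra.T hℓ hℓN hℓS)) =
    M.redMat n (M.mat (CuspForm.heckeAlgebra.T hℓ hℓN hℓS)) * M.redMat n (M.galMat n σ)
  rw [← (M.redMat n).map_mul, ← (M.redMat n).map_mul]
  refine M.redMat_eq_of_forall_pt n _ _ fun v => ?_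
  rw [← Matrix.mulVec_mulVec, ← Matrix.mulVec_mulVec, ← galMat_spec,
    ← M.pt_hecke ⟨ℓ, hℓ⟩ hℓN, ← M.pt_hecke ⟨ℓ, hℓ⟩ hℓN, ← galMat_spec,
    hG.galois_hecke ⟨ℓ, hℓ⟩ hℓN]

/-- The Eichler–Shimura relation mod `p^n`. -/
theorem rep_frobenius (n : ℕ) (ℓ : Nat.Primes) (hℓN : ¬ (ℓ : ℕ) ∣ N) (hℓ : ¬ (ℓ : ℕ) ∣ N * p)
    (A : ValuationSubring Qbar) (hA : A.LiesOverPrime ℓ) (σ : GQ)
    (hσ : A.IsFrobeniusAt σ ℓ) :
    M.rep n σ * M.rep n σ
        - M.matMod n (CuspForm.heckeAlgebra.T ℓ.2 hℓN hℓN) * M.rep n σ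
        + ((ℓ : ℕ) : Matrix (Fin M.rk) (Fin M.rk) (ZMod (p ^ n))) = 0 := by
  show M.redMat n (M.galMat n σ) * M.redMat n (M.galMat n σ)
      - M.redMat n (M.mat (CuspForm.heckeAlgebra.T ℓ.2 hℓN hℓN)) * M.redMat n (M.galMat n σ)
      + ((ℓ : ℕ) : Matrix _ _ _) = 0
  rw [← map_natCast (M.redMat n), ← (M.redMat n).map_mul, ← (M.redMat n).map_mul,
    ← (M.redMat n).map_sub, ← (M.redMat n).map_add, ← (M.redMat n).map_zero]
  refine M.redMat_eq_of_forall_pt n _ _ fun v => ?_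
  have h := hG.frobenius ℓ hℓ A hA σ hσ (M.pt n v) ⟨n, M.pt_torsion n v⟩
  rw [M.galMat_spec, M.galMat_spec, M.pt_hecke ℓ hℓN] at h
  rw [Matrix.add_mulVec, Matrix.sub_mulVec, ← Matrix.mulVec_mulVec, ← Matrix.mulVec_mulVec,
    Matrix.zero_mulVec, map_zero, map_add, map_sub, Matrix.natCast_mulVec]
  rw [show (((ℓ : ℕ) : ℤ) • v) = (ℓ : ℕ) • v from natCast_zsmul v _, map_nsmul]
  exact h

end TorsionModel

end Fermat.Agent.Attach
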