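import Mathlib

/-!
# Traces of powers

The polynomial `powTrace a d k` giving `u^k + d^k u^(-k)` from `a = u + d u⁻¹`, equal to the trace
of the `k`-th power of a `2 × 2` matrix of trace `a` and determinant `d`. It extends the Frobenius
relation from a prime to all Galois elements by density.
-/

namespace Fermat.Agent.Attach

/-- `powTrace a d k` is `u^k + d^k u^{-k}` when `u + d u⁻¹ = a`. -/
def powTrace {A : Type*} [Ring A] (a d : A) : ℕ → A
  | 0 => 2
  | 1 => a
  | (k + 2) => a * powTrace a d (k + 1) - d * powTrace a d k

theorem map_powTrace {A B : Type*} [Ring A] [Ring B] (f : A →+* B) (a d : A) (k : ℕ) :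
    f (powTrace a d k) = powTrace (f a) (f d) k := by
  induction k using Nat.strong_induction_on with
  | _ k ih =>
    match k with
    | 0 => simp [powTrace, map_ofNat]
    | 1 => simp [powTrace]
    | k + 2 => simp [powTrace, ih (k + 1) (by omega), ih k (by omega)]

/-- If `u + d u⁻¹ = a` then `u^k + d^k u^(-k)` is `powTrace a d k`. -/
theorem pow_add_pow_eq_powTrace {A : Type*} [Ring A] (u v a d : A) (huv : u * v = 1)
    (hvu : v * u = 1) (hd : Commute d u) (hdv : Commute d v) (h : u + d * v = a) (k : ℕ) :
    u ^ k + d ^ k * v ^ k = powTrace a d k := by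
  induction k using Nat.strong_induction_on with
  | _ k ih =>
    match k with
    | 0 => simp [powTrace, one_add_one_eq_two]
    | 1 => simpa [powTrace] using h
    | k + 2 =>
      show u ^ (k + 2) + d ^ (k + 2) * v ^ (k + 2) =
        a * powTrace a d (k + 1) - d * powTrace a d k
      rw [← ih (k + 1) (by omega), ← ih k (by omega), ← h]
      have e1 : u * (d ^ (k + 1) * v ^ (k + 1)) = d * (d ^ k * v ^ k) := by
        rw [← mul_assoc, (hd.pow_left (k + 1)).symm.eq, mul_assoc, pow_succ' v, ← mul_assoc u,
          huv, one_mul, pow_succ', mul_assoc]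
      have e2 : d * v * u ^ (k + 1) = d * u ^ k := by
        rw [pow_succ' u, mul_assoc, ← mul_assoc v, hvu, one_mul]
      have e3 : d * v * (d ^ (k + 1) * v ^ (k + 1)) = d ^ (k + 2) * v ^ (k + 2) := by
        rw [mul_assoc d v, ← mul_assoc v, (hdv.pow_left (k + 1)).symm.eq, mul_assoc (d ^ (k + 1)),
          ← pow_succ', ← mul_assoc, ← pow_succ']
      rw [add_mul, mul_add, mul_add, e1, e2, e3, ← pow_succ', mul_add]
      abel

/-- In `M₂`, the trace of a power is `powTrace` of trace and determinant. -/
theorem trace_pow_eq_powTrace {R : Type*} [CommRing R] (A : Matrix (Fin 2) (Fin 2) R)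
    (_hA : IsUnit A.det) (k : ℕ) :
    (A ^ k).trace = powTrace A.trace A.det k := by
  induction k using Nat.strong_induction_on with
  | _ k ih =>
    match k with
    | 0 => simp [powTrace]
    | 1 => simp [powTrace]
    | k + 2 =>
      show (A ^ (k + 2)).trace =
        A.trace * powTrace A.trace A.det (k + 1) - A.det * powTrace A.trace A.det k
      rw [← ih (k + 1) (by omega), ← ih k (by omega)]
      have hsq : A ^ 2 = A.trace • A - A.det • 1 := by
        ext i j
        fin_cases i <;> fin_cases j <;>
          simp [pow_two, Matrix.mul_apply, Fin.sum_univ_two, Matrix.trace_fin_two,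
            Matrix.det_fin_two] <;> ring
      rw [pow_add A k 2, hsq, mul_sub, Algebra.mul_smul_comm, Algebra.mul_smul_comm, mul_one,
        ← pow_succ, Matrix.trace_sub, Matrix.trace_smul, Matrix.trace_smul, smul_eq_mul,
        smul_eq_mul]

end Fermat.Agent.Attach
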