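import Fermat.Agent.Attach.Cyclo
import Fermat.Agent.Attach.Levels
import Fermat.Agent.Attach.PowTrace
import Fermat.Agent.Gal.Density

/-!
# Galois elements are quadratic over the Hecke algebra

On every level `p^n`, for every Galois element `g` the sum `g + χ(g) g⁻¹`, with `χ` cyclotomic, is
the action of a Hecke element. This follows from the Eichler–Shimura relation and Chebotarev
density.
-/

noncomputable section

namespace Fermat.Agent.Attach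

local notation "Qbar" => AlgebraicClosure ℚ
local notation "GQ" => (AlgebraicClosure ℚ ≃ₐ[ℚ] AlgebraicClosure ℚ)

/-- The inclusion of `T_S` into the anemic algebra when `S` contains the primes of `N`. -/
def toAnemic {N : ℕ} [NeZero N] {S : Set ℕ} (hS : ∀ q, q.Prime → q ∣ N → q ∈ S) :
    CuspForm.heckeAlgebra N 2 S →+* AnemicAlg N :=
  (Subalgebra.inclusion (show CuspForm.heckeAlgebra N 2 S ≤ AnemicAlg N from
    Algebra.adjoin_mono (by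
      rintro T (⟨ℓ, hℓ, hℓN, hℓS, rfl⟩ | ⟨q, hqN, hq, hqS, rfl⟩)
      · exact CuspForm.heckeTLin_mem_heckeGenerators hℓ hℓN hℓN
      · exact absurd (hS q hq hqN) hqS))).toRingHom

theorem toAnemic_T {N : ℕ} [NeZero N] {S : Set ℕ} (hS : ∀ q, q.Prime → q ∣ N → q ∈ S)
    {ℓ : ℕ} (hℓ : ℓ.Prime) (hℓN : ¬ ℓ ∣ N) (hℓS : ℓ ∉ S) :
    toAnemic hS (CuspForm.heckeAlgebra.T hℓ hℓN hℓS) = CuspForm.heckeAlgebra.T hℓ hℓN hℓN := rfl

theorem toAnemic_injective {N : ℕ} [NeZero N] {S : Set ℕ} (hS : ∀ q, q.Prime → q ∣ N → q ∈ S) :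
    Function.Injective (toAnemic hS) := Subalgebra.inclusion_injective _

namespace TorsionModel

variable {N : ℕ} [NeZero N] {p : ℕ} (M : TorsionModel N p)

/-- The action of `T_S` on `J[pⁿ]`. -/
def matS {S : Set ℕ} (hS : ∀ q, q.Prime → q ∣ N → q ∈ S) (n : ℕ) :
    CuspForm.heckeAlgebra N 2 S →+* Matrix (Fin M.rk) (Fin M.rk) (ZMod (p ^ n)) :=
  (M.matMod n).comp (toAnemic hS)

/-- On `J[pⁿ]`, if `g` acts as the `k`-th power of a Frobenius at `ℓ` then `g + χ(g) g⁻¹` is the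
action of `powTrace T_ℓ ℓ k`. -/
theorem rep_good_of_pow [Fact p.Prime] (hG : TorsionGalois N p) {S : Set ℕ}
    (hS : ∀ q, q.Prime → q ∣ N → q ∈ S) (n : ℕ) {ℓ : ℕ} (hℓ : ℓ.Prime) (hℓN : ¬ ℓ ∣ N) (hℓS : ℓ ∉ S)
    (hℓp : ℓ ≠ p) {A : ValuationSubring Qbar} (hA : A.LiesOverPrime ℓ) {σ : GQ}
    (hσ : A.IsFrobeniusAt σ ℓ) {g : GQ} {k : ℕ} (hrep : M.rep n g = M.rep n (σ ^ k))
    (hcyc : cyc p n g = ((ℓ : ℕ) : ZMod (p ^ n)) ^ k) :
    M.rep n g + cyc p n g • M.rep n g⁻¹ =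
      M.matS hS n (powTrace (CuspForm.heckeAlgebra.T hℓ hℓN hℓS)
        (ℓ : CuspForm.heckeAlgebra N 2 S) k) := by
  have hℓNp : ¬ ℓ ∣ N * p := fun h => (hℓ.dvd_mul.mp h).elim hℓN
    fun h => hℓp ((Nat.prime_dvd_prime_iff_eq hℓ Fact.out).mp h)
  have huv : M.rep n σ * M.rep n σ⁻¹ = 1 := by rw [← map_mul, mul_inv_cancel, map_one]
  have hvu : M.rep n σ⁻¹ * M.rep n σ = 1 := by rw [← map_mul, inv_mul_cancel, map_one]
  have hrepinv : M.rep n g⁻¹ = M.rep n σ⁻¹ ^ k := by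
    have h3 : M.rep n g * M.rep n σ⁻¹ ^ k = 1 := by
      rw [hrep, ← map_pow (M.rep n) σ⁻¹, ← map_mul, inv_pow, mul_inv_cancel, map_one]
    have h4 : M.rep n g⁻¹ * M.rep n g = 1 := by rw [← map_mul, inv_mul_cancel, map_one]
    exact left_inv_eq_right_inv h4 h3
  have hq := M.rep_frobenius hG n ⟨ℓ, hℓ⟩ hℓN hℓNp A hA σ hσ
  have ha : M.rep n σ + ((ℓ : ℕ) : Matrix (Fin M.rk) (Fin M.rk) (ZMod (p ^ n))) * M.rep n σ⁻¹ =
      M.matS hS n (CuspForm.heckeAlgebra.T hℓ hℓN hℓS) := by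
    have h5 := congrArg (· * M.rep n σ⁻¹) hq
    simp only [add_mul, sub_mul, zero_mul, mul_assoc, huv, mul_one] at h5
    rw [← sub_eq_zero]
    refine Eq.trans ?_ h5
    show _ - M.matMod n (CuspForm.heckeAlgebra.T hℓ hℓN hℓN) = _
    abel
  rw [map_powTrace, map_natCast, ← pow_add_pow_eq_powTrace _ _ _ _ huv hvu
    (Nat.cast_commute _ _) (Nat.cast_commute _ _) ha k, hcyc, hrep, map_pow, hrepinv,
    ← Nat.cast_pow, ← Nat.cast_pow, Nat.cast_smul_eq_nsmul, nsmul_eq_mul]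

/-- Every Galois element is, to a given level, a power of a Frobenius with Hecke trace. -/
theorem exists_trace_element [Fact p.Prime] (hG : TorsionGalois N p) {S : Finset ℕ}
    (hpS : p ∈ S) (hNS : ∀ q, q.Prime → q ∣ N → q ∈ (↑S : Set ℕ)) (n : ℕ) (g : GQ)
    (L : IntermediateField ℚ Qbar) [FiniteDimensional ℚ L] :
    ∃ (ℓ : ℕ) (hℓ : ℓ.Prime) (hℓN : ¬ ℓ ∣ N) (hℓS : ℓ ∉ (↑S : Set ℕ))
      (A : ValuationSubring Qbar) (σ : GQ) (k : ℕ),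
      A.LiesOverPrime ℓ ∧ A.IsFrobeniusAt σ ℓ ∧ (∀ x ∈ L, g x = (σ ^ k) x) ∧
      cyc p n g = ((ℓ : ℕ) : ZMod (p ^ n)) ^ k ∧
      M.rep n g + cyc p n g • M.rep n g⁻¹ =
        M.matS hNS n (powTrace (CuspForm.heckeAlgebra.T hℓ hℓN hℓS)
          (ℓ : CuspForm.heckeAlgebra N 2 (↑S : Set ℕ)) k) := by
  obtain ⟨L1, hL1, h1⟩ := M.rep_eq_one_of_finite_level hG n
  obtain ⟨L2, hL2, h2⟩ := cyc_finite_level p n
  obtain ⟨ℓ, hℓ, hℓS, A, hA, σ, hσ, k, b, hk, -⟩ :=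
    Gal.exists_frobenius_generates (L ⊔ L1 ⊔ L2) g S
  have hℓN : ¬ ℓ ∣ N := fun h => hℓS (hNS ℓ hℓ h)
  have hℓp : ℓ ≠ p := fun h => hℓS (h ▸ hpS)
  refine ⟨ℓ, hℓ, hℓN, hℓS, A, σ, k, hA, hσ,
    fun x hx => hk x ((le_sup_left.trans le_sup_left : L ≤ L ⊔ L1 ⊔ L2) hx), ?_⟩
  have key : ∀ {X : Type} [MulOneClass X] (f : GQ →* X) (L' : IntermediateField ℚ Qbar),
      L' ≤ L ⊔ L1 ⊔ L2 → (∀ τ, (∀ a ∈ L', τ a = a) → f τ = 1) → f g = f (σ ^ k) := by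
    intro X _ f L' hle hf
    have hfix : ∀ a ∈ L', ((σ ^ k)⁻¹ * g) a = a := fun a ha => by
      show (σ ^ k)⁻¹ (g a) = a
      rw [hk a (hle ha)]
      exact (σ ^ k).symm_apply_apply a
    rw [← mul_inv_cancel_left (σ ^ k) g, map_mul, hf _ hfix, mul_one]
  have hrep : M.rep n g = M.rep n (σ ^ k) :=
    key (M.rep n) L1 (le_sup_right.trans le_sup_left) h1
  have hcyc : cyc p n g = ((ℓ : ℕ) : ZMod (p ^ n)) ^ k := by
    rw [key (cyc p n) L2 le_sup_right h2, map_pow, cyc_frobenius p n hℓ hℓp hA hσ]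
  exact ⟨hcyc, M.rep_good_of_pow hG hNS n hℓ hℓN hℓS hℓp hA hσ hrep
    hcyc⟩

end TorsionModel

end Fermat.Agent.Attach
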