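import Mathlib.NumberTheory.Padics.RingHoms
import Mathlib.RingTheory.AdicCompletion.RingHom
import Fermat.Agent.Attach.Trace

/-!
# The `p`-adic limit of the torsion representations

The matrix representations mod `p^n` are compatible and so give a representation over `ℤ_p`
commuting with the Hecke action; also the canonical map from `ℤ_p` to a ring complete for an ideal
containing `p`.
-/

noncomputable section

namespace Fermat.Agent.Attach

local notation "Qbar" => AlgebraicClosure ℚ
local notation "GQ" => (AlgebraicClosure ℚ ≃ₐ[ℚ] AlgebraicClosure ℚ)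

section PadicMap

variable (p : ℕ) [Fact p.Prime] {O : Type} [CommRing O] (I : Ideal O)

/-- `ℤ/pⁿ → O/Iⁿ` when `p ∈ I`. -/
def zmodToQuot (hp : (p : O) ∈ I) (n : ℕ) : ZMod (p ^ n) →+* O ⧸ I ^ n :=
  (Ideal.Quotient.lift (Ideal.span {((p ^ n : ℕ) : ℤ)}) (Int.castRingHom (O ⧸ I ^ n)) (by
    intro a ha
    obtain ⟨b, rfl⟩ := Ideal.mem_span_singleton.mp ha
    rw [map_mul, eq_intCast, Int.cast_natCast,
      ← map_natCast (Ideal.Quotient.mk (I ^ n)) (p ^ n), Nat.cast_pow,
      Ideal.Quotient.eq_zero_iff_mem.mpr (Ideal.pow_mem_pow hp n), zero_mul])).comp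
    (Int.quotientSpanNatEquivZMod (p ^ n)).symm.toRingHom

theorem zmodToQuot_compat (hp : (p : O) ∈ I) {m n : ℕ} (hle : m ≤ n) :
    (Ideal.Quotient.factorPow I hle).comp ((zmodToQuot p I hp n).comp (PadicInt.toZModPow n)) =
      (zmodToQuot p I hp m).comp (PadicInt.toZModPow m) := by
  rw [← RingHom.comp_assoc, ← PadicInt.zmod_cast_comp_toZModPow m n hle, ← RingHom.comp_assoc]
  congr 1
  exact RingHom.ext_zmod _ _

variable [IsAdicComplete I O]

/-- The canonical `ℤ_p → O`. -/
def padicMap (hp : (p : O) ∈ I) : ℤ_[p] →+* O :=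
  IsAdicComplete.liftRingHom I (fun n => (zmodToQuot p I hp n).comp (PadicInt.toZModPow n))
    (fun hle => zmodToQuot_compat p I hp hle)

theorem mk_padicMap (hp : (p : O) ∈ I) (n : ℕ) (x : ℤ_[p]) :
    Ideal.Quotient.mk (I ^ n) (padicMap p I hp x) =
      zmodToQuot p I hp n (PadicInt.toZModPow n x) := by
  rw [padicMap, IsAdicComplete.mk_liftRingHom]
  rfl

theorem padicMap_sub_mem (hp : (p : O) ∈ I) (n : ℕ) (x y : ℤ_[p])
    (h : PadicInt.toZModPow n x = PadicInt.toZModPow n y) :
    padicMap p I hp x - padicMap p I hp y ∈ I ^ n := by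
  rw [← Ideal.Quotient.eq, mk_padicMap, mk_padicMap, h]

end PadicMap

namespace TorsionModel

variable {N : ℕ} [NeZero N] {p : ℕ} [Fact p.Prime] (M : TorsionModel N p)

omit [Fact (Nat.Prime p)] in
theorem galMat_dvd_sub (g : GQ) (i j : Fin M.rk) (n : ℕ) :
    (p : ℤ) ^ n ∣ M.galMat (n + 1) g i j - M.galMat n g i j := by
  have h := congrFun (congrFun (M.rep_cast n g) i) j
  rw [← Nat.cast_pow, ← ZMod.intCast_zmod_eq_zero_iff_dvd, Int.cast_sub, sub_eq_zero]
  refine Eq.trans ?_ h
  exact (map_intCast (ZMod.castHom (pow_dvd_pow p n.le_succ) (ZMod (p ^ n))) _).symm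

/-- The entries of the `p`-adic representation. -/
def padicEntry (g : GQ) (i j : Fin M.rk) : ℤ_[p] :=
  PadicInt.ofIntSeq _ (PadicInt.isCauSeq_padicNorm_of_pow_dvd_sub
    (fun n => M.galMat n g i j) p (M.galMat_dvd_sub g i j))

theorem toZModPow_padicEntry (g : GQ) (i j : Fin M.rk) (n : ℕ) :
    PadicInt.toZModPow n (M.padicEntry g i j) = M.rep n g i j :=
  PadicInt.toZModPow_ofIntSeq_of_pow_dvd_sub (fun n => M.galMat n g i j) p
    (M.galMat_dvd_sub g i j) n

/-- The `p`-adic representation in matrices. -/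
def repPadic : GQ →* Matrix (Fin M.rk) (Fin M.rk) ℤ_[p] where
  toFun g := Matrix.of (M.padicEntry g)
  map_one' := by
    ext1 i j
    refine PadicInt.ext_of_toZModPow.mp fun n => ?_
    rw [Matrix.of_apply, toZModPow_padicEntry, map_one, Matrix.one_apply, Matrix.one_apply]
    split <;> simp
  map_mul' g h := by
    ext1 i j
    refine PadicInt.ext_of_toZModPow.mp fun n => ?_
    rw [Matrix.of_apply, toZModPow_padicEntry, map_mul, Matrix.mul_apply, Matrix.mul_apply,
      map_sum]
    refine Finset.sum_congr rfl fun k _ => ?_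
    rw [map_mul, Matrix.of_apply, Matrix.of_apply, toZModPow_padicEntry, toZModPow_padicEntry]

/-- The `p`-adic representation reduces to `rep n`. -/
theorem repPadic_mod (n : ℕ) (g : GQ) :
    (PadicInt.toZModPow n).mapMatrix (M.repPadic g) = M.rep n g := by
  ext i j
  exact M.toZModPow_padicEntry g i j n

/-- The `p`-adic representation commutes with the Hecke action. -/
theorem repPadic_commute (hG : TorsionGalois N p) (g : GQ) (t : AnemicAlg N) :
    Commute (M.repPadic g) ((Int.castRingHom ℤ_[p]).mapMatrix (M.mat t)) := by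
  ext i j
  refine PadicInt.ext_of_toZModPow.mp fun n => ?_
  have h := congrFun (congrFun (M.rep_commute hG n g t).eq i) j
  have e : (PadicInt.toZModPow n).mapMatrix ((Int.castRingHom ℤ_[p]).mapMatrix (M.mat t)) =
      M.matMod n t := by
    ext a b
    exact map_intCast (PadicInt.toZModPow (p := p) n) (M.mat t a b)
  rw [← M.repPadic_mod n g, ← e, ← map_mul, ← map_mul] at h
  exact h

end TorsionModel

end Fermat.Agent.Attach
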