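import Mathlib.RingTheory.LocalRing.MaximalIdeal.Basic
import Fermat.Agent.Attach.Lattice
import Fermat.Agent.Attach.PadicModel

/-!
# Torsion representations with coefficients in a complete local ring

Pushes the `p`-adic matrix representation of a torsion model to a complete local ring `O` in which
`p` is topologically nilpotent, together with the cyclotomic character and the Hecke action, and
proves commutation, the Frobenius relation and triviality on inertia there. Used to attach `λ`-adic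
representations to eigensystems.
-/

noncomputable section

namespace Fermat.Agent.Attach

local notation "Qbar" => AlgebraicClosure ℚ
local notation "GQ" => (AlgebraicClosure ℚ ≃ₐ[ℚ] AlgebraicClosure ℚ)

namespace TorsionModel

variable {N : ℕ} [NeZero N] {p : ℕ} [Fact p.Prime] (M : TorsionModel N p)
variable {O : Type} [CommRing O] [IsLocalRing O] [IsAdicComplete (IsLocalRing.maximalIdeal O) O]
variable (hp : (p : O) ∈ IsLocalRing.maximalIdeal O)

/-- The representation with coefficients in `O`. -/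
def repO : GQ →* Matrix (Fin M.rk) (Fin M.rk) O :=
  (padicMap p (IsLocalRing.maximalIdeal O) hp).mapMatrix.toMonoidHom.comp M.repPadic

/-- The cyclotomic character with coefficients in `O`. -/
def cycO : GQ →* O :=
  ((padicMap p (IsLocalRing.maximalIdeal O) hp).toMonoidHom.comp (Units.coeHom ℤ_[p])).comp
    (cycPadic p)

/-- The Hecke action with coefficients in `O`. -/
def matO (O : Type) [CommRing O] {S : Set ℕ} (hS : ∀ q, q.Prime → q ∣ N → q ∈ S) :
    CuspForm.heckeAlgebra N 2 S →+* Matrix (Fin M.rk) (Fin M.rk) O :=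
  (Int.castRingHom O).mapMatrix.comp (M.mat.comp (toAnemic hS))

theorem matO_eq {S : Set ℕ} (hS : ∀ q, q.Prime → q ∣ N → q ∈ S)
    (t : CuspForm.heckeAlgebra N 2 S) :
    M.matO O hS t =
      (padicMap p (IsLocalRing.maximalIdeal O) hp).mapMatrix (M.matO ℤ_[p] hS t) := by
  ext i j
  exact (map_intCast (padicMap p (IsLocalRing.maximalIdeal O) hp) _).symm

theorem matO_mod {S : Set ℕ} (hS : ∀ q, q.Prime → q ∣ N → q ∈ S) (n : ℕ)
    (t : CuspForm.heckeAlgebra N 2 S) :
    (PadicInt.toZModPow n).mapMatrix (M.matO ℤ_[p] hS t) = M.matS hS n t := by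
  ext i j
  exact map_intCast (PadicInt.toZModPow (p := p) n) _

theorem repO_near (n : ℕ) (g : GQ) (h : M.rep n g = 1) :
    NearOne (IsLocalRing.maximalIdeal O ^ n) (M.repO hp g) := by
  intro i j
  have e : (1 : Matrix (Fin M.rk) (Fin M.rk) O) i j =
      padicMap p (IsLocalRing.maximalIdeal O) hp
        ((1 : Matrix (Fin M.rk) (Fin M.rk) ℤ_[p]) i j) := by
    rw [Matrix.one_apply, Matrix.one_apply]
    split <;> simp
  rw [e]
  refine padicMap_sub_mem p _ hp n _ _ ?_
  have h2 := congrFun (congrFun ((M.repPadic_mod n g).trans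
    (h.trans (map_one (PadicInt.toZModPow n).mapMatrix).symm)) i) j
  exact h2

omit M in
theorem cycO_near (n : ℕ) (g : GQ) (h : cyc p n g = 1) :
    cycO hp g - 1 ∈ IsLocalRing.maximalIdeal O ^ n := by
  rw [← map_one (padicMap p (IsLocalRing.maximalIdeal O) hp)]
  exact padicMap_sub_mem p _ hp n _ _ (by rw [map_one]; exact h)

/-- `g + χ(g) g⁻¹` lies in the span of the Hecke algebra. -/
theorem good_mem_span [IsNoetherianRing O] (hG : TorsionGalois N p) {S : Finset ℕ} (hpS : p ∈ S)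
    (hNS : ∀ q, q.Prime → q ∣ N → q ∈ (↑S : Set ℕ)) (g : GQ) :
    M.repO hp g + cycO hp g • M.repO hp g⁻¹ ∈ Submodule.span O (Set.range (M.matO O hNS)) := by
  set φ := padicMap p (IsLocalRing.maximalIdeal O) hp
  refine mem_of_forall_mem_sup _ _ (IsLocalRing.maximalIdeal.isMaximal O).ne_top _ fun n => ?_
  obtain ⟨ℓ, hℓ, hℓN, hℓS, A, σ, k, -, -, -, -, hb⟩ :=
    M.exists_trace_element hG hpS hNS n g ⊥
  set b := powTrace (CuspForm.heckeAlgebra.T hℓ hℓN hℓS)
    (ℓ : CuspForm.heckeAlgebra N 2 (↑S : Set ℕ)) k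
  refine Submodule.mem_sup.mpr ⟨M.matO O hNS b, Submodule.subset_span ⟨b, rfl⟩,
    _ - M.matO O hNS b, matrix_mem_smul_top _ _ fun i j => ?_, add_sub_cancel _ _⟩
  rw [M.matO_eq hp hNS, Matrix.sub_apply, Matrix.add_apply, Matrix.smul_apply, smul_eq_mul]
  show φ (M.repPadic g i j) + φ ((cycPadic p g : ℤ_[p]ˣ) : ℤ_[p]) * φ (M.repPadic g⁻¹ i j)
    - φ (M.matO ℤ_[p] hNS b i j) ∈ _
  rw [← map_mul, ← map_add]
  refine padicMap_sub_mem p _ hp n _ _ ?_
  have h2 : PadicInt.toZModPow n (M.matO ℤ_[p] hNS b i j) = M.matS hNS n b i j :=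
    congrFun (congrFun (M.matO_mod hNS n b) i) j
  rw [h2, ← hb, map_add, map_mul, Matrix.add_apply, Matrix.smul_apply, smul_eq_mul,
    ← M.repPadic_mod n g, ← M.repPadic_mod n g⁻¹]
  rfl

/-- The representation over `O` commutes with the Hecke action. -/
theorem repO_commute (hG : TorsionGalois N p) {S : Set ℕ}
    (hS : ∀ q, q.Prime → q ∣ N → q ∈ S) (g : GQ) (t : CuspForm.heckeAlgebra N 2 S) :
    Commute (M.repO hp g) (M.matO O hS t) := by
  rw [M.matO_eq hp hS]
  exact (M.repPadic_commute hG g (toAnemic hS t)).map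
    (padicMap p (IsLocalRing.maximalIdeal O) hp).mapMatrix

omit M in
theorem cycPadic_frobenius {ℓ : ℕ} (hℓ : ℓ.Prime) (hℓp : ℓ ≠ p) {A : ValuationSubring Qbar}
    (hA : A.LiesOverPrime ℓ) {σ : GQ} (hσ : A.IsFrobeniusAt σ ℓ) :
    ((cycPadic p σ : ℤ_[p]ˣ) : ℤ_[p]) = (ℓ : ℤ_[p]) :=
  PadicInt.ext_of_toZModPow.mp fun n => by
    rw [map_natCast, ← cyc_eq, cyc_frobenius p n hℓ hℓp hA hσ]

/-- The Eichler–Shimura relation over `O`. -/
theorem repO_frobenius (hG : TorsionGalois N p) {S : Set ℕ}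
    (hS : ∀ q, q.Prime → q ∣ N → q ∈ S) {ℓ : ℕ} (hℓ : ℓ.Prime) (hℓN : ¬ ℓ ∣ N) (hℓS : ℓ ∉ S)
    (hℓp : ℓ ≠ p) {A : ValuationSubring Qbar} (hA : A.LiesOverPrime ℓ) {σ : GQ}
    (hσ : A.IsFrobeniusAt σ ℓ) :
    cycO hp σ = (ℓ : O) ∧ M.repO hp σ + cycO hp σ • M.repO hp σ⁻¹ =
      M.matO O hS (CuspForm.heckeAlgebra.T hℓ hℓN hℓS) := by
  set φ := padicMap p (IsLocalRing.maximalIdeal O) hp
  have hℓNp : ¬ ℓ ∣ N * p := fun h => (hℓ.dvd_mul.mp h).elim hℓN
    fun h => hℓp ((Nat.prime_dvd_prime_iff_eq hℓ Fact.out).mp h)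
  have hcyc : cycO hp σ = (ℓ : O) := by
    show φ _ = _
    rw [Units.coeHom_apply, cycPadic_frobenius hℓ hℓp hA hσ, map_natCast]
  refine ⟨hcyc, ?_⟩
  set T := CuspForm.heckeAlgebra.T (N := N) (k := (2 : ℤ)) hℓ hℓN hℓS
  have hquad : M.repPadic σ * M.repPadic σ - M.matO ℤ_[p] hS T * M.repPadic σ
      + ((ℓ : ℕ) : Matrix (Fin M.rk) (Fin M.rk) ℤ_[p]) = 0 := by
    ext i j
    refine PadicInt.ext_of_toZModPow.mp fun n => ?_
    have h : (PadicInt.toZModPow n).mapMatrix (M.repPadic σ * M.repPadic σ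
        - M.matO ℤ_[p] hS T * M.repPadic σ
        + ((ℓ : ℕ) : Matrix (Fin M.rk) (Fin M.rk) ℤ_[p])) = 0 := by
      rw [map_add, map_sub, map_mul (PadicInt.toZModPow n).mapMatrix,
        map_mul (PadicInt.toZModPow n).mapMatrix, map_natCast, M.repPadic_mod, M.matO_mod]
      exact M.rep_frobenius hG n ⟨ℓ, hℓ⟩ hℓN hℓNp A hA σ hσ
    rw [Matrix.zero_apply, map_zero]
    exact congrFun (congrFun h i) j
  have huv : M.repPadic σ * M.repPadic σ⁻¹ = 1 := by rw [← map_mul, mul_inv_cancel, map_one]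
  have h5 := congrArg (fun X => φ.mapMatrix (X * M.repPadic σ⁻¹)) hquad
  simp only [add_mul, sub_mul, zero_mul, mul_assoc, huv, mul_one, map_add, map_sub, map_mul,
    map_natCast, map_zero] at h5
  rw [hcyc, Nat.cast_smul_eq_nsmul, nsmul_eq_mul, M.matO_eq hp hS, ← sub_eq_zero]
  refine Eq.trans ?_ h5
  show φ.mapMatrix _ + _ * φ.mapMatrix _ - _ = _
  abel

/-- Inertia away from `N p` acts trivially, also after extending the coefficients. -/
theorem repO_inertia (hG : TorsionGalois N p) {q : ℕ} (hq : q.Prime) (hqN : ¬ q ∣ N)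
    (hqp : q ≠ p) {A : ValuationSubring Qbar} (hA : A.LiesOverPrime q) {σ : GQ}
    (hσ : σ ∈ A.inertiaSubgroupIn ℚ) : M.repO hp σ = 1 ∧ cycO hp σ = 1 := by
  have hqNp : ¬ q ∣ N * p := fun h => (hq.dvd_mul.mp h).elim hqN
    fun h => hqp ((Nat.prime_dvd_prime_iff_eq hq Fact.out).mp h)
  constructor
  · have h : M.repPadic σ = 1 := by
      ext1 i j
      refine PadicInt.ext_of_toZModPow.mp fun n => ?_
      exact congrFun (congrFun ((M.repPadic_mod n σ).trans
        ((M.rep_inertia hG n hq hqNp A hA σ hσ).trans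
          (map_one (PadicInt.toZModPow n).mapMatrix).symm)) i) j
    show (padicMap p (IsLocalRing.maximalIdeal O) hp).mapMatrix (M.repPadic σ) = 1
    rw [h, map_one]
  · have h : ((cycPadic p σ : ℤ_[p]ˣ) : ℤ_[p]) = 1 := PadicInt.ext_of_toZModPow.mp fun n => by
      rw [map_one, ← cyc_eq, cyc_inertia p n hq hqp hA hσ]
    show padicMap p (IsLocalRing.maximalIdeal O) hp _ = 1
    exact (congrArg _ h).trans (map_one _)

end TorsionModel

end Fermat.Agent.Attach
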