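import Mathlib.NumberTheory.Cyclotomic.CyclotomicCharacter
import Mathlib.RingTheory.RootsOfUnity.AlgebraicallyClosed
import Fermat.Agent.Gal.Basic

/-!
# The cyclotomic characters mod `p^n`

The `p`-adic cyclotomic character of the absolute Galois group of `ℚ` and its reductions `cyc p n`:
finite level, value `ℓ` at a Frobenius at `ℓ ≠ p`, and triviality on inertia there.
-/

noncomputable section

namespace Fermat.Agent.Attach

local notation "Qbar" => AlgebraicClosure ℚ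
local notation "GQ" => (AlgebraicClosure ℚ ≃ₐ[ℚ] AlgebraicClosure ℚ)

/-- Two exponents giving the same power of a primitive `m`th root of unity agree modulo `m`. -/
theorem natCast_sub_mem_span_of_pow_eq {A M : Type*} [CommRing A] [CommMonoid M] {ζ : M}
    {m a b : ℕ} [NeZero m] (hζ : IsPrimitiveRoot ζ m) (h : ζ ^ a = ζ ^ b) :
    (b : A) - (a : A) ∈ Ideal.span {(m : A)} := by
  have hfin : IsOfFinOrder ζ :=
    isOfFinOrder_iff_pow_eq_one.mpr ⟨m, NeZero.pos m, hζ.pow_eq_one⟩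
  have h2 := hfin.pow_eq_pow_iff_modEq.mp h
  rw [← hζ.eq_orderOf] at h2
  obtain ⟨c, hc⟩ := Nat.modEq_iff_dvd.mp h2
  refine Ideal.mem_span_singleton'.mpr ⟨(c : A), ?_⟩
  have := congrArg (Int.cast : ℤ → A) hc
  push_cast at this ⊢
  rw [this, mul_comm]

variable (p : ℕ) [Fact p.Prime]

/-- The `p`-adic cyclotomic character of `G_ℚ`. -/
def cycPadic : GQ →* ℤ_[p]ˣ :=
  (cyclotomicCharacter Qbar p).comp (MulSemiringAction.toRingAut GQ Qbar)

/-- The mod `pⁿ` cyclotomic character. -/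
def cyc (n : ℕ) : GQ →* ZMod (p ^ n) :=
  ((PadicInt.toZModPow n).toMonoidHom.comp (Units.coeHom ℤ_[p])).comp (cycPadic p)

theorem cyc_eq (n : ℕ) (g : GQ) :
    cyc p n g = PadicInt.toZModPow n ((cycPadic p g : ℤ_[p]ˣ) : ℤ_[p]) := rfl

theorem cyc_spec (n : ℕ) (g : GQ) {ζ : Qbar} (hζ : ζ ^ p ^ n = 1) :
    g ζ = ζ ^ (cyc p n g).val :=
  cyclotomicCharacter.spec p (MulSemiringAction.toRingAut GQ Qbar g) ζ hζ

/-- `cyc` is determined by the action on a primitive root. -/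
theorem cyc_eq_natCast (n : ℕ) (g : GQ) (c : ℕ) (h : ∀ ζ : Qbar, ζ ^ p ^ n = 1 → g ζ = ζ ^ c) :
    cyc p n g = (c : ZMod (p ^ n)) := by
  have : NeZero ((p ^ n : ℕ) : Qbar) :=
    ⟨Nat.cast_ne_zero.mpr (pow_ne_zero _ (Fact.out (p := p.Prime)).ne_zero)⟩
  obtain ⟨ζ, hζ⟩ := HasEnoughRootsOfUnity.exists_primitiveRoot Qbar (p ^ n)
  have h1 : ζ ^ (cyc p n g).val = ζ ^ c := (cyc_spec p n g hζ.pow_eq_one).symm.trans
    (h ζ hζ.pow_eq_one)
  have h2 : (cyc p n g).val ≡ c [MOD p ^ n] := by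
    have hu := hζ.isUnit_unit (NeZero.ne (p ^ n))
    have h3 : (hζ.isUnit (NeZero.ne (p ^ n))).unit ^ (cyc p n g).val =
        (hζ.isUnit (NeZero.ne (p ^ n))).unit ^ c := Units.ext (by simpa using h1)
    have h4 := pow_eq_pow_iff_modEq.mp h3
    rwa [← hu.eq_orderOf] at h4
  rw [← ZMod.natCast_zmod_val (cyc p n g), ZMod.natCast_eq_natCast_iff]
  exact h2

/-- The mod `p^n` cyclotomic character has finite level. -/
theorem cyc_finite_level (n : ℕ) :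
    ∃ L : IntermediateField ℚ Qbar, FiniteDimensional ℚ L ∧
      ∀ σ : GQ, (∀ a ∈ L, σ a = a) → cyc p n σ = 1 := by
  have : NeZero ((p ^ n : ℕ) : Qbar) :=
    ⟨Nat.cast_ne_zero.mpr (pow_ne_zero _ (Fact.out (p := p.Prime)).ne_zero)⟩
  obtain ⟨ζ, hζ⟩ := HasEnoughRootsOfUnity.exists_primitiveRoot Qbar (p ^ n)
  refine ⟨IntermediateField.adjoin ℚ {ζ}, IntermediateField.adjoin.finiteDimensional
    ((hζ.isIntegral (Nat.pos_of_neZero _)).tower_top), fun σ hσ => ?_⟩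
  rw [← Nat.cast_one]
  refine cyc_eq_natCast p n σ 1 fun x hx => ?_
  obtain ⟨i, _, rfl⟩ := hζ.eq_pow_of_pow_eq_one hx
  rw [map_pow, hσ ζ (IntermediateField.subset_adjoin ℚ _ rfl), pow_one]

/-- A Frobenius element at `ℓ ≠ p` has cyclotomic value `ℓ`. -/
theorem cyc_frobenius (n : ℕ) {ℓ : ℕ} (hℓ : ℓ.Prime) (hℓp : ℓ ≠ p)
    {A : ValuationSubring Qbar} (hA : A.LiesOverPrime ℓ) {σ : GQ}
    (hσ : A.IsFrobeniusAt σ ℓ) : cyc p n σ = (ℓ : ZMod (p ^ n)) :=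
  cyc_eq_natCast p n σ ℓ fun _ hx => Gal.isFrobeniusAt_rootOfUnity hℓ hA hσ
    (fun h => hℓp ((Nat.prime_dvd_prime_iff_eq hℓ Fact.out).mp (hℓ.dvd_of_dvd_pow h))) hx

/-- The cyclotomic character is trivial on inertia away from `p`. -/
theorem cyc_inertia (n : ℕ) {ℓ : ℕ} (hℓ : ℓ.Prime) (hℓp : ℓ ≠ p)
    {A : ValuationSubring Qbar} (hA : A.LiesOverPrime ℓ) {σ : GQ}
    (hσ : σ ∈ A.inertiaSubgroupIn ℚ) : cyc p n σ = 1 := by
  rw [← Nat.cast_one]
  exact cyc_eq_natCast p n σ 1 fun x hx => by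
    rw [pow_one, Gal.inertia_rootOfUnity hℓ hA hσ
      (fun h => hℓp ((Nat.prime_dvd_prime_iff_eq hℓ Fact.out).mp (hℓ.dvd_of_dvd_pow h))) hx]

end Fermat.Agent.Attach
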