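import Fermat.Prelude.Def_CuspForm_HeckeGaloisRepDatum
import Fermat.Prelude.Def_GaloisRep_DeformationRingData

/-!
# The map from a deformation ring onto a Hecke ring

If the representation of a Hecke datum satisfies a deformation condition, the classifying map from
the universal deformation ring to the Hecke ring is surjective, since its image contains the images
of all `T_ℓ` as traces of Frobenius.
-/

open Polynomial GaloisRep

namespace Fermat.Agent.Attach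

/-- Charpolys of equivalent adic representations agree. -/
theorem charpoly_eq_of_isEquiv {A : Type} [CommRing A] [IsLocalRing A]
    {ρ₁ ρ₂ : GaloisRepAdic A} (h : ρ₁.IsEquiv ρ₂)
    (σ : AlgebraicClosure ℚ ≃ₐ[ℚ] AlgebraicClosure ℚ) :
    LinearMap.charpoly (ρ₁.ρ σ) = LinearMap.charpoly (ρ₂.ρ σ) := by
  obtain ⟨e⟩ := h
  have : ρ₂.ρ σ = e.toLinearEquiv.conj (ρ₁.ρ σ) := by
    apply LinearMap.ext
    intro x
    rw [LinearEquiv.conj_apply_apply, e.map_apply, LinearEquiv.apply_symm_apply]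
  rw [this, LinearEquiv.charpoly_conj]

theorem charpoly_baseChangeAlong {A B : Type} [CommRing A] [IsLocalRing A] [CommRing B]
    [IsLocalRing B] (φ : A →+* B) (hφ : IsLocalHom φ) (ρ : GaloisRepAdic A)
    (σ : AlgebraicClosure ℚ ≃ₐ[ℚ] AlgebraicClosure ℚ) :
    LinearMap.charpoly ((ρ.baseChangeAlong φ hφ).ρ σ) = (LinearMap.charpoly (ρ.ρ σ)).map φ := by
  let : Algebra A B := φ.toAlgebra
  exact LinearMap.charpoly_baseChange (ρ.ρ σ) B

theorem coeff_one_frobPoly {T : Type} [CommRing T] (t c : T) :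
    (X ^ 2 - C t * X + C c : T[X]).coeff 1 = -t := by
  rw [coeff_add, coeff_sub, coeff_C_of_ne_zero one_ne_zero]
  simp [coeff_X_pow]

/-- The deformation ring surjects onto the Hecke ring. -/
theorem exists_surjective_algHom
    (hfrob : ∀ ℓ : ℕ, ℓ.Prime → ∃ (A : ValuationSubring (AlgebraicClosure ℚ))
      (σ : AlgebraicClosure ℚ ≃ₐ[ℚ] AlgebraicClosure ℚ),
        A.LiesOverPrime ℓ ∧ A.IsFrobeniusAt σ ℓ)
    {𝒪 : Type} [CommRing 𝒪] [IsDomain 𝒪] [IsDiscreteValuationRing 𝒪]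
    [IsAdicComplete (IsLocalRing.maximalIdeal 𝒪) 𝒪]
    {ρbar : ResidualGaloisRep (IsLocalRing.ResidueField 𝒪)}
    {𝒟 : ∀ ⦃A : Type⦄ [CommRing A] [IsLocalRing A] [Algebra 𝒪 A], GaloisRepAdic A → Prop}
    (D : GaloisRep.DeformationRingData 𝒪 ρbar 𝒟) {N : ℕ} [NeZero N] {S : Set ℕ}
    {θ : CuspForm.heckeAlgebra N 2 S →+* IsLocalRing.ResidueField 𝒪}
    {T : Type} [CommRing T] [IsLocalRing T] [IsNoetherianRing T]
    [IsAdicComplete (IsLocalRing.maximalIdeal T) T] [Algebra 𝒪 T]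
    [IsLocalHom (algebraMap 𝒪 T)] [Module.Finite 𝒪 T] [Module.Free 𝒪 T]
    (H : CuspForm.HeckeGaloisRepDatum N S 𝒪 θ T) (hS : ∀ q : ℕ, q.Prime → q ∣ N → q ∈ S)
    (h𝒟 : 𝒟 H.ρ)
    (hres : H.ρ.residual.IsEquiv
      (ρbar.baseChangeAlong (IsLocalRing.ResidueField.map (algebraMap 𝒪 T)))) :
    ∃ φ : D.R →ₐ[𝒪] T, Function.Surjective φ ∧ ∃ hφ : IsLocalHom (φ : D.R →+* T),
      (D.ρ.baseChangeAlong (φ : D.R →+* T) hφ).IsEquiv H.ρ := by
  obtain ⟨φ, ⟨hφ, he⟩, -⟩ := D.universal T H.residue_surjective H.ρ h𝒟 hres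
  refine ⟨φ, ?_, hφ, he⟩
  have hgen : ∀ (ℓ : ℕ) (hℓ : ℓ.Prime) (hℓN : ¬ ℓ ∣ N) (hℓS : ℓ ∉ S),
      H.π (CuspForm.heckeAlgebra.T hℓ hℓN hℓS) ∈ φ.range := by
    intro ℓ hℓ hℓN hℓS
    obtain ⟨A, σ, hA, hσ⟩ := hfrob ℓ hℓ
    have h1 := H.charpoly_frob ℓ hℓ hℓN hℓS A hA σ hσ
    rw [← charpoly_eq_of_isEquiv he σ, charpoly_baseChangeAlong] at h1
    refine ⟨-((LinearMap.charpoly (D.ρ.ρ σ)).coeff 1), ?_⟩
    rw [map_neg]
    have h2 := congrArg (fun P : T[X] => P.coeff 1) h1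
    simp only [coeff_map, coeff_one_frobPoly] at h2
    change -((φ : D.R →+* T) _) = _
    rw [h2, neg_neg]
  let W : Subalgebra ℤ (CuspForm.heckeAlgebra N 2 S) :=
    { Subring.comap H.π φ.range.toSubring with
      algebraMap_mem' := fun n => by
        show H.π (algebraMap ℤ _ n) ∈ φ.range
        rw [eq_intCast, map_intCast]
        exact intCast_mem _ n }
  have hW : ∀ t : CuspForm.heckeAlgebra N 2 S, H.π t ∈ φ.range := by
    intro t
    obtain ⟨x, hx⟩ := t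
    refine Algebra.adjoin_induction (p := fun y hy => (⟨y, hy⟩ : CuspForm.heckeAlgebra N 2 S) ∈ W)
      ?_ (fun n => W.algebraMap_mem n) (fun x y _ _ a b => W.add_mem a b)
      (fun x y _ _ a b => W.mul_mem a b) hx
    rintro y (⟨ℓ, hℓ, hℓN, hℓS, rfl⟩ | ⟨q, hqN, hq, hqS, rfl⟩)
    · exact hgen ℓ hℓ hℓN hℓS
    · exact absurd (hS q hq hqN) hqS
  have htop : φ.range = ⊤ := by
    refine top_le_iff.mp ?_
    rw [← H.adjoin_range_π]
    refine Algebra.adjoin_le ?_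
    rintro _ ⟨t, rfl⟩
    exact hW t
  exact (AlgHom.range_eq_top φ).mp htop

end Fermat.Agent.Attach
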