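import Fermat.Agent.Attach.Levels
import Fermat.Agent.Eis.CuspCoeff
import Fermat.Agent.Eis.Eigen

/-!
# The eigencharacter of an eigenform

A normalised eigenform of level `N` gives a character of the Hecke algebra away from the level, and
the elements of a Hecke algebra acting faithfully on a lattice are integral over `ℤ`.
-/

noncomputable section

open ModularFormClass CongruenceSubgroup

namespace Fermat.Agent.Attach

variable {N : ℕ} [NeZero N] {g : CuspForm (Gamma0 N) 2}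

/-- An eigenform is multiplied by its `ℓ`-th coefficient under `T_ℓ`. -/
theorem heckeTLin_apply_eigenform (hg : g.IsNormalizedEigenform) {ℓ : ℕ} (hℓ : ℓ.Prime)
    (hℓN : ¬ ℓ ∣ N) : CuspForm.heckeTLin 2 hℓ hℓN g = qCoeff g ℓ • g := by
  rw [← sub_eq_zero]
  refine Eis.eq_zero_of_qCoeff _ fun n => ?_
  rw [Eis.qCoeff_sub, Eis.qCoeff_heckeTLin hℓ hℓN, Eis.qCoeff_smul, sub_eq_zero]
  rcases eq_or_ne n 0 with rfl | hn
  · simp [Eis.qCoeff_cusp_zero]
  obtain ⟨r, m, hm, rfl⟩ := Nat.exists_eq_pow_mul_and_not_dvd hn ℓ hℓ.ne_one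
  have hco : ∀ s : ℕ, qCoeff g (ℓ ^ s * m) = qCoeff g (ℓ ^ s) * qCoeff g m := fun s =>
    hg.qCoeff_mul_of_coprime _ _ (Nat.Coprime.pow_left s (hℓ.coprime_iff_not_dvd.mpr hm))
  rcases r with - | r
  · rw [pow_zero, one_mul, if_neg hm, mul_zero, add_zero,
      hg.qCoeff_mul_of_coprime _ _ (hℓ.coprime_iff_not_dvd.mpr hm)]
  · rw [if_pos (dvd_mul_of_dvd_left (dvd_pow_self ℓ r.succ_ne_zero) m),
      show ℓ ^ (r + 1) * m / ℓ = ℓ ^ r * m by
        rw [pow_succ', mul_assoc, Nat.mul_div_cancel_left _ hℓ.pos],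
      show ℓ * (ℓ ^ (r + 1) * m) = ℓ ^ (r + 2) * m by ring, hco, hco, hco,
      hg.qCoeff_prime_pow_of_not_dvd ℓ r hℓ hℓN]
    ring

/-- The eigencharacter of a normalised eigenform on `T_S`. -/
theorem exists_eigenChar (hg : g.IsNormalizedEigenform) {S : Set ℕ}
    (hS : ∀ q, q.Prime → q ∣ N → q ∈ S) :
    ∃ χ : CuspForm.heckeAlgebra N 2 S →+* ℂ,
      ∀ (ℓ : ℕ) (hℓ : ℓ.Prime) (hℓN : ¬ ℓ ∣ N) (hℓS : ℓ ∉ S),
        χ (CuspForm.heckeAlgebra.T hℓ hℓN hℓS) = qCoeff g ℓ := by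
  have hg0 : g ≠ 0 := fun h => by
    have := hg.qCoeff_one
    rw [h, Eis.qCoeff_zero_form] at this
    exact zero_ne_one this
  let ρ : CuspForm.heckeAlgebra N 2 S →+* Module.End ℂ (CuspForm (Gamma0 N) 2) :=
    (CuspForm.heckeAlgebra N 2 S).val.toRingHom
  let C : Subring (Module.End ℂ (CuspForm (Gamma0 N) 2)) :=
    { carrier := {f | ∃ c : ℂ, f g = c • g}
      mul_mem' := by
        rintro a b ⟨c, hc⟩ ⟨d, hd⟩
        exact ⟨d * c, by rw [Module.End.mul_apply, hd, map_smul, hc, smul_smul]⟩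
      one_mem' := ⟨1, by simp⟩
      add_mem' := by
        rintro a b ⟨c, hc⟩ ⟨d, hd⟩
        exact ⟨c + d, by rw [LinearMap.add_apply, hc, hd, add_smul]⟩
      zero_mem' := ⟨0, by simp⟩
      neg_mem' := by
        rintro a ⟨c, hc⟩
        exact ⟨-c, by rw [LinearMap.neg_apply, hc, neg_smul]⟩ }
  have hall : ∀ t, ρ t ∈ C := forall_mem_of_T_mem (fun q hq hq' => hS q hq' hq) ρ C
    fun ℓ hℓ hℓN hℓS => ⟨qCoeff g ℓ, heckeTLin_apply_eigenform hg hℓ hℓN⟩
  obtain ⟨χ, hχ⟩ := Eis.exists_character_of_eigenvector ρ hg0 hall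
  refine ⟨χ, fun ℓ hℓ hℓN hℓS => ?_⟩
  exact smul_left_injective ℂ hg0
    ((hχ _).symm.trans (heckeTLin_apply_eigenform hg hℓ hℓN))

/-- The elements of a Hecke algebra acting faithfully on a lattice are integral over `ℤ`. -/
theorem isIntegral_of_faithful {S : Set ℕ} {H : Type*} [AddCommGroup H] [Module.Finite ℤ H]
    (φ : CuspForm.heckeAlgebra N 2 S →+* Module.End ℤ H) (hφ : Function.Injective φ)
    (t : CuspForm.heckeAlgebra N 2 S) : IsIntegral ℤ t := by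
  have h : IsIntegral ℤ (φ t) := Algebra.IsIntegral.isIntegral _
  exact (isIntegral_algHom_iff φ.toIntAlgHom hφ).mp h

end Fermat.Agent.Attach
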