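import Mathlib

/-!
# Eigenvectors for faithful integral actions

If a commutative ring `T` acts faithfully on `ℤ^r`, every homomorphism from `T` to a field has an
eigenvector in `K^r`. Applied to the Hecke algebra on the torsion model, this realises an
eigensystem in any characteristic.
-/

open scoped TensorProduct

namespace Fermat.Agent.Attach

/-- For a commutative ring `T` acting faithfully on `ℤ^r` and a ring hom `θ` to a field there is a
nonzero eigenvector with eigensystem `θ`, in any characteristic. -/
theorem exists_eigvec {T : Type*} [CommRing T] {r : ℕ}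
    (ψ : T →+* Matrix (Fin r) (Fin r) ℤ) (hψ : Function.Injective ψ)
    {K : Type*} [Field K] (θ : T →+* K) :
    ∃ v : Fin r → K, v ≠ 0 ∧
      ∀ t : T, ((ψ t).map (Int.castRingHom K)).mulVec v = θ t • v := by
  classical
  let act : T →+* Module.End ℤ (Fin r → ℤ) :=
    { toFun := fun t => Matrix.toLinAlgEquiv' (ψ t).transpose
      map_one' := by rw [map_one, Matrix.transpose_one, map_one]
      map_mul' := fun s t => by
        rw [mul_comm, map_mul, Matrix.transpose_mul, map_mul]
      map_zero' := by rw [map_zero, Matrix.transpose_zero, map_zero]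
      map_add' := fun s t => by rw [map_add, Matrix.transpose_add, map_add] }
  let : Module T (Fin r → ℤ) := Module.compHom _ act
  have hsmul : ∀ (t : T) (x : Fin r → ℤ), t • x = (ψ t).transpose.mulVec x := fun t x => rfl
  have : IsScalarTower ℤ T (Fin r → ℤ) := ⟨fun n t x => by
    show act (n • t) x = n • act t x
    rw [map_zsmul]; rfl⟩
  have : Module.Finite T (Fin r → ℤ) := Module.Finite.of_restrictScalars_finite ℤ T _
  have hann : Module.annihilator T (Fin r → ℤ) = ⊥ := by
    rw [eq_bot_iff]
    intro t ht
    rw [Module.mem_annihilator] at ht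
    refine (Submodule.mem_bot T).mpr (hψ ?_)
    rw [map_zero]
    refine Matrix.transpose_eq_zero.mp (Matrix.toLinAlgEquiv'.injective ?_)
    rw [map_zero]
    exact LinearMap.ext fun x => ht x
  let P : PrimeSpectrum T := ⟨RingHom.ker θ, RingHom.ker_isPrime θ⟩
  have hP : P ∈ Module.support T (Fin r → ℤ) := by
    rw [Module.support_eq_zeroLocus, hann, PrimeSpectrum.mem_zeroLocus]
    simp
  rw [Module.mem_support_iff_nontrivial_residueField_tensorProduct] at hP
  have : P.asIdeal.IsPrime := P.isPrime
  let : Algebra T K := θ.toAlgebra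
  let κ := P.asIdeal.ResidueField
  let ι : κ →ₐ[T] K := IsFractionRing.liftAlgHom
    (A := T ⧸ P.asIdeal) (g := Ideal.Quotient.liftₐ P.asIdeal (Algebra.ofId T K) (fun a ha => ha))
    (by
      intro a b hab
      obtain ⟨a, rfl⟩ := Ideal.Quotient.mk_surjective a
      obtain ⟨b, rfl⟩ := Ideal.Quotient.mk_surjective b
      rw [Ideal.Quotient.eq]
      show θ (a - b) = 0
      rw [map_sub]
      exact sub_eq_zero.mpr hab)
  let : Algebra κ K := ι.toRingHom.toAlgebra
  have : IsScalarTower T κ K := IsScalarTower.of_algHom ι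
  have hnt : Nontrivial (K ⊗[T] (Fin r → ℤ)) := by
    have := hP
    have : Nontrivial (K ⊗[κ] (κ ⊗[T] (Fin r → ℤ))) := by
      refine not_subsingleton_iff_nontrivial.mp fun h => ?_
      exact not_subsingleton (κ ⊗[T] (Fin r → ℤ))
        (Module.FaithfullyFlat.lTensor_reflects_triviality κ K _)
    exact (TensorProduct.AlgebraTensorModule.cancelBaseChange T κ K K (Fin r → ℤ)).symm.nontrivial
  obtain ⟨f, hf⟩ := exists_ne (0 : Module.Dual K (K ⊗[T] (Fin r → ℤ)))
  let v : Fin r → K := fun i => f (1 ⊗ₜ[T] (Pi.single i 1 : Fin r → ℤ))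
  have hsum : ∀ x : Fin r → ℤ, f (1 ⊗ₜ[T] x) = ∑ i, (x i : K) * v i := by
    intro x
    conv_lhs => rw [pi_eq_sum_univ' x]
    rw [TensorProduct.tmul_sum, map_sum]
    refine Finset.sum_congr rfl fun i _ => ?_
    rw [← zsmul_eq_mul, ← map_zsmul, TensorProduct.tmul_smul]
  refine ⟨v, fun h => hf ?_, fun t => funext fun i => ?_⟩
  · refine LinearMap.ext fun z => ?_
    induction z using TensorProduct.induction_on with
    | zero => simp
    | tmul a x =>
      rw [show a ⊗ₜ[T] x = a • ((1 : K) ⊗ₜ[T] x) by
          rw [TensorProduct.smul_tmul', smul_eq_mul, mul_one],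
        map_smul, hsum, h]
      simp
    | add a b ha hb => simp [ha, hb]
  · have h := hsum (t • (Pi.single i 1 : Fin r → ℤ))
    rw [TensorProduct.tmul_smul, ← IsScalarTower.algebraMap_smul K t, map_smul] at h
    rw [Pi.smul_apply, Matrix.mulVec, dotProduct]
    refine Eq.trans ?_ h.symm
    refine Finset.sum_congr rfl fun j _ => ?_
    rw [hsmul, Matrix.mulVec_single_one]
    simp

end Fermat.Agent.Attach
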