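import Mathlib.FieldTheory.Separable
import Mathlib.RingTheory.DedekindDomain.IntegralClosure
import Mathlib.RingTheory.DiscreteValuationRing.TFAE
import Fermat.Prelude.Thm_Algebra_finite_maximalSpectrum_and_bijective_localization_of_module_finite
import Fermat.Prelude.Thm_IsLocalRing_isAdicComplete_of_module_finite

/-!
# Integral closures of complete discrete valuation rings

A domain finite over a complete Noetherian local ring is local, and the integral closure of a
complete discrete valuation ring in a finite separable extension of its fraction field is again a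
complete discrete valuation ring, finite over it. Used to enlarge coefficient rings.
-/

noncomputable section

namespace Fermat.Agent.Attach

/-- A domain finite over a complete noetherian local ring is local. -/
theorem isLocalRing_of_finite_domain {O : Type} [CommRing O] [IsLocalRing O] [IsNoetherianRing O]
    [IsAdicComplete (IsLocalRing.maximalIdeal O) O] (C : Type) [CommRing C] [IsDomain C]
    [Algebra O C] [Module.Finite O C] : IsLocalRing C := by
  obtain ⟨-, hbij, -, -⟩ :=
    Algebra.finite_maximalSpectrum_and_bijective_localization_of_module_finite (𝒪 := O) C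
  classical
  by_contra hloc
  have hsub : ∀ I J : MaximalSpectrum C, I = J := by
    intro I J
    by_contra hne
    obtain ⟨x, hx⟩ := hbij.2 (Pi.single I 1)
    obtain ⟨y, hy⟩ := hbij.2 (Pi.single J 1)
    have hxy : x * y = 0 := hbij.1 (by
      rw [map_mul, map_zero, hx, hy]
      funext L
      rw [Pi.mul_apply, Pi.zero_apply]
      rcases eq_or_ne L I with rfl | hL
      · rw [Pi.single_eq_of_ne hne, mul_zero]
      · rw [Pi.single_eq_of_ne hL, zero_mul])
    rcases mul_eq_zero.mp hxy with rfl | rfl
    · rw [map_zero] at hx
      exact zero_ne_one ((congrFun hx I).trans (Pi.single_eq_same I 1))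
    · rw [map_zero] at hy
      exact zero_ne_one ((congrFun hy J).trans (Pi.single_eq_same J 1))
  obtain ⟨m, hm⟩ := Ideal.exists_maximal C
  refine hloc (IsLocalRing.of_unique_max_ideal ⟨m, hm, fun J hJ => ?_⟩)
  exact congrArg MaximalSpectrum.asIdeal (hsub ⟨J, hJ⟩ ⟨m, hm⟩)

/-- The structure of the integral closure of `O` in a finite extension of its fraction field. -/
theorem integralClosure_facts (O : Type) [CommRing O] [IsDomain O] [IsDiscreteValuationRing O]
    [IsAdicComplete (IsLocalRing.maximalIdeal O) O] [Finite (IsLocalRing.ResidueField O)]
    [CharZero O] (E : Type) [Field E] [Algebra O E] [Algebra (FractionRing O) E]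
    [IsScalarTower O (FractionRing O) E] [FiniteDimensional (FractionRing O) E] :
    Module.Finite O (integralClosure O E) ∧
    Function.Injective (algebraMap O (integralClosure O E)) ∧
    ∃ _ : IsDiscreteValuationRing (integralClosure O E),
      IsAdicComplete (IsLocalRing.maximalIdeal (integralClosure O E)) (integralClosure O E) ∧
      Finite (IsLocalRing.ResidueField (integralClosure O E)) ∧
      IsLocalHom (algebraMap O (integralClosure O E)) ∧
      IsFractionRing (integralClosure O E) E := by
  set K := FractionRing O
  set C := integralClosure O E
  have : CharZero K := charZero_of_injective_algebraMap (IsFractionRing.injective O K)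
  have : Algebra.IsSeparable K E := inferInstance
  have hfin : Module.Finite O C := IsIntegralClosure.finite O K E C
  have hinjE : Function.Injective (algebraMap O E) := by
    rw [IsScalarTower.algebraMap_eq O K E]
    exact (algebraMap K E).injective.comp (IsFractionRing.injective O K)
  have hinj : Function.Injective (algebraMap O C) := by
    intro a b h
    exact hinjE (congrArg Subtype.val h)
  have : IsFractionRing C E :=
    IsIntegralClosure.isFractionRing_of_finite_extension O K E C
  have : IsDedekindDomain C := IsIntegralClosure.isDedekindDomain O K E C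
  have : IsLocalRing C := isLocalRing_of_finite_domain (O := O) C
  have : Algebra.IsIntegral O C := Algebra.IsIntegral.of_finite O C
  have hlh : IsLocalHom (algebraMap O C) := ⟨fun x hx => by
    by_contra hu
    obtain ⟨u, hu'⟩ := hx.exists_right_inv
    obtain ⟨P, hP, hPx⟩ := Ideal.exists_ideal_over_maximal_of_isIntegral (S := C)
      (IsLocalRing.maximalIdeal O) (by
          rw [(RingHom.injective_iff_ker_eq_bot _).mp hinj]; exact bot_le)
    have hxP : algebraMap O C x ∈ P := by
      have : x ∈ P.comap (algebraMap O C) := by
        rw [hPx]; exact (IsLocalRing.mem_maximalIdeal x).mpr hu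
      exact this
    exact hP.ne_top (Ideal.eq_top_of_isUnit_mem _ hxP (IsUnit.of_mul_eq_one u hu'))⟩
  have hnf : ¬ IsField C := fun h => by
    obtain ⟨π, hπ⟩ := IsDiscreteValuationRing.exists_irreducible O
    have h0 : algebraMap O C π ≠ 0 := fun h => hπ.ne_zero (hinj (h.trans (map_zero _).symm))
    obtain ⟨y, hy⟩ := h.mul_inv_cancel h0
    exact hπ.not_isUnit (hlh.map_nonunit π (IsUnit.of_mul_eq_one y hy))
  have hdvr : IsDiscreteValuationRing C :=
    ((IsDiscreteValuationRing.TFAE C hnf).out 0 2 rfl rfl).mpr ‹IsDedekindDomain C›
  refine ⟨hfin, hinj, hdvr, IsLocalRing.isAdicComplete_of_module_finite (𝒪 := O), ?_, hlh,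
    inferInstance⟩
  have : Module.Finite (IsLocalRing.ResidueField O) (IsLocalRing.ResidueField C) := inferInstance
  exact Module.finite_of_finite (IsLocalRing.ResidueField O)

end Fermat.Agent.Attach
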