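import Mathlib

/-!
# Representations with quadratic elements

An irreducible representation in which every element satisfies a quadratic equation over the scalars
has dimension at most two, over algebraically closed and over finite fields. Hence a nonzero
representation with this property contains an invariant subspace of dimension one or two.
-/

namespace Fermat.Agent.Attach

/-- Division algebras over `k` with only quadratic elements are at most two-dimensional. -/
def SmallQuadraticDivision (k : Type) [Field k] : Prop :=
  ∀ (D : Type) [DivisionRing D] [Algebra k D] [Module.Finite k D],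
    (∀ d : D, ∃ t s : k, d * d - t • d + s • 1 = 0) → Module.finrank k D ≤ 2

/-- An algebraically closed field has no larger quadratic division algebra. -/
theorem smallQuadraticDivision_of_isAlgClosed (k : Type) [Field k] [IsAlgClosed k] :
    SmallQuadraticDivision k := by
  intro D _ _ _ _
  have h := LinearEquiv.ofBijective (Algebra.linearMap k D)
    (IsAlgClosed.algebraMap_bijective_of_isIntegral (k := k) (K := D))
  rw [← h.finrank_eq, Module.finrank_self]
  omega

/-- The same holds for a finite field. -/
theorem smallQuadraticDivision_of_finite (k : Type) [Field k] [Finite k] :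
    SmallQuadraticDivision k := by
  intro D _ _ _ hq
  have : Finite D := Module.finite_of_finite k
  let := littleWedderburn D
  obtain ⟨u, hu⟩ := IsCyclic.exists_generator (α := Dˣ)
  obtain ⟨t, s, ht⟩ := hq (u : D)
  let W : Submodule k D := Submodule.span k {1, (u : D)}
  have hmul : ∀ x ∈ W, (u : D) * x ∈ W := by
    intro x hx
    induction hx using Submodule.span_induction with
    | mem y hy =>
      rcases hy with rfl | rfl
      · rw [mul_one]; exact Submodule.subset_span (by simp)
      · have : (u : D) * u = t • (u : D) - s • 1 := by linear_combination ht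
        rw [this]
        exact W.sub_mem (W.smul_mem _ (Submodule.subset_span (by simp)))
          (W.smul_mem _ (Submodule.subset_span (by simp)))
    | zero => simp
    | add a b _ _ ha hb => rw [mul_add]; exact W.add_mem ha hb
    | smul a x _ hx => rw [Algebra.mul_smul_comm]; exact W.smul_mem _ hx
  have hpow : ∀ n : ℕ, (u : D) ^ n ∈ W := by
    intro n
    induction n with
    | zero => rw [pow_zero]; exact Submodule.subset_span (by simp)
    | succ n ih => rw [pow_succ']; exact hmul _ ih
  have htop : W = ⊤ := by
    rw [eq_top_iff]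
    intro x _
    by_cases hx : x = 0
    · subst hx; exact W.zero_mem
    obtain ⟨n, hn⟩ := mem_powers_iff_mem_zpowers.mpr (hu (Units.mk0 x hx))
    have : (u : D) ^ n = x := by
      have := congrArg Units.val hn
      simpa using this
    exact this ▸ hpow n
  classical
  have h : Module.finrank k W ≤ 2 := by
    refine (finrank_span_le_card (R := k) ({1, (u : D)} : Set D)).trans ?_
    simp only [Set.toFinset_insert, Set.toFinset_singleton]
    exact Finset.card_le_two
  rwa [htop, finrank_top] at h

variable {G : Type*} [Group G] {k : Type} [Field k] {V : Type} [AddCommGroup V] [Module k V]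

/-- Every element of the span of the image is quadratic. -/
theorem quadratic_of_mem_adjoin (ρ : G →* Module.End k V) (χ : G →* k) (c : G → k)
    (hgood : ∀ g, ρ g + χ g • ρ g⁻¹ = c g • (1 : Module.End k V))
    (x : Module.End k V) (hx : x ∈ Algebra.adjoin k (Set.range ρ)) :
    ∃ t s : k, x * x - t • x + s • 1 = 0 := by
  rw [← Subalgebra.mem_toSubmodule, Algebra.adjoin_eq_span] at hx
  have hx' : x ∈ Submodule.span k (Set.range ρ) :=
    Submodule.span_mono (Submonoid.closure_le.mpr fun y hy => hy :
      Submonoid.closure (Set.range ρ) ≤ MonoidHom.mrange ρ) hx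
  let P : Submodule k (Module.End k V × Module.End k V) :=
    Submodule.span k (Set.range fun g => (ρ g, χ g • ρ g⁻¹))
  let Sc : Submodule k (Module.End k V) := Submodule.span k {1}
  have hadd : ∀ p ∈ P, p.1 + p.2 ∈ Sc := by
    intro p hp
    induction hp using Submodule.span_induction with
    | mem p hp =>
      obtain ⟨g, rfl⟩ := hp
      exact Submodule.mem_span_singleton.mpr ⟨c g, (hgood g).symm⟩
    | zero => simp
    | add a b _ _ ha hb =>
      have : (a + b).1 + (a + b).2 = (a.1 + a.2) + (b.1 + b.2) := add_add_add_comm _ _ _ _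
      exact this ▸ Sc.add_mem ha hb
    | smul r a _ ha =>
      have : (r • a).1 + (r • a).2 = r • (a.1 + a.2) := (smul_add r _ _).symm
      exact this ▸ Sc.smul_mem r ha
  have hB : ∀ p ∈ P, ∀ q ∈ P, p.1 * q.2 + q.1 * p.2 ∈ Sc := by
    intro p hp
    induction hp using Submodule.span_induction with
    | mem p hp =>
      obtain ⟨g, rfl⟩ := hp
      intro q hq
      induction hq using Submodule.span_induction with
      | mem q hq =>
        obtain ⟨h, rfl⟩ := hq
        refine Submodule.mem_span_singleton.mpr ⟨χ h * c (g * h⁻¹), ?_⟩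
        have hc := congrArg (χ h • ·) (hgood (g * h⁻¹))
        simp only [smul_add, smul_smul, ← map_mul, mul_inv_rev, inv_inv] at hc
        have e : χ (h * (g * h⁻¹)) = χ g := by
          rw [map_mul, map_mul, mul_left_comm, ← map_mul χ h, mul_inv_cancel, map_one, mul_one]
        rw [e] at hc
        rw [← hc]
        simp [← map_mul]
      | zero => simp
      | add a b _ _ ha hb =>
        convert Sc.add_mem ha hb using 1
        simp [mul_add, add_mul]; abel
      | smul r a _ ha =>
        convert Sc.smul_mem r ha using 1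
        simp [smul_add, smul_comm r]
    | zero => intro q _; simp
    | add a b _ _ ha hb =>
      intro q hq
      convert Sc.add_mem (ha q hq) (hb q hq) using 1
      simp [mul_add, add_mul]; abel
    | smul r a _ ha =>
      intro q hq
      convert Sc.smul_mem r (ha q hq) using 1
      simp [smul_add]
  have hQ : ∀ p ∈ P, p.1 * p.2 ∈ Sc := by
    intro p hp
    induction hp using Submodule.span_induction with
    | mem p hp =>
      obtain ⟨g, rfl⟩ := hp
      refine Submodule.mem_span_singleton.mpr ⟨χ g, ?_⟩
      simp [← map_mul]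
    | zero => simp
    | add a b hma hmb ha hb =>
      convert Sc.add_mem (Sc.add_mem ha hb) (hB a hma b hmb) using 1
      simp [mul_add, add_mul]; abel
    | smul r a _ ha =>
      convert Sc.smul_mem r (Sc.smul_mem r ha) using 1
      simp
  have hfst : Submodule.span k (Set.range ρ) ≤ P.map (LinearMap.fst k _ _) := by
    refine Submodule.span_le.mpr ?_
    rintro _ ⟨g, rfl⟩
    exact ⟨_, Submodule.subset_span ⟨g, rfl⟩, rfl⟩
  obtain ⟨p, hp, rfl⟩ := hfst hx'
  obtain ⟨t, ht⟩ := Submodule.mem_span_singleton.mp (hadd p hp)
  obtain ⟨s, hs⟩ := Submodule.mem_span_singleton.mp (hQ p hp)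
  refine ⟨t, s, ?_⟩
  have hy : p.2 = t • 1 - p.1 := by rw [ht]; abel
  rw [hy, mul_sub, Algebra.mul_smul_comm, mul_one] at hs
  rw [LinearMap.fst_apply, hs]
  abel

/-- An irreducible good representation has dimension at most two. -/
theorem finrank_le_two_of_irreducible [FiniteDimensional k V] [Nontrivial V]
    (hD : SmallQuadraticDivision k) (ρ : G →* Module.End k V) (χ : G →* k) (c : G → k)
    (hgood : ∀ g, ρ g + χ g • ρ g⁻¹ = c g • (1 : Module.End k V))
    (hirr : ∀ W : Submodule k V, (∀ g, ∀ x ∈ W, ρ g x ∈ W) → W = ⊥ ∨ W = ⊤) :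
    Module.finrank k V ≤ 2 := by
  classical
  let A := Algebra.adjoin k (Set.range ρ)
  have : IsSimpleModule A V := by
    refine (isSimpleModule_iff A V).mpr ?_
    have : Nontrivial (Submodule A V) := Submodule.nontrivial_iff A |>.mpr inferInstance
    refine IsSimpleOrder.mk fun W => ?_
    rcases hirr (W.restrictScalars k) (fun g x hx =>
      W.smul_mem (⟨ρ g, Algebra.subset_adjoin ⟨g, rfl⟩⟩ : A) hx) with h | h
    · exact Or.inl (by rw [← Submodule.restrictScalars_eq_bot_iff (S := k)]; exact h)
    · exact Or.inr (by rw [← Submodule.restrictScalars_eq_top_iff (S := k)]; exact h)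
  let : DivisionRing (Module.End A V) := Module.End.instDivisionRing
  have : Module.Finite k (Module.End A V) :=
    Module.Finite.of_injective
      ({ toFun := fun f => f.restrictScalars k
         map_add' := fun _ _ => rfl
         map_smul' := fun _ _ => rfl } : Module.End A V →ₗ[k] Module.End k V)
      (fun f g h => LinearMap.ext fun x => LinearMap.congr_fun h x)
  have : Module.Finite (Module.End A V) V := Module.Finite.of_restrictScalars_finite k _ V
  let b := Module.finBasis (Module.End A V) V
  set n := Module.finrank (Module.End A V) V with hn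
  have hn0 : 0 < n := Module.finrank_pos
  have hdens : ∀ v : Fin n → V, ∃ x : A, ∀ i, (x : Module.End k V) (b i) = v i := by
    intro v
    obtain ⟨x, hx⟩ := jacobson_density (R := A) (b.constr ℕ v) (Finset.univ.image b)
    refine ⟨x, fun i => ?_⟩
    have h := hx (b i) (Finset.mem_image_of_mem b (Finset.mem_univ i))
    rw [Module.Basis.constr_basis] at h
    exact h.symm
  have hquad : ∀ x : A, ∃ t s : k, ∀ w : V,
      (x : Module.End k V) ((x : Module.End k V) w) - t • (x : Module.End k V) w + s • w = 0 := by
    intro x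
    obtain ⟨t, s, h⟩ := quadratic_of_mem_adjoin ρ χ c hgood x x.2
    exact ⟨t, s, fun w => LinearMap.congr_fun h w⟩
  -- the coordinate argument: a relation `d • b i` with `k`-coefficients
  have hcoef : ∀ (d : Module.End A V) (r : k) (i : Fin n),
      d (r • b i) = r • d (b i) := fun d r i => LinearMap.map_smul_of_tower d r _
  have hDq : ∀ d : Module.End A V, ∀ (i : Fin n) (v : Fin n → V), v i = d (b i) →
      ∀ x : A, (∀ j, (x : Module.End k V) (b j) = v j) → ∀ t s : k,
      (∀ w : V, (x : Module.End k V) ((x : Module.End k V) w) - t • (x : Module.End k V) w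
        + s • w = 0) →
      d * d - t • d + s • 1 = 0 := by
    intro d i v hv x hx t s hts
    have h := hts (b i)
    have hcomm : (x : Module.End k V) (d (b i)) = d ((x : Module.End k V) (b i)) :=
      (LinearMap.map_smul d x (b i)).symm
    rw [hx i, hv, hcomm, hx i, hv] at h
    have h' : (d * d - t • d + s • 1) • b i = 0 := h
    exact (smul_eq_zero.mp h').resolve_right (b.ne_zero i)
  have hD2 : Module.finrank k (Module.End A V) ≤ 2 := by
    refine hD _ fun d => ?_
    obtain ⟨x, hx⟩ := hdens fun i => d (b i)
    obtain ⟨t, s, hts⟩ := hquad x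
    exact ⟨t, s, hDq d ⟨0, hn0⟩ _ rfl x hx t s hts⟩
  rw [← Module.finrank_mul_finrank k (Module.End A V) V, ← hn]
  rcases (show n = 1 ∨ n = 2 ∨ 3 ≤ n by omega) with h1 | h2 | h3
  · rw [h1, mul_one]; exact hD2
  · have hsc : ∀ d : Module.End A V, ∃ r : k, r • 1 = d := by
      intro d
      let i0 : Fin n := ⟨0, by omega⟩
      let i1 : Fin n := ⟨1, by omega⟩
      have hne : i1 ≠ i0 := by simp [i0, i1]
      obtain ⟨x, hx⟩ := hdens fun i => if i = i0 then d (b i0) else 0
      obtain ⟨t, s, hts⟩ := hquad x
      have hq := hDq d i0 _ (if_pos rfl) x hx t s hts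
      have hs : s = 0 := by
        have h := hts (b i1)
        rw [hx i1, if_neg hne, map_zero, smul_zero, sub_self, zero_add] at h
        exact (smul_eq_zero.mp h).resolve_right (b.ne_zero i1)
      rw [hs, zero_smul, add_zero, sub_eq_zero] at hq
      rcases eq_or_ne d 0 with hd | hd
      · exact ⟨0, by rw [zero_smul, hd]⟩
      · refine ⟨t, mul_right_cancel₀ hd ?_⟩
        rw [smul_mul_assoc, one_mul, hq]
    have h1 : Module.finrank k (Module.End A V) ≤ 1 :=
      finrank_le_one 1 hsc
    rw [h2]
    omega
  · exfalso
    let i0 : Fin n := ⟨0, by omega⟩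
    let i1 : Fin n := ⟨1, by omega⟩
    let i2 : Fin n := ⟨2, by omega⟩
    have h01 : i1 ≠ i0 := by simp [i0, i1]
    obtain ⟨x, hx⟩ := hdens fun i => if i = i0 then b i1 else if i = i1 then b i2 else 0
    obtain ⟨t, s, hts⟩ := hquad x
    have h := hts (b i0)
    rw [hx i0, if_pos rfl, hx i1, if_neg h01, if_pos rfl] at h
    have h' := congrArg (fun w => b.repr w i2) h
    simp only [map_add, map_sub, map_zero, Finsupp.add_apply, Finsupp.sub_apply,
      Finsupp.zero_apply] at h'
    rw [show t • b i1 = (t • (1 : Module.End A V)) • b i1 from rfl,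
      show s • b i0 = (s • (1 : Module.End A V)) • b i0 from rfl, map_smul, map_smul,
      b.repr_self, b.repr_self, b.repr_self] at h'
    simp [i0, i1, i2] at h'

/-- Every nonzero good representation contains an invariant subspace of dimension one or two. -/
theorem exists_small_invariant [FiniteDimensional k V] [Nontrivial V]
    (hD : SmallQuadraticDivision k) (ρ : G →* Module.End k V) (χ : G →* k) (c : G → k)
    (hgood : ∀ g, ρ g + χ g • ρ g⁻¹ = c g • (1 : Module.End k V)) :
    ∃ W : Submodule k V, (∀ g, ∀ x ∈ W, ρ g x ∈ W) ∧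
      (Module.finrank k W = 1 ∨ Module.finrank k W = 2) := by
  classical
  have hex : ∃ m : ℕ, ∃ W : Submodule k V, W ≠ ⊥ ∧ (∀ g, ∀ x ∈ W, ρ g x ∈ W) ∧
      Module.finrank k W = m := ⟨_, ⊤, top_ne_bot, fun _ _ _ => trivial, rfl⟩
  obtain ⟨W, hW0, hW, hWm⟩ := Nat.find_spec hex
  have : Nontrivial W := Submodule.nontrivial_iff_ne_bot.mpr hW0
  let σ : G →* Module.End k W :=
    { toFun := fun g => (ρ g).restrict (hW g)
      map_one' := LinearMap.ext fun x => Subtype.ext (by simp)
      map_mul' := fun g h => LinearMap.ext fun x => Subtype.ext (by simp) }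
  have hle : Module.finrank k W ≤ 2 := by
    refine finrank_le_two_of_irreducible hD σ χ c
      (fun g => LinearMap.ext fun x => Subtype.ext ?_) fun U hU => ?_
    · exact LinearMap.congr_fun (hgood g) (x : V)
    · by_contra hne
      push Not at hne
      have hlt : Module.finrank k U < Module.finrank k W := Submodule.finrank_lt hne.2
      refine Nat.find_min hex (hWm ▸ hlt) ⟨U.map W.subtype, ?_, ?_, ?_⟩
      · intro h
        exact hne.1 (Submodule.map_injective_of_injective W.injective_subtype
          (h.trans (Submodule.map_bot W.subtype).symm))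
      · rintro g _ ⟨y, hy, rfl⟩
        exact ⟨σ g y, hU g y hy, rfl⟩
      · exact Submodule.finrank_map_subtype_eq W U
  exact ⟨W, hW, by have := Module.finrank_pos (R := k) (M := W); omega⟩

/-- Inside an eigenspace of `ψ`, an invariant subspace of dimension one or two on which every
`R g + χ g • R g⁻¹` is the scalar given by the eigensystem. -/
theorem exists_small_good_subspace {O L : Type} [CommRing O] [Field L] (j : O →+* L)
    (hL : SmallQuadraticDivision L) {G : Type*} [Group G] {T : Type*} [CommRing T] {r : ℕ}
    (R : G →* Matrix (Fin r) (Fin r) O) (χ : G →* O) (ψ : T →+* Matrix (Fin r) (Fin r) O)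
    (θ : T →+* O) (hcomm : ∀ g t, Commute (R g) (ψ t))
    (hspan : ∀ g, R g + χ g • R g⁻¹ ∈ Submodule.span O (Set.range ψ))
    (v : Fin r → L) (hv0 : v ≠ 0) (hv : ∀ t, ((ψ t).map j).mulVec v = j (θ t) • v) :
    ∃ (W : Submodule L (Fin r → L)) (c : G → O),
      (Module.finrank L W = 1 ∨ Module.finrank L W = 2) ∧
      (∀ g, ∀ w ∈ W, ((R g).map j).mulVec w ∈ W) ∧
      (∀ g, ∀ w ∈ W, ((R g + χ g • R g⁻¹).map j).mulVec w = j (c g) • w) ∧
      ∀ g t, R g + χ g • R g⁻¹ = ψ t → j (c g) = j (θ t) := by
  let V : Submodule L (Fin r → L) :=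
    { carrier := {w | ∀ t, ((ψ t).map j).mulVec w = j (θ t) • w}
      add_mem' := fun {a b} ha hb t => by rw [Matrix.mulVec_add, ha t, hb t, smul_add]
      zero_mem' := fun t => by rw [Matrix.mulVec_zero, smul_zero]
      smul_mem' := fun c {a} ha t => by rw [Matrix.mulVec_smul, ha t, smul_comm] }
  have : Nontrivial V := ⟨⟨v, hv⟩, 0, fun h => hv0 (congrArg Subtype.val h)⟩
  have hstab : ∀ g, ∀ w ∈ V, ((R g).map j).mulVec w ∈ V := fun g w hw t => by
    have hc : Commute ((R g).map j) ((ψ t).map j) := (hcomm g t).map j.mapMatrix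
    rw [Matrix.mulVec_mulVec, ← hc.eq, ← Matrix.mulVec_mulVec, hw t, Matrix.mulVec_smul]
  have hscal : ∀ X ∈ Submodule.span O (Set.range ψ), ∃ c : O, ∀ w ∈ V,
      (X.map j).mulVec w = j c • w := by
    intro X hX
    induction hX using Submodule.span_induction with
    | mem X hX =>
      obtain ⟨t, rfl⟩ := hX
      exact ⟨θ t, fun w hw => hw t⟩
    | zero => exact ⟨0, fun w _ => by
        rw [Matrix.map_zero _ (map_zero j), Matrix.zero_mulVec, map_zero, zero_smul]⟩
    | add X Y _ _ hX hY =>
      obtain ⟨a, ha⟩ := hX
      obtain ⟨b, hb⟩ := hY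
      exact ⟨a + b, fun w hw => by
        rw [Matrix.map_add _ (map_add j), Matrix.add_mulVec, ha w hw, hb w hw, map_add, add_smul]⟩
    | smul a X _ hX =>
      obtain ⟨b, hb⟩ := hX
      refine ⟨a * b, fun w hw => ?_⟩
      have e : (a • X).map j = j a • X.map j := by
        ext i k
        exact map_mul j _ _
      rw [e, Matrix.smul_mulVec, hb w hw, smul_smul, map_mul]
  choose c hc using fun g => hscal _ (hspan g)
  let jG : G →* Matrix (Fin r) (Fin r) L := j.mapMatrix.toMonoidHom.comp R
  let ρV : G →* Module.End L V :=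
    { toFun := fun g => (Matrix.toLinAlgEquiv' (jG g)).restrict (hstab g)
      map_one' := LinearMap.ext fun w => Subtype.ext (by simp)
      map_mul' := fun g h => LinearMap.ext fun w => Subtype.ext (by simp) }
  have hjΦ : ∀ g, (R g + χ g • R g⁻¹).map j = jG g + j (χ g) • jG g⁻¹ := fun g => by
    ext i k
    show j (_ + _ * _) = _
    rw [map_add, map_mul]
    rfl
  have hgood : ∀ g, ρV g + j (χ g) • ρV g⁻¹ = j (c g) • (1 : Module.End L V) := fun g =>
    LinearMap.ext fun w => Subtype.ext (by
      show (jG g).mulVec w + j (χ g) • (jG g⁻¹).mulVec w = j (c g) • (w : Fin r → L)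
      rw [← Matrix.smul_mulVec, ← Matrix.add_mulVec, ← hjΦ]
      exact hc g _ w.2)
  obtain ⟨W, hW, hd⟩ := exists_small_invariant hL ρV
    (j.toMonoidHom.comp χ) (fun g => j (c g)) hgood
  refine ⟨W.map V.subtype, c, ?_, ?_, ?_, ?_⟩
  · rwa [Submodule.finrank_map_subtype_eq]
  · rintro g _ ⟨w, hw, rfl⟩
    exact ⟨ρV g w, hW g w hw, rfl⟩
  · rintro g _ ⟨w, -, rfl⟩
    exact hc g _ w.2
  · intro g t h
    refine smul_left_injective L hv0 ?_
    show j (c g) • v = j (θ t) • v
    rw [← hc g v hv, h, hv t]

end Fermat.Agent.Attach
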