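import Fermat.Prelude.Def_GaloisRep_Residual
import Fermat.Agent.Attach.EigenChar
import Fermat.Agent.Attach.Eigvec
import Fermat.Agent.Attach.Small
import Fermat.Agent.Attach.Trace
import Fermat.Agent.Attach.TwoDim

/-!
# Residual representations attached to eigenforms

From the geometric inputs: an eigensystem in characteristic `p` has an attached two dimensional
Galois representation, defined over a finite field, unramified away from `N p`, with the expected
characteristic polynomials at Frobenius. The construction works directly mod `p`.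
-/

noncomputable section

open Polynomial CongruenceSubgroup

namespace Fermat.Agent.Attach

local notation "Qbar" => AlgebraicClosure ℚ
local notation "GQ" => (AlgebraicClosure ℚ ≃ₐ[ℚ] AlgebraicClosure ℚ)

/-- A matrix representation of finite level as a residual representation. -/
def residualOfMatrix {k : Type} [Field k] (τ : GQ →* Matrix (Fin 2) (Fin 2) k)
    (h : ∃ L : IntermediateField ℚ Qbar, FiniteDimensional ℚ L ∧
      ∀ σ : GQ, (∀ x ∈ L, σ x = x) → τ σ = 1) : ResidualGaloisRep k where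
  V := Fin 2 → k
  finrank_eq := Module.finrank_fin_fun k
  ρ := Matrix.toLinAlgEquiv'.toMonoidHom.comp τ
  factorsThroughFiniteLevel := by
    obtain ⟨L, hL, h1⟩ := h
    exact ⟨L, hL, fun σ hσ => by
      show Matrix.toLinAlgEquiv' (τ σ) = 1
      rw [h1 σ hσ, map_one]⟩

theorem residualOfMatrix_charpoly {k : Type} [Field k] (τ : GQ →* Matrix (Fin 2) (Fin 2) k)
    (h) (σ : GQ) :
    LinearMap.charpoly ((residualOfMatrix τ h).ρ σ) = (τ σ).charpoly :=
  Matrix.charpoly_toLin (τ σ) (Pi.basisFun k (Fin 2))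

section Finite

variable {N : ℕ} [NeZero N] {p : ℕ} [Fact p.Prime]

/-- Over a finite field: from a character of `T_S`, a representation with the expected charpolys. -/
theorem exists_matrixRep_finite (Ins : JacobianInputs N p) {S : Finset ℕ} (hpS : p ∈ S)
    (hNS : ∀ q, q.Prime → q ∣ N → q ∈ (↑S : Set ℕ)) {k : Type} [Field k] [Finite k] [CharP k p]
    (θ : CuspForm.heckeAlgebra N 2 (↑S : Set ℕ) →+* k) :
    ∃ τ : GQ →* Matrix (Fin 2) (Fin 2) k,
      (∃ L : IntermediateField ℚ Qbar, FiniteDimensional ℚ L ∧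
        ∀ σ : GQ, (∀ x ∈ L, σ x = x) → τ σ = 1) ∧
      (∀ (ℓ : ℕ) (hℓ : ℓ.Prime) (hℓN : ¬ ℓ ∣ N) (hℓS : ℓ ∉ (↑S : Set ℕ)),
        ∀ A : ValuationSubring Qbar, A.LiesOverPrime ℓ →
          ∀ σ : GQ, A.IsFrobeniusAt σ ℓ → (τ σ).charpoly =
            X ^ 2 - C (θ (CuspForm.heckeAlgebra.T hℓ hℓN hℓS)) * X + C ((ℓ : k))) ∧
      ∀ q : ℕ, q.Prime → ¬ q ∣ N * p → ∀ A : ValuationSubring Qbar, A.LiesOverPrime q →
        ∀ σ ∈ A.inertiaSubgroupIn ℚ, τ σ = 1 := by
  set M := Ins.model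
  let ι : ZMod (p ^ 1) →+* k := ZMod.castHom (pow_one p).symm.dvd k
  let R : GQ →* Matrix (Fin M.rk) (Fin M.rk) k := ι.mapMatrix.toMonoidHom.comp (M.rep 1)
  let χ : GQ →* k := ι.toMonoidHom.comp (cyc p 1)
  let ψ : CuspForm.heckeAlgebra N 2 (↑S : Set ℕ) →+* Matrix (Fin M.rk) (Fin M.rk) k :=
    ι.mapMatrix.comp (M.matS hNS 1)
  have hψ : ∀ t, ψ t = (M.mat (toAnemic hNS t)).map (Int.castRingHom k) := fun t => by
    ext i j
    exact map_intCast ι _
  obtain ⟨v, hv0, hv⟩ := exists_eigvec (M.mat.comp (toAnemic hNS))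
    (M.mat_injective.comp (toAnemic_injective hNS)) θ
  have hcomm : ∀ g t, Commute (R g) (ψ t) := fun g t =>
    (M.rep_commute Ins.galois 1 g (toAnemic hNS t)).map ι.mapMatrix
  have hspan : ∀ g : GQ, R g + χ g • R g⁻¹ ∈ Submodule.span k (Set.range ψ) := fun g => by
    obtain ⟨ℓ, hℓ, hℓN, hℓS, A, σ, k', -, -, -, -, hb⟩ :=
      M.exists_trace_element Ins.galois hpS hNS 1 g ⊥
    refine Submodule.subset_span ⟨powTrace (CuspForm.heckeAlgebra.T hℓ hℓN hℓS)
      (ℓ : CuspForm.heckeAlgebra N 2 (↑S : Set ℕ)) k', ?_⟩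
    show ι.mapMatrix (M.matS hNS 1 _) = _
    rw [← hb, map_add]
    congr 1
    ext i j
    exact map_mul ι _ _
  obtain ⟨W, c, hd, hW, hgood, hcθ⟩ := exists_small_good_subspace (RingHom.id k)
    (smallQuadraticDivision_of_finite k) R χ ψ θ hcomm hspan v hv0
    (fun t => by simpa [hψ] using hv t)
  simp only [RingHom.coe_id, Matrix.map_id, id_eq] at hW hgood hcθ
  have : Module.Free k W := Module.Free.of_divisionRing k W
  let bW := Module.finBasis k W
  let σW : GQ →* Matrix (Fin (Module.finrank k W)) (Fin (Module.finrank k W)) k :=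
    { toFun := fun g =>
        LinearMap.toMatrixAlgEquiv bW ((Matrix.toLinAlgEquiv' (R g)).restrict (hW g))
      map_one' := by
        rw [← map_one (LinearMap.toMatrixAlgEquiv bW)]
        exact congrArg _ (LinearMap.ext fun w => Subtype.ext (by simp))
      map_mul' := fun g h => by
        rw [← map_mul (LinearMap.toMatrixAlgEquiv bW)]
        exact congrArg _ (LinearMap.ext fun w => Subtype.ext (by simp)) }
  have hσgood : IsGoodMat σW χ c := fun g => by
    show LinearMap.toMatrixAlgEquiv bW _ + χ g • LinearMap.toMatrixAlgEquiv bW _ = _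
    rw [← map_smul, ← map_add, ← map_one (LinearMap.toMatrixAlgEquiv bW), ← map_smul]
    exact congrArg _ (LinearMap.ext fun w => Subtype.ext (by
      show (R g).mulVec w + χ g • (R g⁻¹).mulVec w = c g • (w : Fin M.rk → k)
      rw [← Matrix.smul_mulVec, ← Matrix.add_mulVec]
      exact hgood g _ w.2))
  obtain ⟨τ, hdet, htr, hnear⟩ := exists_twoDim_of_good hd σW χ c hσgood
  have hτone : ∀ g, M.rep 1 g = 1 → cyc p 1 g = 1 → τ g = 1 := by
    intro g h1 h2
    have hR : R g = 1 := by show ι.mapMatrix (M.rep 1 g) = 1; rw [h1, map_one]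
    have hσ : σW g = 1 := by
      show LinearMap.toMatrixAlgEquiv bW _ = 1
      rw [← map_one (LinearMap.toMatrixAlgEquiv bW)]
      refine congrArg _ (LinearMap.ext fun w => Subtype.ext ?_)
      show (R g).mulVec _ = _
      rw [hR, Matrix.one_mulVec]
      rfl
    have hχ : χ g - 1 ∈ (⊥ : Ideal k) := by
      show ι (cyc p 1 g) - 1 ∈ _
      rw [h2, map_one, sub_self]
      exact Submodule.zero_mem _
    have h := hnear ⊥ g (fun i j => by rw [hσ, sub_self]; exact Submodule.zero_mem _) hχ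
    ext i j
    exact sub_eq_zero.mp ((Submodule.mem_bot k).mp (h i j))
  refine ⟨τ, ?_, ?_, ?_⟩
  · obtain ⟨L1, hL1, h1⟩ := M.rep_eq_one_of_finite_level Ins.galois 1
    obtain ⟨L2, hL2, h2⟩ := cyc_finite_level p 1
    exact ⟨L1 ⊔ L2, inferInstance, fun σ hσ =>
      hτone σ (h1 σ fun a ha => hσ a ((le_sup_left : L1 ≤ L1 ⊔ L2) ha))
        (h2 σ fun a ha => hσ a ((le_sup_right : L2 ≤ L1 ⊔ L2) ha))⟩
  · intro ℓ hℓ hℓN hℓS A hA σ hσ
    have hℓp : ℓ ≠ p := fun h => hℓS (h ▸ hpS)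
    have hℓNp : ¬ ℓ ∣ N * p := fun h => (hℓ.dvd_mul.mp h).elim hℓN
      fun h => hℓp ((Nat.prime_dvd_prime_iff_eq hℓ Fact.out).mp h)
    have hχσ : χ σ = (ℓ : k) := by
      show ι (cyc p 1 σ) = _
      rw [cyc_frobenius p 1 hℓ hℓp hA hσ, map_natCast]
    have huv : R σ * R σ⁻¹ = 1 := by rw [← map_mul, mul_inv_cancel, map_one]
    have ha : R σ + χ σ • R σ⁻¹ = ψ (CuspForm.heckeAlgebra.T hℓ hℓN hℓS) := by
      have hq := congrArg (fun X => ι.mapMatrix X * R σ⁻¹)
        (M.rep_frobenius Ins.galois 1 ⟨ℓ, hℓ⟩ hℓN hℓNp A hA σ hσ)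
      simp only [map_add, map_sub, map_mul, map_natCast, map_zero] at hq
      change (R σ * R σ - ψ (CuspForm.heckeAlgebra.T hℓ hℓN hℓS) * R σ + _) * R σ⁻¹ = _ at hq
      simp only [add_mul, sub_mul, zero_mul, mul_assoc, huv, mul_one] at hq
      rw [hχσ, Nat.cast_smul_eq_nsmul, nsmul_eq_mul, ← sub_eq_zero]
      refine Eq.trans ?_ hq
      abel
    have hc : c σ = θ (CuspForm.heckeAlgebra.T hℓ hℓN hℓS) := hcθ σ _ ha
    exact charpoly_of_det_trace _ ((htr σ).trans hc) ((hdet σ).trans hχσ)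
  · intro q hq hqNp A hA σ hσ
    exact hτone σ (M.rep_inertia Ins.galois 1 hq hqNp A hA σ hσ)
      (cyc_inertia p 1 hq (fun h => hqNp (h ▸ dvd_mul_left q N)) hA hσ)

end Finite

/-- An eigenform of positive level has an attached residual representation. -/
theorem exists_residualGaloisRep_isAttachedTo_of_inputs {N : ℕ} [NeZero N]
    {g : CuspForm (Gamma0 N) 2} (hg : g.IsNormalizedEigenform)
    {p : ℕ} [Fact p.Prime] (Ins : JacobianInputs N p) {k : Type} [Field k] [CharP k p]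
    (φ : integralClosure ℤ ℂ →+* k) :
    ∃ ρ : ResidualGaloisRep k, ρ.IsAttachedTo g φ ∧
      ∀ ℓ : ℕ, ℓ.Prime → ¬ ℓ ∣ N * p → ρ.IsUnramifiedAt ℓ := by
  have hp : p.Prime := Fact.out
  let S : Finset ℕ := (N * p).primeFactors
  have hNp0 : N * p ≠ 0 := mul_ne_zero (NeZero.ne N) hp.ne_zero
  have hNS : ∀ q, q.Prime → q ∣ N → q ∈ (↑S : Set ℕ) := fun q hq h =>
    Nat.mem_primeFactors.mpr ⟨hq, h.mul_right p, hNp0⟩
  have hpS : p ∈ S := Nat.mem_primeFactors.mpr ⟨hp, dvd_mul_left p N, hNp0⟩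
  obtain ⟨χ, hχ⟩ := exists_eigenChar hg hNS
  set M := Ins.model
  have hint : ∀ t : CuspForm.heckeAlgebra N 2 (↑S : Set ℕ), IsIntegral ℤ t :=
    isIntegral_of_faithful (M.hecke.comp (toAnemic hNS))
      (M.hecke_injective.comp (toAnemic_injective hNS))
  let χ' : CuspForm.heckeAlgebra N 2 (↑S : Set ℕ) →+* integralClosure ℤ ℂ :=
    χ.codRestrict (integralClosure ℤ ℂ).toSubring fun t => (hint t).map χ.toIntAlgHom
  let θ := φ.comp χ'
  have : Module.Finite ℤ (CuspForm.heckeAlgebra N 2 (↑S : Set ℕ)) :=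
    Module.Finite.of_injective (M.hecke.comp (toAnemic hNS)).toAddMonoidHom.toIntLinearMap
      (M.hecke_injective.comp (toAnemic_injective hNS))
  let k0 : Subring k := θ.range
  have : Module.Finite ℤ k0 :=
    Module.Finite.of_surjective θ.rangeRestrict.toAddMonoidHom.toIntLinearMap
      θ.rangeRestrict_surjective
  have : Finite k0 := by
    refine Module.finite_of_fg_torsion k0 ?_
    intro x
    refine ⟨⟨(p : ℤ), mem_nonZeroDivisors_of_ne_zero (Int.natCast_ne_zero.mpr hp.ne_zero)⟩, ?_⟩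
    show (p : ℤ) • x = 0
    rw [natCast_zsmul, nsmul_eq_mul]
    have : ((p : k0) : k) = 0 := (map_natCast k0.subtype p).trans (CharP.cast_eq_zero k p)
    exact Subtype.ext (by simp)
  let : Field k0 := (Finite.isDomain_to_isField k0).toField
  have : CharP k0 p := RingHom.charP k0.subtype Subtype.val_injective p
  obtain ⟨τ0, ⟨L, hL, hlev⟩, hfrob, hunr⟩ :=
    exists_matrixRep_finite Ins hpS hNS θ.rangeRestrict
  let τ : GQ →* Matrix (Fin 2) (Fin 2) k := k0.subtype.mapMatrix.toMonoidHom.comp τ0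
  have hτ1 : ∀ σ, τ0 σ = 1 → τ σ = 1 := fun σ h => by
    show k0.subtype.mapMatrix (τ0 σ) = 1
    rw [h, map_one]
  refine ⟨residualOfMatrix τ ⟨L, hL, fun σ hσ => hτ1 σ (hlev σ hσ)⟩, ?_, ?_⟩
  · intro ℓ hℓ hℓN hℓk A hA σ hσ
    have hℓp : ℓ ≠ p := fun h => hℓk (h ▸ CharP.cast_eq_zero k p)
    have hℓS : ℓ ∉ (↑S : Set ℕ) := fun h =>
      (hℓ.dvd_mul.mp (Nat.mem_primeFactors.mp h).2.1).elim hℓN
        fun h => hℓp ((Nat.prime_dvd_prime_iff_eq hℓ hp).mp h)
    refine ⟨χ' (CuspForm.heckeAlgebra.T hℓ hℓN hℓS), hχ ℓ hℓ hℓN hℓS, ?_⟩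
    rw [residualOfMatrix_charpoly]
    show ((τ0 σ).map k0.subtype).charpoly = _
    rw [Matrix.charpoly_map, hfrob ℓ hℓ hℓN hℓS A hA σ hσ]
    simp [Polynomial.map_pow]
    rfl
  · intro q hq hqNp A hA σ hσ
    show Matrix.toLinAlgEquiv' (τ σ) = 1
    rw [hτ1 σ (hunr q hq hqNp A hA σ hσ), map_one]

end Fermat.Agent.Attach
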