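import Mathlib.FieldTheory.Normal.Closure
import Fermat.Prelude.Def_FreyPackage_EigenformResidualAttachment
import Fermat.Agent.Attach.Residual
import Fermat.Agent.EC.TorsionGalois
import Fermat.Agent.Frey.FreyModel
import Fermat.Agent.Gal.RepTwo

/-!
# Residual attachment of eigenforms to the Frey curve

Given an eigenform of level `M` and a maximal ideal above `p`, the residual representation attached
to the eigenform and the `p`-torsion of the Frey curve factor through a common finite Galois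
extension of `ℚ`, and at Frobenius the former has trace `a_ℓ` and determinant `ℓ`. This is the
attachment datum used by `Fermat.Agent.S42`.
-/

noncomputable section

open Polynomial

namespace Fermat.Agent.Attach

local notation "Qbar" => AlgebraicClosure ℚ
local notation "GQ" => (AlgebraicClosure ℚ ≃ₐ[ℚ] AlgebraicClosure ℚ)

/-- A finite level field inside a finite Galois one. -/
theorem exists_galois_level (L : IntermediateField ℚ Qbar) [FiniteDimensional ℚ L] :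
    ∃ F : IntermediateField ℚ Qbar, FiniteDimensional ℚ F ∧ IsGalois ℚ F ∧ L ≤ F := by
  have : IsAlgClosure ℚ Qbar := ⟨inferInstance, AlgebraicClosure.isAlgebraic ℚ⟩
  have : Normal ℚ Qbar := IsAlgClosure.normal ℚ Qbar
  refine ⟨IntermediateField.normalClosure ℚ L Qbar, inferInstance,
    isGalois_iff.mpr ⟨inferInstance, normalClosure.normal ℚ L Qbar⟩, L.le_normalClosure⟩

theorem residual_trace_det {k : Type} [Field k] (ρ : ResidualGaloisRep k) (σ : GQ) {t d : k}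
    (h : LinearMap.charpoly (ρ.ρ σ) = X ^ 2 - C t * X + C d) :
    LinearMap.trace k ρ.V (ρ.ρ σ) = t ∧ LinearMap.det (ρ.ρ σ) = d := by
  rw [Gal.charpoly_fin_two' ρ.finrank_eq] at h
  have h1 := congrArg (fun q : k[X] => q.coeff 1) h
  have h0 := congrArg (fun q : k[X] => q.coeff 0) h
  simp [coeff_X_pow, coeff_C] at h1 h0
  exact ⟨h1, h0⟩

/-- The residual attachment data, from an attached representation over any field of
characteristic `p`. -/
theorem attachment_data (P : FreyPackage) {M : ℕ}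
    (g : CuspForm (CongruenceSubgroup.Gamma0 M) 2) {K : Type} [Field K] [CharP K P.p]
    (φ : integralClosure ℤ ℂ →+* K) (ρ : ResidualGaloisRep K) (hρ : ρ.IsAttachedTo g φ)
    (F : IntermediateField ℚ Qbar) (hFrey : ∀ σ : GQ, (∀ x ∈ F, σ x = x) →
      WeierstrassCurve.Affine.Point.galoisRepModuleEnd (S := ℚ) (K := Qbar) P.freyCurve P.p σ = 1)
    (hF : ∀ σ : GQ, (∀ x ∈ F, σ x = x) → ρ.ρ σ = 1) [Normal ℚ F] :
    ((AlgEquiv.restrictNormalHom (F := ℚ) (K₁ := Qbar) F).ker ≤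
      (WeierstrassCurve.Affine.Point.galoisRepModuleEnd (S := ℚ) (K := Qbar)
        P.freyCurve P.p).ker ⊓ ρ.ρ.ker) ∧
    (∀ ℓ : ℕ, ℓ.Prime → ¬ ℓ ∣ M → ℓ ≠ P.p →
      ∀ A : ValuationSubring Qbar, A.LiesOverPrime ℓ → ∀ τ : GQ, A.IsFrobeniusAt τ ℓ →
        ∃ a : integralClosure ℤ ℂ, (a : ℂ) = ModularFormClass.qCoeff g ℓ ∧
          LinearMap.trace K ρ.V (ρ.ρ τ) = φ a) ∧
    (∀ ℓ : ℕ, ℓ.Prime → ¬ ℓ ∣ M → ℓ ≠ P.p →
      ∀ A : ValuationSubring Qbar, A.LiesOverPrime ℓ → ∀ τ : GQ, A.IsFrobeniusAt τ ℓ →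
        LinearMap.det (ρ.ρ τ) = (ℓ : K)) := by
  have key : ∀ ℓ : ℕ, ℓ.Prime → ¬ ℓ ∣ M → ℓ ≠ P.p →
      ∀ A : ValuationSubring Qbar, A.LiesOverPrime ℓ → ∀ τ : GQ, A.IsFrobeniusAt τ ℓ →
        ∃ a : integralClosure ℤ ℂ, (a : ℂ) = ModularFormClass.qCoeff g ℓ ∧
          LinearMap.trace K ρ.V (ρ.ρ τ) = φ a ∧ LinearMap.det (ρ.ρ τ) = (ℓ : K) := by
    intro ℓ hℓ hℓM hℓp A hA τ hτ
    have hℓK : (ℓ : K) ≠ 0 := fun h =>
      hℓp ((Nat.prime_dvd_prime_iff_eq P.pp hℓ).mp ((CharP.cast_eq_zero_iff K P.p ℓ).mp h)).symm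
    obtain ⟨a, ha, hch⟩ := hρ ℓ hℓ hℓM hℓK A hA τ hτ
    exact ⟨a, ha, residual_trace_det ρ τ hch⟩
  refine ⟨fun σ hσ => ?_, fun ℓ h1 h2 h3 A hA τ hτ => ?_, fun ℓ h1 h2 h3 A hA τ hτ => ?_⟩
  · have hfix : ∀ x ∈ F, σ x = x := fun x hx => by
      have e := AlgEquiv.restrictNormal_commutes σ F ⟨x, hx⟩
      rw [show σ.restrictNormal F = 1 from hσ] at e
      exact e.symm
    exact ⟨MonoidHom.mem_ker.mpr (hFrey σ hfix), MonoidHom.mem_ker.mpr (hF σ hfix)⟩
  · obtain ⟨a, ha, ht, -⟩ := key ℓ h1 h2 h3 A hA τ hτ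
    exact ⟨a, ha, ht⟩
  · obtain ⟨a, -, -, hd⟩ := key ℓ h1 h2 h3 A hA τ hτ
    exact hd

/-- Residual attachment to the Frey curve, from the geometric inputs at every level. -/
theorem eigenformResidualAttachment_of_inputs (P : FreyPackage) (M : ℕ) [NeZero M]
    [Fact P.p.Prime] (Ins : JacobianInputs M P.p) : P.EigenformResidualAttachmentAt M := by
  intro g hg 𝔪 h𝔪 hp𝔪
  obtain ⟨K, hKf, φ, hker⟩ : ∃ (K : Type) (_ : Field K) (φ : integralClosure ℤ ℂ →+* K),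
      RingHom.ker φ = 𝔪 :=
    ⟨integralClosure ℤ ℂ ⧸ 𝔪, Ideal.Quotient.field 𝔪, Ideal.Quotient.mk 𝔪, Ideal.mk_ker⟩
  have hK0 : ((P.p : ℕ) : K) = 0 := by
    rw [← map_natCast φ, ← RingHom.mem_ker, hker]
    exact hp𝔪
  have : CharP K P.p := by
    obtain ⟨q, hq⟩ := CharP.exists K
    rcases (Nat.dvd_prime P.pp).mp ((CharP.cast_eq_zero_iff K q P.p).mp hK0) with h | h
    · exact absurd h (CharP.char_ne_one K q)
    · exact h ▸ hq
  obtain ⟨ρ, hρ, -⟩ := exists_residualGaloisRep_isAttachedTo_of_inputs hg Ins φ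
  obtain ⟨L1, hL1, h1⟩ := ρ.factorsThroughFiniteLevel
  have := Frey.isElliptic_freyCurve P
  obtain ⟨L2, hL2, h2⟩ := EC.galoisFactorsThroughFiniteLevel P.freyCurve P.p P.pp.ne_zero
  obtain ⟨F, hF, hFgal, hle⟩ := exists_galois_level (L1 ⊔ L2)
  obtain ⟨d1, d2, d3⟩ := attachment_data P g φ ρ hρ F
    (fun σ hσ => h2 σ fun x hx => hσ x (hle ((le_sup_right : L2 ≤ L1 ⊔ L2) hx)))
    (fun σ hσ => h1 σ fun x hx => hσ x (hle ((le_sup_left : L1 ≤ L1 ⊔ L2) hx)))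
  exact ⟨K, hKf, ZMod.algebra K P.p, ρ.V, inferInstance, inferInstance, ρ.ρ, φ, F, inferInstance,
    ⟨⟩, hFgal, inferInstance, inferInstance, hker.ge, ρ.finrank_eq, d1, d2, d3⟩

end Fermat.Agent.Attach
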