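import Fermat.Agent.Attach.Interface
import Fermat.Agent.Hecke.Commute
import Fermat.Agent.Hecke.GaloisEquivariant
import Fermat.Agent.Mono.FiniteLevel

/-!
# The Galois side of the torsion of `J₀(N)`

Proves `TorsionGalois`: Hecke operators commute with Galois, torsion points have finite level, are
unramified away from `N p`, and satisfy the Eichler–Shimura relation at Frobenius, given the
specialisation data of good reduction.
-/

noncomputable section

namespace Fermat.Agent.Attach

open ModularCurve

local notation "Qbar" => AlgebraicClosure ℚ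

private theorem nsmul_zero_sub {G : Type*} [AddCommGroup G] {m : ℕ} {a b : G} (ha : m • a = 0)
    (hb : m • b = 0) : m • (a - b) = 0 := by
  rw [smul_sub, ha, hb, sub_zero]

private theorem nsmul_zero_add {G : Type*} [AddCommGroup G] {m k : ℕ} {a b : G} (ha : m • a = 0)
    (hb : m • b = 0) : m • (a + k • b) = 0 := by
  rw [smul_add, ha, smul_comm, hb, smul_zero, add_zero]

/-- The Galois properties of torsion, from the specialisations at good primes. -/
theorem torsionGalois_of_specialization (N : ℕ) [NeZero N] (p : ℕ)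
    (hspec : letI := heckeModuleBar N
      ∀ (_ : SMulCommClass (Qbar ≃ₐ[ℚ] Qbar) HeckeAlg (JZero N)),
        SpecializationExists (K := ℚ) (L := Qbar) N p (JZero N)) :
    TorsionGalois N p := by
  have hcomm := Hecke.heckeOperatorsCommuteBar (N := N)
  let := heckeModuleBar N
  have hsc : SMulCommClass (Qbar ≃ₐ[ℚ] Qbar) HeckeAlg (JZero N) :=
    Hecke.smulCommClass_heckeModuleBar (N := N) hcomm
  have hs := hspec hsc
  refine ⟨fun ℓ _ σ x => Hecke.heckeOperatorBar_galois ℓ σ x,
    fun n x _ => Mono.exists_level_jZero x, ?_, ?_⟩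
  · intro q hq hqNp A hA σ hσ x hx
    obtain ⟨J', i1, i2, sp, F, hsp, -⟩ := hs q hq hqNp A hA
    obtain ⟨n, hn⟩ := hx
    refine sub_eq_zero.mp (hsp.injective_torsion _ ⟨n, ?_⟩ ?_)
    · have h : p ^ n • σ • x = 0 := by
        show p ^ n • DistribSMul.toAddMonoidHom (JZero N) σ x = 0
        rw [← map_nsmul, hn, map_zero]
      exact nsmul_zero_sub h hn
    · rw [map_sub, hsp.inertia_comm σ hσ, sub_self]
  · intro ℓ hℓNp A hA σ hσ x hx
    obtain ⟨J', i1, i2, sp, F, hsp, hrel⟩ := hs ℓ ℓ.2 hℓNp A hA
    obtain ⟨n, hn⟩ := hx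
    have hσn : ∀ y : JZero N, p ^ n • y = 0 → p ^ n • σ • y = 0 := fun y hy => by
      show p ^ n • DistribSMul.toAddMonoidHom (JZero N) σ y = 0
      rw [← map_nsmul, hy, map_zero]
    refine hsp.injective_torsion _ ⟨n, ?_⟩ ?_
    · refine nsmul_zero_add (nsmul_zero_sub (hσn _ (hσn _ hn)) ?_) hn
      rw [← map_nsmul (heckeOperatorBar N ℓ), hσn _ hn, map_zero]
    · rw [map_add, map_sub, map_nsmul, ← heckeModuleBar_heckeGen_smul hcomm, hsp.hecke_comm,
        hsp.frobenius_comm σ hσ, hsp.frobenius_comm σ hσ]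
      exact hrel (sp x)

end Fermat.Agent.Attach
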