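import Fermat.Agent.Attach.Levels
import Fermat.Agent.Grp.HomCl
import Fermat.Agent.Hecke.Periods
import Fermat.Agent.Mono.Torsion
import Fermat.Agent.Periods.Injective
import Fermat.Agent.S21

/-!
# The Hecke algebra on `Hom_cl(Γ₀(N), ℤ)`

Through periods the anemic Hecke algebra acts faithfully on the lattice `Hom_cl(Γ₀(N), ℤ)`. With the
monodromy projections onto the `p`-power torsion of `J₀(N)` this gives a `TorsionModel` as soon as
the projections are Hecke equivariant.
-/

noncomputable section

open CongruenceSubgroup ModularCurve ModularCurve.Period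
open scoped MatrixGroups

namespace Fermat.Agent.Attach

variable (N : ℕ)

/-- `Hom_cl(Γ₀(N), ℤ)`. -/
abbrev clLattice := Grp.clHoms ℤ (Gamma0 N) ℤ

/-- The inclusion of `Hom_cl(Γ₀(N), ℤ)` into complex characters. -/
def clToComplex : clLattice N →+ (Additive (Gamma0 N) →+ ℂ) :=
  (AddMonoidHom.compHom (Int.castAddHom ℂ)).comp (clLattice N).subtype.toAddMonoidHom

theorem clToComplex_apply (v : clLattice N) :
    clToComplex N v = (Int.castAddHom ℂ).comp v.1 := rfl

theorem clToComplex_injective : Function.Injective (clToComplex N) := fun v w h => by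
  refine Subtype.ext (AddMonoidHom.ext fun x => ?_)
  exact Int.cast_injective (DFunLike.congr_fun h x : ((v.1 x : ℤ) : ℂ) = ((w.1 x : ℤ) : ℂ))

theorem clToComplex_mem (v : clLattice N) :
    clToComplex N v ∈ parabolicHoms ℂ (Gamma0 N) ℂ :=
  (mem_parabolicHoms_iff).mpr ((Grp.IsClHom.comp v.2 (Int.castAddHom ℂ)).isParabolicHom)

variable [NeZero N]

/-- The inverse of the period isomorphism on the lattice. -/
def periodCoords : clLattice N →+ CuspForm (Gamma0 N) 2 × CuspForm (Gamma0 N) 2 :=
  ((LinearEquiv.ofInjective (periodHomPair N)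
      (Periods.periodHomPair_injective (N := N))).symm.toLinearMap.toAddMonoidHom).comp
    { toFun := fun v => ⟨clToComplex N v, by rw [(S21.result N).2]; exact clToComplex_mem N v⟩
      map_zero' := Subtype.ext (map_zero _)
      map_add' := fun v w => Subtype.ext (map_add _ v w) }

theorem periodHomPair_periodCoords (v : clLattice N) :
    periodHomPair N (periodCoords N v) = clToComplex N v :=
  LinearEquiv.ofInjective_symm_apply (h := Periods.periodHomPair_injective (N := N)) _ _

theorem periodCoords_injective : Function.Injective (periodCoords N) := fun v w h => by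
  apply clToComplex_injective N
  rw [← periodHomPair_periodCoords, h, periodHomPair_periodCoords]

/-- The lattice spans both copies of `S₂`. -/
theorem span_periodCoords :
    Submodule.span ℂ (Set.range (periodCoords N)) = ⊤ := by
  refine Submodule.eq_top_iff'.mpr fun z => ?_
  have hneg := Grp.neg_one_mem_Gamma0 N
  obtain ⟨γ, e, he, -, hdec⟩ := Grp.clBasis_exists (Gamma0 N) hneg
  have hmem : periodHomPair N z ∈ parabolicHoms ℂ (Gamma0 N) ℂ := by
    rw [← (S21.result N).2]
    exact LinearMap.mem_range_self _ z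
  have hcl := (Grp.isParabolicHom_iff_isClHom hneg (periodHomPair N z)).mp
    ((mem_parabolicHoms_iff).mp hmem)
  have hz : periodHomPair N z = periodHomPair N
      (∑ i, periodHomPair N z (Additive.ofMul (γ i)) • periodCoords N ⟨e i, he i⟩) := by
    rw [map_sum]
    simp only [map_smul, periodHomPair_periodCoords]
    refine AddMonoidHom.ext fun x => ?_
    rw [AddMonoidHom.finsetSum_apply, hdec ℂ _ hcl x]
    refine Finset.sum_congr rfl fun i _ => ?_
    show e i x • periodHomPair N z (Additive.ofMul (γ i)) =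
      periodHomPair N z (Additive.ofMul (γ i)) • ((e i x : ℤ) : ℂ)
    rw [zsmul_eq_mul, smul_eq_mul, mul_comm]
  rw [Periods.periodHomPair_injective (N := N) hz]
  exact Submodule.sum_mem _ fun i _ => Submodule.smul_mem _ _ (Submodule.subset_span ⟨_, rfl⟩)

/-- The action of an endomorphism of `S₂` on both copies. -/
def diagEnd : Module.End ℂ (CuspForm (Gamma0 N) 2) →+*
    Module.End ℂ (CuspForm (Gamma0 N) 2 × CuspForm (Gamma0 N) 2) where
  toFun f := LinearMap.prodMap f f
  map_one' := LinearMap.ext fun _ => rfl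
  map_mul' _ _ := LinearMap.ext fun _ => rfl
  map_zero' := LinearMap.ext fun _ => rfl
  map_add' _ _ := LinearMap.ext fun _ => rfl

theorem periodHomPair_heckeT {ℓ : ℕ} [NeZero ℓ] (hℓ : ℓ.Prime) (hℓN : ¬ ℓ ∣ N)
    (z : CuspForm (Gamma0 N) 2 × CuspForm (Gamma0 N) 2) :
    periodHomPair N (diagEnd N (CuspForm.heckeTLin 2 hℓ hℓN) z) =
      Hecke.perTransfer N ℓ ℂ (periodHomPair N z) := by
  obtain ⟨f, g⟩ := z
  show periodHomPair N (CuspForm.heckeTLin 2 hℓ hℓN f, CuspForm.heckeTLin 2 hℓ hℓN g) = _
  rw [Periods.periodHomPair_apply, Periods.periodHomPair_apply, map_add, map_add, map_sub,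
    Hecke.periodMap_heckeTLin hℓ hℓN, Hecke.periodMap_heckeTLin hℓ hℓN,
    Hecke.perTransfer_charInvolution (R := ℂ), Hecke.perTransfer_charInvolution (R := ℂ)]

/-- Each element of the anemic algebra preserves the lattice. -/
theorem exists_lattice_image (t : AnemicAlg N) (v : clLattice N) :
    ∃ w : clLattice N, periodCoords N w = diagEnd N (t : Module.End ℂ _) (periodCoords N v) := by
  let C : Subring (Module.End ℂ (CuspForm (Gamma0 N) 2)) :=
    { carrier := {f | ∀ v, ∃ w : clLattice N,
        periodCoords N w = diagEnd N f (periodCoords N v)}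
      one_mem' := fun v => ⟨v, by rw [map_one]; rfl⟩
      zero_mem' := fun v => ⟨0, by rw [map_zero, map_zero]; rfl⟩
      add_mem' := fun {f g} hf hg v => by
        obtain ⟨a, ha⟩ := hf v
        obtain ⟨b, hb⟩ := hg v
        exact ⟨a + b, by rw [map_add, map_add, ha, hb]; rfl⟩
      neg_mem' := fun {f} hf v => by
        obtain ⟨a, ha⟩ := hf v
        exact ⟨-a, by rw [map_neg, map_neg, ha]; rfl⟩
      mul_mem' := fun {f g} hf hg v => by
        obtain ⟨b, hb⟩ := hg v
        obtain ⟨a, ha⟩ := hf b
        exact ⟨a, by rw [ha, hb, map_mul]; rfl⟩ }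
  refine forall_mem_of_T_mem (fun q hq _ => hq)
    (CuspForm.heckeAlgebra N 2 {q : ℕ | q ∣ N}).val.toRingHom C (fun ℓ hℓ hℓN hℓS => ?_) t v
  intro v
  have : NeZero ℓ := ⟨hℓ.ne_zero⟩
  have hc : Hecke.perTransfer N ℓ ℂ (clToComplex N v) =
      (Int.castAddHom ℂ).comp (Hecke.perTransfer N ℓ ℤ v.1) :=
    Hecke.transferHom_comp (Hecke.upperConj N ℓ) (Int.castAddHom ℂ) v.1
  have hp : periodHomPair N (diagEnd N (CuspForm.heckeTLin 2 hℓ hℓN) (periodCoords N v)) =
      (Int.castAddHom ℂ).comp (Hecke.perTransfer N ℓ ℤ v.1) := by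
    rw [periodHomPair_heckeT, periodHomPair_periodCoords, hc]
  have hcl : Grp.IsClHom (Gamma0 N) (Hecke.perTransfer N ℓ ℤ v.1) := by
    refine (Grp.isParabolicHom_iff_isClHom (Grp.neg_one_mem_Gamma0 N) _).mp fun γ hγ => ?_
    have hm : periodHomPair N (diagEnd N (CuspForm.heckeTLin 2 hℓ hℓN) (periodCoords N v)) ∈
        parabolicHoms ℂ (Gamma0 N) ℂ := by
      rw [← (S21.result N).2]
      exact LinearMap.mem_range_self _ _
    rw [hp, mem_parabolicHoms_iff] at hm
    exact Int.cast_injective ((hm γ hγ).trans Int.cast_zero.symm :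
      ((Hecke.perTransfer N ℓ ℤ v.1 (Additive.ofMul γ) : ℤ) : ℂ) = ((0 : ℤ) : ℂ))
  refine ⟨⟨_, hcl⟩, Periods.periodHomPair_injective (N := N) ?_⟩
  rw [periodHomPair_periodCoords]
  exact hp.symm

/-- The action on the lattice. -/
def latticeAct (t : AnemicAlg N) (v : clLattice N) : clLattice N :=
  (exists_lattice_image N t v).choose

theorem periodCoords_latticeAct (t : AnemicAlg N) (v : clLattice N) :
    periodCoords N (latticeAct N t v) = diagEnd N (t : Module.End ℂ _) (periodCoords N v) :=
  (exists_lattice_image N t v).choose_spec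

/-- The faithful action of the anemic Hecke algebra on `Hom_cl(Γ₀(N), ℤ)`. -/
def latticeHecke : AnemicAlg N →+* Module.End ℤ (clLattice N) where
  toFun t := (AddMonoidHom.mk' (latticeAct N t) fun v w => periodCoords_injective N (by
    rw [map_add, periodCoords_latticeAct, periodCoords_latticeAct, periodCoords_latticeAct,
      map_add, map_add])).toIntLinearMap
  map_one' := LinearMap.ext fun v => periodCoords_injective N (by
    show periodCoords N (latticeAct N 1 v) = periodCoords N v
    rw [periodCoords_latticeAct, OneMemClass.coe_one, map_one]; rfl)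
  map_mul' s t := LinearMap.ext fun v => periodCoords_injective N (by
    show periodCoords N (latticeAct N (s * t) v) =
      periodCoords N (latticeAct N s (latticeAct N t v))
    rw [periodCoords_latticeAct, periodCoords_latticeAct, periodCoords_latticeAct,
      MulMemClass.coe_mul, map_mul]
    rfl)
  map_zero' := LinearMap.ext fun v => periodCoords_injective N (by
    show periodCoords N (latticeAct N 0 v) = periodCoords N 0
    rw [periodCoords_latticeAct, ZeroMemClass.coe_zero, map_zero, map_zero]; rfl)
  map_add' s t := LinearMap.ext fun v => periodCoords_injective N (by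
    show periodCoords N (latticeAct N (s + t) v) =
      periodCoords N (latticeAct N s v + latticeAct N t v)
    rw [map_add, periodCoords_latticeAct, periodCoords_latticeAct, periodCoords_latticeAct,
      AddMemClass.coe_add, map_add]
    rfl)

/-- The Hecke action on the lattice is faithful. -/
theorem latticeHecke_injective : Function.Injective (latticeHecke N) := by
  refine (injective_iff_map_eq_zero _).mpr fun t ht => Subtype.ext ?_
  have hzero : diagEnd N (t : Module.End ℂ _) = 0 := by
    refine LinearMap.ext_on_range (span_periodCoords N) fun v => ?_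
    rw [← periodCoords_latticeAct, LinearMap.zero_apply,
      show latticeAct N t v = 0 from LinearMap.congr_fun ht v, map_zero]
  refine LinearMap.ext fun f => ?_
  exact congrArg Prod.fst (LinearMap.congr_fun hzero (f, 0))

/-- `T_ℓ` acts on the lattice by `perTransfer`. -/
theorem latticeHecke_T {ℓ : ℕ} [NeZero ℓ] (hℓ : ℓ.Prime) (hℓN : ¬ ℓ ∣ N) (v : clLattice N) :
    (latticeHecke N (CuspForm.heckeAlgebra.T hℓ hℓN hℓN) v).1 =
      Hecke.perTransfer N ℓ ℤ v.1 := by
  have h := congrArg (periodHomPair N)
    (periodCoords_latticeAct N (CuspForm.heckeAlgebra.T hℓ hℓN hℓN) v)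
  rw [periodHomPair_periodCoords, CuspForm.heckeAlgebra.coe_T, periodHomPair_heckeT,
    periodHomPair_periodCoords, clToComplex_apply, clToComplex_apply] at h
  rw [show Hecke.perTransfer N ℓ ℂ ((Int.castAddHom ℂ).comp v.1) =
    (Int.castAddHom ℂ).comp (Hecke.perTransfer N ℓ ℤ v.1) from
      Hecke.transferHom_comp (Hecke.upperConj N ℓ) (Int.castAddHom ℂ) v.1] at h
  exact AddMonoidHom.ext fun x => Int.cast_injective (DFunLike.congr_fun h x)

/-- The Fricke involution of the lattice. -/
def frickeLattice : clLattice N ≃+ clLattice N where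
  toFun v := ⟨Hecke.frickeChar N ℤ v.1, frickeChar_isClHom v.1 v.2⟩
  invFun v := ⟨Hecke.frickeChar N ℤ v.1, frickeChar_isClHom v.1 v.2⟩
  left_inv v := Subtype.ext (Hecke.frickeChar_frickeChar N v.1)
  right_inv v := Subtype.ext (Hecke.frickeChar_frickeChar N v.1)
  map_add' v w := Subtype.ext (map_add _ v.1 w.1)
where
  frickeChar_isClHom (φ : Additive (Gamma0 N) →+ ℤ) (h : Grp.IsClHom (Gamma0 N) φ) :
      Grp.IsClHom (Gamma0 N) (Hecke.frickeChar N ℤ φ) := fun γ hγ => by
    rw [Hecke.frickeChar_apply]
    refine h _ ?_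
    have e : Grp.tr ((Hecke.frickeHom N γ : Gamma0 N) : SL(2, ℤ)) = Grp.tr (γ : SL(2, ℤ)) := by
      show Matrix.trace _ = Matrix.trace _
      rw [Hecke.frickeHom_val, Matrix.trace_fin_two_of, Matrix.trace_fin_two, add_comm]
    rwa [e]

/-- The torsion model from Hecke equivariance of the monodromy projection. -/
def torsionModelOfEquivariance (p : ℕ) [NeZero p]
    (heq : ∀ (ℓ : Nat.Primes), ¬ (ℓ : ℕ) ∣ N → ∀ [NeZero (ℓ : ℕ)] (n : ℕ)
      (v w : clLattice N), w.1 = Hecke.monoTransfer N ℓ ℤ v.1 →
        heckeOperatorBar N ℓ (Mono.jProjPow N p n v) = Mono.jProjPow N p n w) :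
    TorsionModel N p :=
  { H := clLattice N
    instFree := Module.Free.of_equiv
      (Grp.nonempty_clHoms_equiv_pi (Gamma0 N) (Grp.neg_one_mem_Gamma0 N) ℤ ℤ).some.symm
    instFinite := Module.Finite.equiv
      (Grp.nonempty_clHoms_equiv_pi (Gamma0 N) (Grp.neg_one_mem_Gamma0 N) ℤ ℤ).some.symm
    hecke := latticeHecke N
    hecke_injective := latticeHecke_injective N
    proj := fun n => (Mono.jProjPow N p n).comp (frickeLattice N).toAddMonoidHom
    proj_range := fun n x => by
      rw [Mono.mem_range_jProjPow]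
      constructor
      · rintro ⟨v, rfl⟩
        exact ⟨(frickeLattice N).symm v, by simp⟩
      · rintro ⟨v, rfl⟩
        exact ⟨_, rfl⟩
    proj_eq_zero := fun n v => by
      rw [AddMonoidHom.comp_apply, Mono.jProjPow_eq_zero_iff]
      constructor
      · rintro ⟨w, hw⟩
        refine ⟨(frickeLattice N).symm w, ?_⟩
        rw [← map_nsmul, ← hw]
        exact ((frickeLattice N).symm_apply_apply v).symm
      · rintro ⟨w, rfl⟩
        exact ⟨frickeLattice N w, map_nsmul (frickeLattice N) (p ^ n) w⟩
    proj_succ := fun n v => Mono.nsmul_jProjPow_succ N p n _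
    proj_hecke := fun ℓ hℓN n v => by
      have : NeZero (ℓ : ℕ) := ⟨ℓ.2.ne_zero⟩
      refine heq ℓ hℓN n (frickeLattice N v)
        (frickeLattice N (latticeHecke N (CuspForm.heckeAlgebra.T ℓ.2 hℓN hℓN) v)) ?_
      show Hecke.frickeChar N ℤ (latticeHecke N _ v).1 =
        Hecke.monoTransfer N ℓ ℤ (Hecke.frickeChar N ℤ v.1)
      rw [Hecke.monoTransfer_frickeChar, latticeHecke_T N ℓ.2 hℓN] }

end Fermat.Agent.Attach
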