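import Fermat.Prelude.Def_CuspForm_HeckeGaloisRepDatum

/-!
# Representations attached to a map out of a Hecke algebra

`HeckeRep` keeps a map of the Hecke algebra to a local ring, a representation with the matching
Frobenius polynomials and the absolute irreducibility of its reduction; nothing is asked about the
points of the ring, so a single eigensystem gives one.
-/

open Polynomial

namespace Fermat.Agent.Attach

/-- A representation attached to a map out of the Hecke algebra. -/
structure HeckeRep (N : ℕ) [NeZero N] (S : Set ℕ) (𝒪 : Type) [CommRing 𝒪] (T : Type)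
    [CommRing T] [IsLocalRing T] [Algebra 𝒪 T] : Type 1 where
  /-- The map out of the Hecke algebra: the eigensystem with values in `T`. -/
  π : CuspForm.heckeAlgebra N 2 S →+* T
  /-- The representation, with Frobenius polynomial `X² - π(T_ℓ) X + ℓ` at the good primes `ℓ`. -/
  ρ : GaloisRepAdic T
  charpoly_frob : ∀ (ℓ : ℕ) (hℓ : ℓ.Prime) (hℓN : ¬ ℓ ∣ N) (hℓS : ℓ ∉ S),
    ∀ A : ValuationSubring (AlgebraicClosure ℚ), A.LiesOverPrime ℓ →
      ∀ σ : AlgebraicClosure ℚ ≃ₐ[ℚ] AlgebraicClosure ℚ, A.IsFrobeniusAt σ ℓ →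
        LinearMap.charpoly (ρ.ρ σ) =
          X ^ 2 - C (π (CuspForm.heckeAlgebra.T hℓ hℓN hℓS)) * X + C ((ℓ : T))
  residue_surjective : Function.Surjective (IsLocalRing.residue T ∘ algebraMap 𝒪 T)
  residual_absIrr : ρ.residual.IsAbsolutelyIrreducible

/-- A Hecke datum gives such a representation. -/
def HeckeRep.ofDatum {N : ℕ} [NeZero N] {S : Set ℕ} {𝒪 : Type} [CommRing 𝒪] [IsDomain 𝒪]
    [IsDiscreteValuationRing 𝒪] [IsAdicComplete (IsLocalRing.maximalIdeal 𝒪) 𝒪]
    {θ : CuspForm.heckeAlgebra N 2 S →+* IsLocalRing.ResidueField 𝒪} {T : Type} [CommRing T]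
    [IsLocalRing T] [IsNoetherianRing T] [IsAdicComplete (IsLocalRing.maximalIdeal T) T]
    [Algebra 𝒪 T] [IsLocalHom (algebraMap 𝒪 T)] [Module.Finite 𝒪 T] [Module.Free 𝒪 T]
    (H : CuspForm.HeckeGaloisRepDatum N S 𝒪 θ T) : HeckeRep N S 𝒪 T where
  π := H.π
  ρ := H.ρ
  charpoly_frob := H.charpoly_frob
  residue_surjective := H.residue_surjective
  residual_absIrr := H.residual_absIrr

end Fermat.Agent.Attach
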