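import Fermat.Agent.Attach.HeckeLattice
import Fermat.Agent.Hecke.MonodromyBar

/-!
# The torsion model of `J₀(N)`

The monodromy projections are equivariant for the Hecke operators at good primes, so the lattice
`Hom_cl(Γ₀(N), ℤ)` is a `TorsionModel` of `J₀(N)`.
-/

noncomputable section

open CongruenceSubgroup ModularCurve AlgebraicCurve

namespace Fermat.Agent.Attach

/-- `T_ℓ` on `J₀(N)[pⁿ]` is the monodromy transfer on `Hom_cl(Γ₀(N), ℤ)`. -/
theorem heckeOperatorBar_jProjPow_of_transfer (N : ℕ) [NeZero N] (p : ℕ) [NeZero p]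
    (ℓ : Nat.Primes) [NeZero (ℓ : ℕ)] (n : ℕ)
    (v w : clLattice N) (hvw : w.1 = Hecke.monoTransfer N ℓ ℤ v.1) :
    heckeOperatorBar N ℓ (Mono.jProjPow N p n v) = Mono.jProjPow N p n w := by
  have : NeZero (p ^ n) := ⟨pow_ne_zero n (NeZero.ne p)⟩
  set hP := Mono.placeData N
  set x := (Mono.torsionEquiv hP (p ^ n)).symm (Mono.redClHom N (p ^ n) v) with hxdef
  have hx : heckeOperatorBar N ℓ (x : JZero N) ∈
      Pic0.torsion (AlgebraicClosure ℚ) (modularFunctionFieldBar N) (p ^ n) := by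
    rw [Pic0.mem_torsion, ← map_zsmul, Pic0.mem_torsion.mp x.2, map_zero]
  have key : (⟨_, hx⟩ : Pic0.torsion (AlgebraicClosure ℚ) (modularFunctionFieldBar N) (p ^ n)) =
      (Mono.torsionEquiv hP (p ^ n)).symm (Mono.redClHom N (p ^ n) w) := by
    apply (Mono.torsionEquiv hP (p ^ n)).injective
    refine Subtype.ext ?_
    rw [Hecke.torsionEquiv_heckeOperatorBar ℓ hP x hx, hxdef, AddEquiv.apply_symm_apply,
      AddEquiv.apply_symm_apply]
    show Hecke.monoTransfer N ℓ _ ((Int.castAddHom (ZMod (p ^ n))).comp v.1) =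
      (Int.castAddHom (ZMod (p ^ n))).comp w.1
    rw [hvw]
    exact Hecke.transferHom_comp (Hecke.lowerConj N ℓ) (Int.castAddHom (ZMod (p ^ n))) v.1
  exact congrArg Subtype.val key

/-- The torsion model of `J₀(N)`. -/
def torsionModel (N : ℕ) [NeZero N] (p : ℕ) [NeZero p] : TorsionModel N p :=
  torsionModelOfEquivariance N p fun ℓ _ _ n v w h =>
    heckeOperatorBar_jProjPow_of_transfer N p ℓ n v w h

end Fermat.Agent.Attach

end
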