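import Fermat.Agent.Attach.GaloisInputs
import Fermat.Agent.Attach.Model
import Fermat.Agent.S37

/-!
# The geometric inputs exist

For every level `N` and prime `p` there is a torsion model of `J₀(N)` with its Galois properties
(`JacobianInputs`), so the theorems on Galois representations attached to eigenforms hold
unconditionally.
-/

namespace Fermat.Agent.Attach

open ModularCurve

local notation "Qbar" => AlgebraicClosure ℚ

/-- The geometric inputs exist at every level and prime. -/
theorem nonempty_jacobianInputs (N : ℕ) [NeZero N] (p : ℕ) [Fact p.Prime] :
    Nonempty (JacobianInputs N p) :=
  haveI : NeZero p := ⟨(Fact.out : p.Prime).ne_zero⟩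
  ⟨{ model := torsionModel N p
     galois := torsionGalois_of_specialization N p
       (S37.result N p (Hecke.heckeOperatorsCommuteBar N)) }⟩

end Fermat.Agent.Attach
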