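import Fermat.Prelude.Def_CuspForm_HeckeAlgebra
import Fermat.Prelude.Def_ModularCurve_HeckeModule

/-!
# What Galois representations need from `J₀(N)`

Structures recording the input from the geometry of `X₀(N)` to the construction of Galois
representations attached to eigenforms: a Hecke lattice projecting onto the `p`-power torsion
(`TorsionModel`) and the Galois properties of that torsion (`TorsionGalois`).
-/

namespace Fermat.Agent.Attach

open ModularCurve

local notation "Qbar" => AlgebraicClosure ℚ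

/-- An integral model of the `p`-power torsion of `J₀(N)(ℚ̄)` with its Hecke action: a finite free
`ℤ`-module `H` (think `Hom_cl(Γ₀(N), ℤ)`) with a faithful action of the anemic Hecke algebra
(generated by the `T_ℓ`, `ℓ ∤ N`; restrict along `CuspForm.heckeAlgebra_mono`) and compatible
Hecke-equivariant identifications `H / pⁿ H ≅ J₀(N)[pⁿ]`. -/
structure TorsionModel (N : ℕ) [NeZero N] (p : ℕ) : Type 1 where
  /-- The lattice of the model, a finite free `ℤ`-module. -/
  H : Type
  [instAddCommGroup : AddCommGroup H]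
  [instFree : Module.Free ℤ H]
  [instFinite : Module.Finite ℤ H]
  /-- The faithful action of the anemic Hecke algebra on the lattice. -/
  hecke : CuspForm.heckeAlgebra N 2 {q : ℕ | q ∣ N} →+* Module.End ℤ H
  hecke_injective : Function.Injective hecke
  /-- For each `n`, a map `H → J₀(N)` with image the `pⁿ`-torsion and kernel `pⁿ H`. -/
  proj : ℕ → H →+ JZero N
  proj_range : ∀ (n : ℕ) (x : JZero N), p ^ n • x = 0 ↔ x ∈ (proj n).range
  proj_eq_zero : ∀ (n : ℕ) (v : H), proj n v = 0 ↔ ∃ w : H, v = p ^ n • w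
  proj_succ : ∀ (n : ℕ) (v : H), p • proj (n + 1) v = proj n v
  proj_hecke : ∀ (ℓ : Nat.Primes) (hℓN : ¬ (ℓ : ℕ) ∣ N) (n : ℕ) (v : H),
    heckeOperatorBar N ℓ (proj n v) =
      proj n (hecke (CuspForm.heckeAlgebra.T ℓ.2 hℓN hℓN) v)

attribute [instance] TorsionModel.instAddCommGroup TorsionModel.instFree TorsionModel.instFinite

/-- The Galois side. -/
structure TorsionGalois (N : ℕ) [NeZero N] (p : ℕ) : Prop where
  /-- Hecke operators at good primes commute with Galois. -/
  galois_hecke : ∀ (ℓ : Nat.Primes), ¬ (ℓ : ℕ) ∣ N → ∀ (σ : Qbar ≃ₐ[ℚ] Qbar) (x : JZero N),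
    σ • heckeOperatorBar N ℓ x = heckeOperatorBar N ℓ (σ • x)
  /-- Each torsion point is fixed by an open subgroup. -/
  finite_level : ∀ (n : ℕ) (x : JZero N), p ^ n • x = 0 →
    ∃ L : IntermediateField ℚ Qbar, FiniteDimensional ℚ L ∧
      ∀ σ : Qbar ≃ₐ[ℚ] Qbar, (∀ a ∈ L, σ a = a) → σ • x = x
  unramified : ∀ q : ℕ, q.Prime → ¬ q ∣ N * p →
    ∀ A : ValuationSubring Qbar, A.LiesOverPrime q →
      ∀ σ ∈ A.inertiaSubgroupIn ℚ, ∀ x : JZero N, (∃ n : ℕ, p ^ n • x = 0) → σ • x = x
  frobenius : ∀ (ℓ : Nat.Primes), ¬ (ℓ : ℕ) ∣ N * p →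
    ∀ A : ValuationSubring Qbar, A.LiesOverPrime ℓ →
      ∀ σ : Qbar ≃ₐ[ℚ] Qbar, A.IsFrobeniusAt σ ℓ →
        ∀ x : JZero N, (∃ n : ℕ, p ^ n • x = 0) →
          σ • σ • x - heckeOperatorBar N ℓ (σ • x) + (ℓ : ℕ) • x = 0

/-- Everything at once. -/
structure JacobianInputs (N : ℕ) [NeZero N] (p : ℕ) : Type 1 where
  /-- The integral model of the `p`-power torsion. -/
  model : TorsionModel N p
  galois : TorsionGalois N p

end Fermat.Agent.Attach
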