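import Mathlib.FieldTheory.IntermediateField.Adjoin.Basic
import Mathlib.FieldTheory.IsAlgClosed.AlgebraicClosure
import Mathlib.RingTheory.Filtration
import Fermat.Prelude.Def_GaloisRep_Adic
import Fermat.Agent.Attach.Coeff
import Fermat.Agent.Attach.Eigvec
import Fermat.Agent.Attach.FiniteExt
import Fermat.Agent.Attach.Small
import Fermat.Agent.Attach.TwoDim

/-!
# `λ`-adic representations attached to eigensystems

From the geometric inputs: a point of the Hecke algebra in a complete discrete valuation ring has,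
after a finite extension, an attached two dimensional Galois representation. It is found inside an
eigenspace of the torsion model, where every element satisfies a quadratic relation.
-/

noncomputable section

open Polynomial

namespace Fermat.Agent.Attach

local notation "Qbar" => AlgebraicClosure ℚ
local notation "GQ" => (AlgebraicClosure ℚ ≃ₐ[ℚ] AlgebraicClosure ℚ)

/-- A continuous matrix representation as an adic representation. -/
def adicOfMatrix {A : Type} [CommRing A] [IsLocalRing A] (τ : GQ →* Matrix (Fin 2) (Fin 2) A)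
    (h : ∀ n : ℕ, ∃ L : IntermediateField ℚ Qbar, FiniteDimensional ℚ L ∧
      ∀ σ : GQ, (∀ x ∈ L, σ x = x) → NearOne (IsLocalRing.maximalIdeal A ^ n) (τ σ)) :
    GaloisRepAdic A where
  V := Fin 2 → A
  finrank_eq := Module.finrank_fin_fun A
  ρ := Matrix.toLinAlgEquiv'.toMonoidHom.comp τ
  isAdicContinuous := by
    intro n
    obtain ⟨L, hL, h1⟩ := h n
    refine ⟨L, hL, fun σ hσ v => ?_⟩
    show (τ σ).mulVec v - v ∈ _
    rw [pi_eq_sum_univ' ((τ σ).mulVec v - v)]
    refine Submodule.sum_mem _ fun i _ => ?_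
    refine Submodule.smul_mem_smul ?_ Submodule.mem_top
    have e : ((τ σ).mulVec v - v) i =
        ∑ j, (τ σ i j - (1 : Matrix (Fin 2) (Fin 2) A) i j) * v j := by
      rw [Pi.sub_apply]
      conv_lhs => arg 2; rw [← congrFun (Matrix.one_mulVec v) i]
      simp only [Matrix.mulVec, dotProduct, sub_mul, Finset.sum_sub_distrib]
    rw [e]
    exact Ideal.sum_mem _ fun j _ => Ideal.mul_mem_right _ _ (h1 σ hσ i j)

theorem adicOfMatrix_charpoly {A : Type} [CommRing A] [IsLocalRing A]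
    (τ : GQ →* Matrix (Fin 2) (Fin 2) A) (h) (σ : GQ) :
    LinearMap.charpoly ((adicOfMatrix τ h).ρ σ) = (τ σ).charpoly :=
  Matrix.charpoly_toLin (τ σ) (Pi.basisFun A (Fin 2))

variable {N : ℕ} [NeZero N] {p : ℕ} [Fact p.Prime]

/-- A point of the Hecke algebra has an attached `λ`-adic representation. -/
theorem exists_galoisRep_of_inputs (Ins : JacobianInputs N p) {S : Finset ℕ} (hpS : p ∈ S)
    (hNS : ∀ q, q.Prime → q ∣ N → q ∈ S)
    (𝒪' : Type) [CommRing 𝒪'] [IsDomain 𝒪'] [IsDiscreteValuationRing 𝒪']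
    [IsAdicComplete (IsLocalRing.maximalIdeal 𝒪') 𝒪'] [Finite (IsLocalRing.ResidueField 𝒪')]
    [CharZero 𝒪'] (hp : (p : 𝒪') ∈ IsLocalRing.maximalIdeal 𝒪')
    (θ : CuspForm.heckeAlgebra N 2 (↑S : Set ℕ) →+* 𝒪') :
    ∃ (𝒪'' : Type) (_ : CommRing 𝒪'') (_ : IsDomain 𝒪'') (_ : IsDiscreteValuationRing 𝒪'')
      (_ : IsAdicComplete (IsLocalRing.maximalIdeal 𝒪'') 𝒪'')
      (_ : Finite (IsLocalRing.ResidueField 𝒪'')) (_ : CharZero 𝒪'')
      (_ : Algebra 𝒪' 𝒪'') (_ : Module.Finite 𝒪' 𝒪'') (_ : IsLocalHom (algebraMap 𝒪' 𝒪'')),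
    Function.Injective (algebraMap 𝒪' 𝒪'') ∧
    ∃ ρ : GaloisRepAdic 𝒪'',
      (∀ (ℓ : ℕ) (hℓ : ℓ.Prime) (hℓN : ¬ ℓ ∣ N) (hℓS : ℓ ∉ (↑S : Set ℕ)),
        ∀ A : ValuationSubring Qbar, A.LiesOverPrime ℓ →
          ∀ σ : GQ, A.IsFrobeniusAt σ ℓ →
            LinearMap.charpoly (ρ.ρ σ) =
              X ^ 2 - C (algebraMap 𝒪' 𝒪'' (θ (CuspForm.heckeAlgebra.T hℓ hℓN hℓS))) * X
                + C ((ℓ : 𝒪''))) ∧
      (∀ q : ℕ, q.Prime → ¬ q ∣ N → q ≠ p → ρ.IsUnramifiedAt q) := by
  have hNS' : ∀ q, q.Prime → q ∣ N → q ∈ (↑S : Set ℕ) := hNS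
  set M := Ins.model
  let K := FractionRing 𝒪'
  let Kbar := AlgebraicClosure K
  let jO : 𝒪' →+* Kbar := (algebraMap K Kbar).comp (algebraMap 𝒪' K)
  obtain ⟨v, hv0, hv⟩ := exists_eigvec (M.mat.comp (toAnemic hNS'))
    (M.mat_injective.comp (toAnemic_injective hNS')) (jO.comp θ)
  have hv' : ∀ t, ((M.matO 𝒪' hNS' t).map jO).mulVec v = jO (θ t) • v := fun t => by
    have e : (M.matO 𝒪' hNS' t).map jO =
        ((M.mat.comp (toAnemic hNS')) t).map (Int.castRingHom Kbar) := by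
      ext i j
      exact map_intCast jO _
    rw [e]
    exact hv t
  obtain ⟨W, c, hd, hWstab, hWgood, hWT⟩ := exists_small_good_subspace jO
    (smallQuadraticDivision_of_isAlgClosed Kbar) (M.repO hp)
    (TorsionModel.cycO hp) (M.matO 𝒪' hNS') θ (M.repO_commute hp Ins.galois hNS')
    (M.good_mem_span hp Ins.galois hpS hNS') v hv0 hv'
  have : Module.Free Kbar W := Module.Free.of_divisionRing Kbar W
  let bW := Module.finBasis Kbar W
  let coords : Set Kbar := Set.range fun x : Fin (Module.finrank Kbar W) × Fin M.rk =>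
    (bW x.1 : Fin M.rk → Kbar) x.2
  let E : IntermediateField K Kbar := IntermediateField.adjoin K coords
  have : FiniteDimensional K E :=
    IntermediateField.finiteDimensional_adjoin fun x _ => Algebra.IsIntegral.isIntegral x
  obtain ⟨hfin, hinj, hdvr, hcomp, hres, hloc, hfrac⟩ := integralClosure_facts 𝒪' E
  let O2 := integralClosure 𝒪' E
  let jC : O2 →+* Kbar := (algebraMap E Kbar).comp (algebraMap O2 E)
  have hjC : Function.Injective jC :=
    (algebraMap E Kbar).injective.comp (IsFractionRing.injective O2 E)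
  have hjOC : ∀ a : 𝒪', jC (algebraMap 𝒪' O2 a) = jO a := fun a => by
    show algebraMap E Kbar (algebraMap O2 E (algebraMap 𝒪' O2 a)) = _
    rw [← IsScalarTower.algebraMap_apply 𝒪' O2 E, IsScalarTower.algebraMap_apply 𝒪' K E,
      ← IsScalarTower.algebraMap_apply K E Kbar]
    rfl
  let R2 : GQ →* Matrix (Fin M.rk) (Fin M.rk) O2 :=
    (algebraMap 𝒪' O2).mapMatrix.toMonoidHom.comp (M.repO hp)
  let χ2 : GQ →* O2 := (algebraMap 𝒪' O2).toMonoidHom.comp (TorsionModel.cycO hp)
  have hR2 : ∀ g, (R2 g).map jC = (M.repO hp g).map jO := fun g => by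
    ext i j
    exact hjOC _
  obtain ⟨τ, hdet, htr, hnear⟩ := exists_lattice_rep jC hjC R2 χ2
    (fun g => algebraMap 𝒪' O2 (c g)) W hd
    (fun g w hw => by rw [hR2]; exact hWstab g w hw)
    (fun g w hw => by
      have e : (R2 g + χ2 g • R2 g⁻¹).map jC =
          (M.repO hp g + TorsionModel.cycO hp g • M.repO hp g⁻¹).map jO := by
        ext i j
        show jC (algebraMap 𝒪' O2 _ + algebraMap 𝒪' O2 _ * algebraMap 𝒪' O2 _) = _
        rw [← map_mul, ← map_add, hjOC]
        rfl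
      rw [e, hjOC]
      exact hWgood g w hw)
    (le_span_integral_points (R := O2) (algebraMap E Kbar) W bW fun k a =>
      ⟨⟨_, IntermediateField.subset_adjoin K coords ⟨(k, a), rfl⟩⟩, rfl⟩)
  obtain ⟨π, hπ⟩ := IsDiscreteValuationRing.exists_irreducible O2
  have hmax := hπ.maximalIdeal_eq
  have hle : ∀ n, (IsLocalRing.maximalIdeal 𝒪' ^ n).map (algebraMap 𝒪' O2) ≤
      Ideal.span {π ^ n} := fun n => by
    rw [← Ideal.span_singleton_pow, ← hmax, Ideal.map_pow]
    exact Ideal.pow_right_mono (Ideal.map_le_iff_le_comap.mpr fun a ha => map_nonunit _ a ha) n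
  have hτnear : ∀ n (g : GQ), M.rep n g = 1 → cyc p n g = 1 →
      NearOne (IsLocalRing.maximalIdeal O2 ^ n) (τ g) := fun n g h1 h2 => by
    rw [hmax, Ideal.span_singleton_pow]
    refine hnear _ g (pow_ne_zero n hπ.ne_zero) (fun i k => hle n ?_) (hle n ?_)
    · show algebraMap 𝒪' O2 (M.repO hp g i k) - _ ∈ _
      have e : (1 : Matrix (Fin M.rk) (Fin M.rk) O2) i k =
          algebraMap 𝒪' O2 ((1 : Matrix (Fin M.rk) (Fin M.rk) 𝒪') i k) := by
        rw [Matrix.one_apply, Matrix.one_apply]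
        split <;> simp
      rw [e, ← map_sub]
      exact Ideal.mem_map_of_mem _ (M.repO_near hp n g h1 i k)
    · show algebraMap 𝒪' O2 (TorsionModel.cycO hp g) - 1 ∈ _
      rw [← map_one (algebraMap 𝒪' O2), ← map_sub]
      exact Ideal.mem_map_of_mem _ (TorsionModel.cycO_near hp n g h2)
  have hcont : ∀ n : ℕ, ∃ L : IntermediateField ℚ Qbar, FiniteDimensional ℚ L ∧
      ∀ σ : GQ, (∀ x ∈ L, σ x = x) → NearOne (IsLocalRing.maximalIdeal O2 ^ n) (τ σ) := by
    intro n
    obtain ⟨L1, hL1, h1⟩ := M.rep_eq_one_of_finite_level Ins.galois n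
    obtain ⟨L2, hL2, h2⟩ := cyc_finite_level p n
    exact ⟨L1 ⊔ L2, inferInstance, fun σ hσ => hτnear n σ
      (h1 σ fun a ha => hσ a ((le_sup_left : L1 ≤ L1 ⊔ L2) ha))
      (h2 σ fun a ha => hσ a ((le_sup_right : L2 ≤ L1 ⊔ L2) ha))⟩
  have : CharZero O2 := charZero_of_injective_algebraMap hinj
  refine ⟨O2, inferInstance, inferInstance, hdvr, hcomp, hres, inferInstance, inferInstance,
    hfin, hloc, hinj, adicOfMatrix τ hcont, ?_, ?_⟩
  · intro ℓ hℓ hℓN hℓS A hA σ hσ
    obtain ⟨hχσ, hΦσ⟩ := M.repO_frobenius hp Ins.galois hNS' hℓ hℓN hℓS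
      (fun h => hℓS (h ▸ hpS)) hA hσ
    rw [adicOfMatrix_charpoly]
    refine charpoly_of_det_trace _ ((htr σ).trans (hjC ?_)) ((hdet σ).trans ?_)
    · rw [hjOC, hjOC]
      exact hWT σ _ hΦσ
    · show algebraMap 𝒪' O2 (TorsionModel.cycO hp σ) = _
      rw [hχσ, map_natCast]
  · intro q hq hqN hqp A hA σ hσ
    obtain ⟨hR, hχ⟩ := M.repO_inertia hp Ins.galois hq hqN hqp hA hσ
    show Matrix.toLinAlgEquiv' (τ σ) = 1
    have hone : τ σ = 1 := by
      refine Matrix.ext fun i k => ?_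
      rw [← sub_eq_zero]
      refine IsHausdorff.haus (IsAdicComplete.toIsHausdorff
        (I := IsLocalRing.maximalIdeal O2) (M := O2)) _ fun n => ?_
      rw [SModEq.zero, smul_eq_mul, Ideal.mul_top, hmax, Ideal.span_singleton_pow]
      refine hnear _ σ (pow_ne_zero n hπ.ne_zero) (fun a b => ?_) ?_ i k
      · show (algebraMap 𝒪' O2).mapMatrix (M.repO hp σ) a b - _ ∈ _
        rw [hR, map_one, sub_self]
        exact Submodule.zero_mem _
      · show algebraMap 𝒪' O2 (TorsionModel.cycO hp σ) - 1 ∈ _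
        rw [hχ, map_one, sub_self]
        exact Submodule.zero_mem _
    rw [hone, map_one]

end Fermat.Agent.Attach
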