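import Mathlib.RingTheory.Filtration
import Fermat.Prelude.Def_CuspForm_HeckeGaloisRepDatum
import Fermat.Agent.Attach.HeckeRep
import Fermat.Agent.Attach.Trace
import Fermat.Agent.Gal.Compare

/-!
# Hecke representations are unramified away from the level

A representation attached to a Hecke algebra, with absolutely irreducible reduction, is trivial on
inertia at every prime not dividing `N p`: its traces are congruent to those of the torsion model
modulo every power of `p`, and the trace pairing is perfect.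
-/

noncomputable section

open Polynomial

namespace Fermat.Agent.Attach

local notation "Qbar" => AlgebraicClosure ℚ
local notation "GQ" => (AlgebraicClosure ℚ ≃ₐ[ℚ] AlgebraicClosure ℚ)

/-- Elementary Artin–Rees: a subgroup of `M` meets `p^m M` inside `p^n` of itself for `m` large. -/
theorem exists_saturation {T M : Type*} [Ring T] [AddCommGroup M] [Module.Finite ℤ M]
    (f : T →+ M) (hf : Function.Injective f) (p n : ℕ) :
    ∃ m : ℕ, ∀ t : T, (∃ w : M, f t = p ^ m • w) → ∃ s : T, t = p ^ n • s := by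
  let I : Ideal ℤ := Ideal.span {(p : ℤ)}
  obtain ⟨k, hk⟩ := I.exists_pow_inf_eq_pow_smul (M := M) f.toIntLinearMap.range
  refine ⟨n + k, fun t ⟨w, hw⟩ => ?_⟩
  have hI : ∀ j : ℕ, I ^ j = Ideal.span {((p ^ j : ℕ) : ℤ)} := fun j => by
    rw [Ideal.span_singleton_pow, Nat.cast_pow]
  have hmem : f t ∈ I ^ (n + k) • (⊤ : Submodule ℤ M) ⊓ f.toIntLinearMap.range := by
    refine ⟨?_, ⟨t, rfl⟩⟩
    rw [hw, hI, ← natCast_zsmul]
    exact Submodule.smul_mem_smul (Ideal.mem_span_singleton_self _) Submodule.mem_top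
  rw [hk (n + k) (by omega), Nat.add_sub_cancel, hI, Submodule.ideal_span_singleton_smul] at hmem
  obtain ⟨y, hy, hyt⟩ := (Submodule.mem_smul_pointwise_iff_exists _ _ _).mp hmem
  obtain ⟨s, rfl⟩ := hy.2
  refine ⟨s, hf ?_⟩
  rw [map_nsmul, ← hyt, ← natCast_zsmul]
  rfl

/-- A matrix killed by the trace pairing against values with perfect Gram matrix vanishes. -/
theorem eq_zero_of_trace_mul_eq_zero {R : Type*} [CommRing R] (m : Fin 4 → Matrix (Fin 2) (Fin 2) R)
    (hm : IsUnit (Matrix.of fun i j => (m i * m j).trace).det)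
    (X : Matrix (Fin 2) (Fin 2) R) (hX : ∀ i, (m i * X).trace = 0) : X = 0 := by
  let e : Fin 4 ≃ Fin 2 × Fin 2 := (finProdFinEquiv (m := 2) (n := 2)).symm
  let B : Matrix (Fin 4) (Fin 4) R := Matrix.of fun i c => m i (e c).1 (e c).2
  let C : Matrix (Fin 4) (Fin 4) R := Matrix.of fun c j => m j (e c).2 (e c).1
  have hsum : ∀ (A Y : Matrix (Fin 2) (Fin 2) R),
      (A * Y).trace = ∑ c, A (e c).1 (e c).2 * Y (e c).2 (e c).1 := fun A Y => by
    rw [e.sum_comp (fun x => A x.1 x.2 * Y x.2 x.1), Fintype.sum_prod_type]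
    simp [Matrix.trace, Matrix.mul_apply]
  have hBC : (Matrix.of fun i j => (m i * m j).trace) = B * C := by
    ext i j
    simp [B, C, Matrix.mul_apply, hsum]
  have hB : IsUnit B.det := by
    rw [hBC, Matrix.det_mul] at hm
    exact isUnit_of_mul_isUnit_left hm
  let x : Fin 4 → R := fun c => X (e c).2 (e c).1
  have hBx : B.mulVec x = 0 := funext fun i => by
    rw [Pi.zero_apply, ← hX i, hsum]
    rfl
  have hx : x = 0 := by
    have h := congrArg (B⁻¹.mulVec ·) hBx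
    simpa [Matrix.mulVec_mulVec, Matrix.nonsing_inv_mul _ hB] using h
  ext a b
  have h := congrFun hx (e.symm (b, a))
  simpa [x] using h

/-- Trace and determinant read off the characteristic polynomial. -/
theorem trace_det_of_charpoly {R : Type*} [CommRing R] [Nontrivial R]
    (A : Matrix (Fin 2) (Fin 2) R) {t d : R} (h : A.charpoly = X ^ 2 - C t * X + C d) :
    A.trace = t ∧ A.det = d := by
  rw [Matrix.charpoly_fin_two] at h
  have h1 := congrArg (fun q : R[X] => q.coeff 1) h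
  have h0 := congrArg (fun q : R[X] => q.coeff 0) h
  simp [coeff_X_pow, coeff_C] at h1 h0
  exact ⟨h1, h0⟩

section Matrices

variable {A : Type} [CommRing A] [IsLocalRing A] (ρ : GaloisRepAdic A)

/-- An adic representation as matrices. -/
def repMatrix : GQ →* Matrix (Fin 2) (Fin 2) A :=
  (LinearMap.toMatrixAlgEquiv (Gal.basisTwo ρ.finrank_eq)).toMonoidHom.comp ρ.ρ

/-- The trace of `repMatrix` is the trace of the representation. -/
theorem repMatrix_trace (g : GQ) :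
    (repMatrix ρ g).trace = LinearMap.trace A ρ.V (ρ.ρ g) :=
  (LinearMap.trace_eq_matrix_trace A (Gal.basisTwo ρ.finrank_eq) (ρ.ρ g)).symm

theorem repMatrix_charpoly (g : GQ) :
    (repMatrix ρ g).charpoly = LinearMap.charpoly (ρ.ρ g) :=
  (ρ.ρ g).charpoly_toMatrix (Gal.basisTwo ρ.finrank_eq)

theorem repMatrix_injective (g h : GQ) (e : repMatrix ρ g = repMatrix ρ h) : ρ.ρ g = ρ.ρ h :=
  (LinearMap.toMatrixAlgEquiv (Gal.basisTwo ρ.finrank_eq)).injective e

/-- Modulo each power of the maximal ideal the matrices have finite level. -/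
theorem repMatrix_continuous (n : ℕ) : ∃ L : IntermediateField ℚ Qbar, FiniteDimensional ℚ L ∧
    ∀ σ : GQ, (∀ x ∈ L, σ x = x) →
      ∀ i j, repMatrix ρ σ i j - (1 : Matrix (Fin 2) (Fin 2) A) i j ∈
        IsLocalRing.maximalIdeal A ^ n := by
  obtain ⟨L, hL, h⟩ := ρ.isAdicContinuous n
  refine ⟨L, hL, fun σ hσ i j => ?_⟩
  set b := Gal.basisTwo ρ.finrank_eq
  have h2 := Gal.repr_mem_of_mem_smul_top b (h σ hσ (b j)) i
  rw [map_sub, Finsupp.sub_apply, b.repr_self, Finsupp.single_apply] at h2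
  show LinearMap.toMatrixAlgEquiv b (ρ.ρ σ) i j - _ ∈ _
  rw [LinearMap.toMatrixAlgEquiv_apply, Matrix.one_apply]
  simpa [eq_comm] using h2

/-- Absolute irreducibility gives four elements with unimodular trace pairing. -/
theorem repMatrix_hasTraceBasis (hirr : ρ.residual.IsAbsolutelyIrreducible) :
    ∃ g : Fin 4 → GQ,
      IsUnit (Matrix.of fun i j => (repMatrix ρ (g i) * repMatrix ρ (g j)).trace).det := by
  obtain ⟨g, hg⟩ := Gal.hasTraceBasis_of_residual ρ hirr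
  refine ⟨g, ?_⟩
  simp only [← map_mul, repMatrix_trace]
  simpa [← map_mul] using hg

/-- If `g` and `τ` agree on a field of continuity mod `𝔪 ^ n`, their matrices are congruent. -/
theorem repMatrix_sub_mem_pow {n : ℕ} {L : IntermediateField ℚ Qbar}
    (hcont : ∀ σ : GQ, (∀ x ∈ L, σ x = x) →
      ∀ i j, repMatrix ρ σ i j - (1 : Matrix (Fin 2) (Fin 2) A) i j ∈
        IsLocalRing.maximalIdeal A ^ n)
    {g τ : GQ} (h : ∀ x ∈ L, g x = τ x) (i j : Fin 2) :
    (repMatrix ρ g - repMatrix ρ τ) i j ∈ IsLocalRing.maximalIdeal A ^ n := by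
  have hfix : ∀ x ∈ L, (τ⁻¹ * g) x = x := fun x hx => by
    show τ⁻¹ (g x) = x
    rw [h x hx]
    exact τ.symm_apply_apply x
  have e : repMatrix ρ g - repMatrix ρ τ = repMatrix ρ τ * (repMatrix ρ (τ⁻¹ * g) - 1) := by
    rw [mul_sub, mul_one, ← map_mul, mul_inv_cancel_left]
  rw [e, Matrix.mul_apply]
  exact Ideal.sum_mem _ fun c _ => Ideal.mul_mem_left _ _ (hcont _ hfix c j)

end Matrices

section Level

variable {p : ℕ} {N : ℕ} [NeZero N] {S : Finset ℕ}
  {𝒪 : Type} [CommRing 𝒪] [IsDomain 𝒪] [IsDiscreteValuationRing 𝒪]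
  {T : Type} [CommRing T] [IsLocalRing T] [Algebra 𝒪 T]
  [IsLocalHom (algebraMap 𝒪 T)]
  [Fact p.Prime] (Ins : JacobianInputs N p)
  (hp𝒪 : (p : 𝒪) ∈ IsLocalRing.maximalIdeal 𝒪) (hpS : p ∈ S)
  (hNS : ∀ q : ℕ, q.Prime → q ∣ N → q ∈ (↑S : Set ℕ))
  (H : HeckeRep N (↑S : Set ℕ) 𝒪 T)

include hp𝒪 in
omit [Fact p.Prime] in
/-- The residue characteristic of `𝒪` is that of `T`. -/
theorem natCast_mem_maximalIdeal' : (p : T) ∈ IsLocalRing.maximalIdeal T := by
  rw [← map_natCast (algebraMap 𝒪 T)]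
  exact map_nonunit (algebraMap 𝒪 T) _ hp𝒪

include hp𝒪 in
omit [Fact p.Prime] in
/-- A Hecke element killing a high enough level of the torsion model is small in `T`. -/
theorem exists_level_pi_mem_pow (n : ℕ) :
    ∃ m₀ : ℕ, ∀ m, m₀ ≤ m → ∀ t, Ins.model.matS hNS m t = 0 →
      H.π t ∈ IsLocalRing.maximalIdeal T ^ n := by
  set M := Ins.model
  obtain ⟨m₀, hm₀⟩ := exists_saturation (M.mat.comp (toAnemic hNS)).toAddMonoidHom
    (M.mat_injective.comp (toAnemic_injective hNS)) p n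
  refine ⟨m₀, fun m hm t ht => ?_⟩
  obtain ⟨s, rfl⟩ := hm₀ t ⟨Matrix.of fun i j =>
      (M.mat (toAnemic hNS t) i j) / ((p ^ m₀ : ℕ) : ℤ), by
    ext i j
    rw [Matrix.smul_apply, nsmul_eq_mul, Matrix.of_apply]
    exact (Int.mul_ediv_cancel' ((Int.natCast_dvd_natCast.mpr (pow_dvd_pow p hm)).trans
      ((ZMod.intCast_zmod_eq_zero_iff_dvd _ _).mp (congrFun (congrFun ht i) j)))).symm⟩
  rw [nsmul_eq_mul, map_mul, map_natCast, Nat.cast_pow]
  exact Ideal.mul_mem_right _ _ (Ideal.pow_mem_pow (natCast_mem_maximalIdeal' hp𝒪) n)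

omit [Fact p.Prime] [IsDomain 𝒪] [IsDiscreteValuationRing 𝒪] [IsLocalHom (algebraMap 𝒪 T)] in
/-- Trace and determinant of a power of a Frobenius element on a Hecke representation. -/
theorem repMatrix_frobenius_pow {ℓ : ℕ} (hℓ : ℓ.Prime) (hℓN : ¬ ℓ ∣ N)
    (hℓS : ℓ ∉ (↑S : Set ℕ)) {A : ValuationSubring Qbar} (hA : A.LiesOverPrime ℓ) {τ : GQ}
    (hτ : A.IsFrobeniusAt τ ℓ) (k : ℕ) :
    (repMatrix H.ρ (τ ^ k)).trace = H.π (powTrace (CuspForm.heckeAlgebra.T hℓ hℓN hℓS)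
      (ℓ : CuspForm.heckeAlgebra N 2 (↑S : Set ℕ)) k) ∧
      (repMatrix H.ρ (τ ^ k)).det = (ℓ : T) ^ k := by
  have hch : (repMatrix H.ρ τ).charpoly =
      X ^ 2 - C (H.π (CuspForm.heckeAlgebra.T hℓ hℓN hℓS)) * X + C ((ℓ : T)) :=
    (repMatrix_charpoly H.ρ τ).trans (H.charpoly_frob ℓ hℓ hℓN hℓS A hA τ hτ)
  obtain ⟨ht, hd⟩ := trace_det_of_charpoly _ hch
  have hunit : IsUnit (repMatrix H.ρ τ).det :=
    (Matrix.isUnit_iff_isUnit_det _).mp ((Group.isUnit τ).map (repMatrix H.ρ))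
  rw [map_pow]
  refine ⟨?_, by rw [Matrix.det_pow, hd]⟩
  rw [map_powTrace, map_natCast, ← ht, ← hd, trace_pow_eq_powTrace _ hunit]

include hp𝒪 hpS in
/-- The traces of `ρ` are, modulo `𝔪^n`, the Hecke elements `g + χ(g) g⁻¹` of a high level. -/
theorem exists_trace_level (n : ℕ) :
    ∃ m : ℕ, (∀ t, Ins.model.matS hNS m t = 0 → H.π t ∈ IsLocalRing.maximalIdeal T ^ n) ∧
      ∀ g : GQ, ∃ b : CuspForm.heckeAlgebra N 2 (↑S : Set ℕ),
        Ins.model.rep m g + cyc p m g • Ins.model.rep m g⁻¹ = Ins.model.matS hNS m b ∧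
          (repMatrix H.ρ g).trace - H.π b ∈ IsLocalRing.maximalIdeal T ^ n := by
  set M := Ins.model
  obtain ⟨m, hm⟩ := exists_level_pi_mem_pow Ins hp𝒪 hNS H n
  obtain ⟨L, hL, hcont⟩ := repMatrix_continuous H.ρ n
  refine ⟨m, hm m le_rfl, fun g => ?_⟩
  obtain ⟨ℓ, hℓ, hℓN, hℓS, A, τ, k, hA, hτ, hL', -, hb⟩ :=
    M.exists_trace_element Ins.galois hpS hNS m g L
  refine ⟨_, hb, ?_⟩
  rw [← (repMatrix_frobenius_pow H hℓ hℓN hℓS hA hτ k).1, ← Matrix.trace_sub,
    Matrix.trace_fin_two]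
  exact Ideal.add_mem _ (repMatrix_sub_mem_pow H.ρ hcont hL' 0 0)
    (repMatrix_sub_mem_pow H.ρ hcont hL' 1 1)

end Level

variable {p : ℕ} {N : ℕ} [NeZero N] {S : Finset ℕ}
  {𝒪 : Type} [CommRing 𝒪] [IsDomain 𝒪] [IsDiscreteValuationRing 𝒪]
  [IsAdicComplete (IsLocalRing.maximalIdeal 𝒪) 𝒪]
  {θ : CuspForm.heckeAlgebra N 2 (↑S : Set ℕ) →+* IsLocalRing.ResidueField 𝒪}
  {T : Type} [CommRing T] [IsLocalRing T] [IsNoetherianRing T]
  [IsAdicComplete (IsLocalRing.maximalIdeal T) T] [Algebra 𝒪 T] [IsLocalHom (algebraMap 𝒪 T)]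
  [Module.Finite 𝒪 T] [Module.Free 𝒪 T]

/-- The representation of a Hecke datum is unramified outside `S`. -/
theorem isUnramifiedAt_of_inputs (Ins : JacobianInputs N p) (hp : p.Prime)
    (hp𝒪 : (p : 𝒪) ∈ IsLocalRing.maximalIdeal 𝒪) (hpS : p ∈ S)
    (hNS : ∀ q : ℕ, q.Prime → q ∣ N → q ∈ S)
    (H : CuspForm.HeckeGaloisRepDatum N (↑S : Set ℕ) 𝒪 θ T)
    (q : ℕ) (hq : q.Prime) (hqS : q ∉ S) :
    H.ρ.IsUnramifiedAt q := by
  have : Fact p.Prime := ⟨hp⟩
  intro P hP σ hσ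
  have hNS' : ∀ r : ℕ, r.Prime → r ∣ N → r ∈ (↑S : Set ℕ) := hNS
  have hqp : q ≠ p := fun h => hqS (h ▸ hpS)
  have hqNp : ¬ q ∣ N * p := fun h => (hq.dvd_mul.mp h).elim (fun h => hqS (hNS q hq h))
    fun h => hqp ((Nat.prime_dvd_prime_iff_eq hq hp).mp h)
  set R := repMatrix H.ρ with hR
  set 𝔪 := IsLocalRing.maximalIdeal T
  set M := Ins.model
  have htr : ∀ h : GQ, (R (h * σ)).trace = (R h).trace := by
    intro h
    rw [← sub_eq_zero]
    refine IsHausdorff.haus (IsAdicComplete.toIsHausdorff (I := 𝔪) (M := T)) _ fun n => ?_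
    rw [SModEq.zero, smul_eq_mul, Ideal.mul_top]
    obtain ⟨m, hsat, key⟩ :=
      exists_trace_level Ins hp𝒪 hpS hNS' (HeckeRep.ofDatum H) n
    obtain ⟨b, hb, hb'⟩ := key (h * σ)
    obtain ⟨c, hc, hc'⟩ := key h
    have hrep : M.rep m σ = 1 := M.rep_inertia Ins.galois m hq hqNp P hP σ hσ
    have hrep' : M.rep m σ⁻¹ = 1 :=
      M.rep_inertia Ins.galois m hq hqNp P hP σ⁻¹ (Subgroup.inv_mem _ hσ)
    have hcy : cyc p m σ = 1 := cyc_inertia p m hq hqp hP hσ
    have hbc : M.matS hNS' m (b - c) = 0 := by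
      rw [map_sub, ← hb, ← hc, mul_inv_rev, map_mul (M.rep m) h σ, map_mul (M.rep m) σ⁻¹ h⁻¹,
        map_mul (cyc p m), hrep, hrep', hcy, mul_one, mul_one, one_mul, sub_self]
    have hdiff : H.π b - H.π c ∈ 𝔪 ^ n := by
      rw [← map_sub]
      exact hsat _ hbc
    have e : (R (h * σ)).trace - (R h).trace =
        ((R (h * σ)).trace - H.π b) - ((R h).trace - H.π c) + (H.π b - H.π c) := by ring
    rw [e]
    exact Ideal.add_mem _ (Ideal.sub_mem _ hb' hc') hdiff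
  obtain ⟨g, hg⟩ := repMatrix_hasTraceBasis H.ρ H.residual_absIrr
  have hone : R σ = 1 := by
    rw [← sub_eq_zero]
    refine eq_zero_of_trace_mul_eq_zero (fun i => R (g i)) hg _ fun i => ?_
    rw [mul_sub, mul_one, ← map_mul, Matrix.trace_sub, htr, sub_self]
  rw [← map_one H.ρ.ρ]
  exact repMatrix_injective H.ρ σ 1 (hone.trans (map_one R).symm)

end Fermat.Agent.Attach
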