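import Fermat.Prelude.Def_GaloisRep_LocalConditions
import Fermat.Agent.Attach.HeckeRep
import Fermat.Agent.Attach.Unramified

/-!
# From unipotent inertia on torsion to unipotent inertia on the Hecke representation

If inertia at a prime `q ≠ p` acts on the `p`-power torsion of `J₀(N)` by elements `σ` with
`(σ - 1)² = 0`, then it acts unipotently on any representation attached to the Hecke algebra with
absolutely irreducible reduction. Used at the primes exactly dividing the level.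
-/

noncomputable section

open Polynomial

namespace Fermat.Agent.Attach

local notation "Qbar" => AlgebraicClosure ℚ
local notation "GQ" => (AlgebraicClosure ℚ ≃ₐ[ℚ] AlgebraicClosure ℚ)

namespace TorsionModel

variable {N : ℕ} [NeZero N] {p : ℕ} (M : TorsionModel N p)

/-- Unipotence on torsion points gives unipotent matrices. -/
theorem rep_sub_one_sq (n : ℕ) (σ : GQ)
    (h : ∀ y : ModularCurve.JZero N, p ^ n • y = 0 → σ • (σ • y - y) = σ • y - y) :
    (M.rep n σ - 1) * (M.rep n σ - 1) = 0 := by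
  show (M.redMat n (M.galMat n σ) - 1) * (M.redMat n (M.galMat n σ) - 1) = 0
  rw [← (M.redMat n).map_one, ← (M.redMat n).map_sub, ← (M.redMat n).map_mul,
    ← (M.redMat n).map_zero]
  refine M.redMat_eq_of_forall_pt n _ _ fun v => ?_
  have h' := h _ (M.pt_torsion n v)
  rw [M.galMat_spec, ← map_sub, M.galMat_spec, ← sub_eq_zero, ← map_sub] at h'
  rw [Matrix.zero_mulVec, map_zero, ← h']
  congr 1
  simp only [Matrix.sub_mul, Matrix.mul_sub, Matrix.one_mul, Matrix.mul_one, Matrix.sub_mulVec,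
    Matrix.mulVec_sub, ← Matrix.mulVec_mulVec, Matrix.one_mulVec]

end TorsionModel

/-- A unit with unipotent square-zero part satisfies `u + u⁻¹ = 2`. -/
theorem add_eq_two_of_sub_one_sq {R : Type*} [Ring R] {u v : R} (huv : u * v = 1)
    (h : (u - 1) * (u - 1) = 0) : u + v = 2 := by
  have h1 : (u - 1) * (u - 1) * v = u + v - 2 := by
    rw [sub_mul, mul_sub, one_mul, mul_one, sub_mul, sub_mul, mul_assoc u u v, huv, mul_one,
      sub_mul, huv, one_mul, ← one_add_one_eq_two]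
    abel
  rw [h, zero_mul] at h1
  exact sub_eq_zero.mp h1.symm

variable {p : ℕ} {N : ℕ} [NeZero N] {S : Finset ℕ}
  {𝒪 : Type} [CommRing 𝒪] [IsDomain 𝒪] [IsDiscreteValuationRing 𝒪]
  {T : Type} [CommRing T] [IsLocalRing T]
  [IsAdicComplete (IsLocalRing.maximalIdeal T) T] [Algebra 𝒪 T] [IsLocalHom (algebraMap 𝒪 T)]

/-- If inertia at `q` acts on all torsion with square zero, it is unipotent on `H.ρ`. -/
theorem isUnipotentOnInertiaAt_of_inputs (Ins : JacobianInputs N p) (hp : p.Prime)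
    (hp𝒪 : (p : 𝒪) ∈ IsLocalRing.maximalIdeal 𝒪) (hpS : p ∈ S)
    (hNS : ∀ q : ℕ, q.Prime → q ∣ N → q ∈ S)
    (H : HeckeRep N (↑S : Set ℕ) 𝒪 T)
    (q : ℕ) (hq : q.Prime) (hqp : q ≠ p)
    (hunip : ∀ P : ValuationSubring Qbar, P.LiesOverPrime q → ∀ σ ∈ P.inertiaSubgroupIn ℚ,
      ∀ (n : ℕ) (y : ModularCurve.JZero N), p ^ n • y = 0 → σ • (σ • y - y) = σ • y - y) :
    H.ρ.IsUnipotentOnInertiaAt q := by
  have : Fact p.Prime := ⟨hp⟩
  intro P hP σ hσ
  have hNS' : ∀ r : ℕ, r.Prime → r ∣ N → r ∈ (↑S : Set ℕ) := hNS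
  set R := repMatrix H.ρ with hR
  set 𝔪 := IsLocalRing.maximalIdeal T
  set M := Ins.model
  have hpT : ((p : ℕ) : T) ∈ 𝔪 := natCast_mem_maximalIdeal' hp𝒪
  have haus : ∀ x : T, (∀ n, x ∈ 𝔪 ^ n) → x = 0 := fun x hx =>
    IsHausdorff.haus (IsAdicComplete.toIsHausdorff (I := 𝔪) (M := T)) x fun n => by
      rw [SModEq.zero, smul_eq_mul, Ideal.mul_top]
      exact hx n
  have main : ∀ n, (R σ).trace - 2 ∈ 𝔪 ^ n ∧ (R σ).det - 1 ∈ 𝔪 ^ n := by
    intro n
    obtain ⟨m₀, hm₀⟩ := exists_level_pi_mem_pow Ins hp𝒪 hNS' H n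
    set m := max m₀ n with hm
    obtain ⟨L, hL, hcont⟩ := repMatrix_continuous H.ρ n
    obtain ⟨ℓ, hℓ, hℓN, hℓS, A, τ, k, hA, hτ, hL', hcyc, hb⟩ :=
      M.exists_trace_element Ins.galois hpS hNS' m σ L
    set b := powTrace (CuspForm.heckeAlgebra.T hℓ hℓN hℓS)
      (ℓ : CuspForm.heckeAlgebra N 2 (↑S : Set ℕ)) k with hbdef
    obtain ⟨htrk, hdetk⟩ := repMatrix_frobenius_pow H hℓ hℓN hℓS hA hτ k
    rw [← hR, ← hbdef] at htrk
    rw [← hR] at hdetk
    have hmat := repMatrix_sub_mem_pow H.ρ hcont hL'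
    rw [← hR] at hmat
    -- on torsion `σ + σ⁻¹ = 2`
    have hcy : cyc p m σ = 1 := cyc_inertia p m hq hqp hP hσ
    have hsum : M.rep m σ + M.rep m σ⁻¹ = 2 :=
      add_eq_two_of_sub_one_sq (by rw [← map_mul, mul_inv_cancel, map_one])
        (M.rep_sub_one_sq m σ (hunip P hP σ hσ m))
    have hb' : H.π b - 2 ∈ 𝔪 ^ n := by
      rw [← map_ofNat H.π 2, ← map_sub]
      refine hm₀ m (le_max_left m₀ n) _ ?_
      rw [map_sub, map_ofNat, ← hb, hcy, one_smul, hsum, sub_self]
    refine ⟨?_, ?_⟩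
    · have e : (R σ).trace - 2 = (R σ - R (τ ^ k)).trace + (H.π b - 2) := by
        rw [Matrix.trace_sub, htrk]; ring
      rw [e, Matrix.trace_fin_two]
      exact Ideal.add_mem _ (Ideal.add_mem _ (hmat 0 0) (hmat 1 1)) hb'
    · have hlk : ((ℓ : T) ^ k) - 1 ∈ 𝔪 ^ n := by
        have h1 : ((p ^ m : ℕ) : ℤ) ∣ (ℓ : ℤ) ^ k - 1 := by
          rw [← ZMod.intCast_zmod_eq_zero_iff_dvd]
          push_cast
          rw [← hcyc, hcy, sub_self]
        obtain ⟨c, hc⟩ := h1
        have h2 : ((ℓ : T) ^ k) - 1 = ((p : T) ^ m) * (c : T) := by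
          simpa using congrArg (Int.cast : ℤ → T) hc
        rw [h2]
        exact Ideal.mul_mem_right _ _
          (Ideal.pow_le_pow_right (le_max_right m₀ n) (Ideal.pow_mem_pow hpT m))
      have e : (R σ).det - (R (τ ^ k)).det ∈ 𝔪 ^ n := by
        rw [← Ideal.Quotient.mk_eq_mk_iff_sub_mem, RingHom.map_det, RingHom.map_det]
        congr 1
        ext i j
        exact (Ideal.Quotient.mk_eq_mk_iff_sub_mem _ _).mpr (hmat i j)
      rw [hdetk] at e
      have := Ideal.add_mem _ e hlk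
      rwa [sub_add_sub_cancel] at this
  have htr : (R σ).trace = 2 := sub_eq_zero.mp (haus _ fun n => (main n).1)
  have hdet : (R σ).det = 1 := sub_eq_zero.mp (haus _ fun n => (main n).2)
  rw [← repMatrix_charpoly, Matrix.charpoly_fin_two, ← hR, htr, hdet, map_one, map_ofNat]
  ring

end Fermat.Agent.Attach
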